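import Fermat.Agent.LT.Whit.Coef

/-!
# Cuspidal data of depth zero at a place with three residues

Invariance under the normaliser of the nonsplit residual torus together with vanishing of the sum
over the residual translations confines the Whittaker function to one layer of the torus.
-/

set_option autoImplicit false

noncomputable section

open Matrix IsDedekindDomain NumberField Filter WithZero
open FermatAgent.LT.Theta.LocalChar
open scoped MatrixGroups

namespace FermatAgent.LT.Whit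

variable {L : Type*} [Field L] [NumberField L]

/-- Iwasawa form of a class. -/
theorem exists_iwasawa_G2 (v : HeightOneSpectrum (𝓞 L)) (g : G2 L) :
    ∃ (β : L) (α : Lˣ) (k : G2 L), k ∈ locK v ∧ g = nB β * dG α * k := by
  obtain ⟨g, rfl⟩ := ProjGenLinGroup.mk_surjective g
  obtain ⟨b, hb, k, hk, rfl⟩ := exists_iwasawa v g
  obtain ⟨α, β, h⟩ := exists_upper_form hb
  exact ⟨β, α, _, ⟨k, hk, rfl⟩, by rw [map_mul, h, map_mul]⟩

/-- Put a class in the component at `v` of an element which is trivial there. -/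
theorem exists_slot (v : HeightOneSpectrum (𝓞 L)) (a : adelGrp L) :
    ∃ (β : L) (α : Lˣ) (k : G2 L) (b : adelGrp L), k ∈ locK v ∧ b.1 v = 1 ∧
      (∀ w ≠ v, b.1 w = a.1 w) ∧ a = atV v (nB β) * (b * atV v (dG α) * atV v k) := by
  obtain ⟨β, α, k, hk, hg⟩ := exists_iwasawa_G2 v (a.1 v)
  refine ⟨β, α, k, a * atV v (a.1 v)⁻¹, hk, by simp, fun w hw => by simp [atV_ne hw], ?_⟩
  refine Subtype.ext (funext fun w => ?_)
  show a.1 w = (atV v (nB β)).1 w * (((a.1 w * (atV v (a.1 v)⁻¹).1 w) * (atV v (dG α)).1 w) *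
    (atV v k).1 w)
  by_cases hw : w = v
  · subst hw
    simp only [atV_same, mul_inv_cancel, one_mul]
    rw [hg, mul_assoc]
  · simp [atV_ne hw]

variable {v : HeightOneSpectrum (𝓞 L)}

/-- The normaliser condition with sign `s`. -/
def IsTorusMod (v : HeightOneSpectrum (𝓞 L)) (s : ℤˣ) (g : GL (Fin 2) L) : Prop :=
  v.valuation L (g.val 0 0 - ((s : ℤ) : L) * g.val 1 1) < 1 ∧
    v.valuation L (g.val 0 1 + ((s : ℤ) : L) * g.val 1 0) < 1

lemma IsTorusMod.mul {g h : GL (Fin 2) L} (hg : g ∈ locGL v) (hh : h ∈ locGL v) {s t : ℤˣ}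
    (h1 : IsTorusMod v s g) (h2 : IsTorusMod v t h) : IsTorusMod v (s * t) (g * h) := by
  have hs : ∀ s : ℤˣ, v.valuation L ((s : ℤ) : L) ≤ 1 := fun s => by
    rcases Int.units_eq_one_or s with rfl | rfl <;> simp
  have hl : ∀ a b : L, v.valuation L a < 1 → v.valuation L b ≤ 1 → v.valuation L (a * b) < 1 :=
    fun a b ha hb => by rw [map_mul]; exact mul_lt_one_of_lt_of_le ha hb
  have ht2 : ((t : ℤ) : L) * ((t : ℤ) : L) = 1 := by
    rw [← Int.cast_mul, ← Units.val_mul, Int.units_mul_self, Units.val_one, Int.cast_one]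
  obtain ⟨a1, a2⟩ := h1
  obtain ⟨b1, b2⟩ := h2
  unfold IsTorusMod
  simp only [Units.val_mul, Matrix.mul_apply, Fin.sum_univ_two, Int.cast_mul]
  constructor
  · rw [show g.val 0 0 * h.val 0 0 + g.val 0 1 * h.val 1 0 - (s : ℤ) * (t : ℤ) *
        (g.val 1 0 * h.val 0 1 + g.val 1 1 * h.val 1 1) =
      ((g.val 0 0 - ((s : ℤ) : L) * g.val 1 1) * h.val 0 0 +
        (h.val 0 0 - ((t : ℤ) : L) * h.val 1 1) * (((s : ℤ) : L) * g.val 1 1)) +
      ((g.val 0 1 + ((s : ℤ) : L) * g.val 1 0) * h.val 1 0 +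
        (h.val 0 1 + ((t : ℤ) : L) * h.val 1 0) * (-(((s : ℤ) : L) * ((t : ℤ) : L) * g.val 1 0))) by
      linear_combination (((s : ℤ) : L) * g.val 1 0 * h.val 1 0) * ht2]
    refine (v.valuation L).map_add_lt ((v.valuation L).map_add_lt (hl _ _ a1 (hh.1 _ _))
      (hl _ _ b1 ?_)) ((v.valuation L).map_add_lt (hl _ _ a2 (hh.1 _ _)) (hl _ _ b2 ?_))
    · rw [map_mul]; exact mul_le_one' (hs s) (hg.1 _ _)
    · rw [Valuation.map_neg, map_mul, map_mul]
      exact mul_le_one' (mul_le_one' (hs s) (hs t)) (hg.1 _ _)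
  · rw [show g.val 0 0 * h.val 0 1 + g.val 0 1 * h.val 1 1 + (s : ℤ) * (t : ℤ) *
        (g.val 1 0 * h.val 0 0 + g.val 1 1 * h.val 1 0) =
      ((g.val 0 0 - ((s : ℤ) : L) * g.val 1 1) * h.val 0 1 +
        (h.val 0 1 + ((t : ℤ) : L) * h.val 1 0) * (((s : ℤ) : L) * g.val 1 1)) +
      ((g.val 0 1 + ((s : ℤ) : L) * g.val 1 0) * h.val 1 1 +
        (h.val 0 0 - ((t : ℤ) : L) * h.val 1 1) * (((s : ℤ) : L) * ((t : ℤ) : L) * g.val 1 0)) by
      linear_combination (((s : ℤ) : L) * g.val 1 0 * h.val 1 1) * ht2]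
    refine (v.valuation L).map_add_lt ((v.valuation L).map_add_lt (hl _ _ a1 (hh.1 _ _))
      (hl _ _ b2 ?_)) ((v.valuation L).map_add_lt (hl _ _ a2 (hh.1 _ _)) (hl _ _ b1 ?_))
    · rw [map_mul]; exact mul_le_one' (hs s) (hg.1 _ _)
    · rw [map_mul, map_mul]; exact mul_le_one' (mul_le_one' (hs s) (hs t)) (hg.1 _ _)

/-- The normaliser of the nonsplit torus modulo the place. -/
def locDGL (v : HeightOneSpectrum (𝓞 L)) : Subgroup (GL (Fin 2) L) where
  carrier := {g | g ∈ locGL v ∧ ∃ s, IsTorusMod v s g}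
  one_mem' := ⟨(locGL v).one_mem, 1, by simp [IsTorusMod]⟩
  mul_mem' := fun ⟨hg, s, hs⟩ ⟨hh, t, ht⟩ => ⟨(locGL v).mul_mem hg hh, s * t, hs.mul hg hh ht⟩
  inv_mem' := by
    rintro g ⟨hg, s, h1, h2⟩
    refine ⟨(locGL v).inv_mem hg, s, ?_⟩
    have hs : v.valuation L ((s : ℤ) : L) = 1 := by
      rcases Int.units_eq_one_or s with rfl | rfl <;> simp
    have hs2 : ((s : ℤ) : L) * ((s : ℤ) : L) = 1 := by
      rw [← Int.cast_mul, ← Units.val_mul, Int.units_mul_self, Units.val_one, Int.cast_one]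
    unfold IsTorusMod
    rw [Matrix.coe_units_inv, Matrix.inv_def, Matrix.adjugate_fin_two]
    simp only [Matrix.smul_apply, smul_eq_mul, Ring.inverse_eq_inv', Matrix.of_apply,
      Matrix.cons_val', Matrix.cons_val_zero, Matrix.cons_val_one, Matrix.empty_val',
      Matrix.cons_val_fin_one]
    constructor
    · rw [show g.val.det⁻¹ * g.val 1 1 - (s : ℤ) * (g.val.det⁻¹ * g.val 0 0) =
        -(g.val.det⁻¹ * ((s : ℤ) * (g.val 0 0 - ((s : ℤ) : L) * g.val 1 1))) by
        linear_combination (-(g.val.det⁻¹ * g.val 1 1)) * hs2]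
      rwa [Valuation.map_neg, map_mul, map_mul, map_inv₀, hg.2, inv_one, one_mul, hs, one_mul]
    · rw [show g.val.det⁻¹ * -g.val 0 1 + (s : ℤ) * (g.val.det⁻¹ * -g.val 1 0) =
        -(g.val.det⁻¹ * (g.val 0 1 + ((s : ℤ) : L) * g.val 1 0)) by ring]
      rwa [Valuation.map_neg, map_mul, map_inv₀, hg.2, inv_one, one_mul]

/-- The normaliser of the nonsplit torus in `PGL₂`. -/
def locD (v : HeightOneSpectrum (𝓞 L)) : Subgroup (G2 L) :=
  (locDGL v).map ProjGenLinGroup.mk

/-- The dihedral group lies in the maximal compact group. -/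
lemma locD_le (v : HeightOneSpectrum (𝓞 L)) : locD v ≤ locK v :=
  Subgroup.map_mono fun _ hg => hg.1

/-- The dihedral group contains the congruence subgroup. -/
lemma locK1_le_locD (v : HeightOneSpectrum (𝓞 L)) : locK1 v ≤ locD v :=
  Subgroup.map_mono fun g hg => ⟨hg.1, 1, by simpa using hg.2.2.2,
    by simpa using (v.valuation L).map_add_lt hg.2.1 hg.2.2.1⟩

/-- Membership in the dihedral group. -/
lemma mk_mem_locD_iff {g : GL (Fin 2) L} (hg : g ∈ locGL v) :
    ProjGenLinGroup.mk g ∈ locD v ↔ ∃ s, IsTorusMod v s g := by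
  refine ⟨?_, fun h => ⟨g, ⟨hg, h⟩, rfl⟩⟩
  rintro ⟨h, ⟨hh, s, h1, h2⟩, he⟩
  obtain ⟨u, hu⟩ := Matrix.ProjGenLinGroup.mk_eq_mk_iff.mp he
  subst hu
  have hu1 : v.valuation L (u : L) = 1 := by
    have := hg.2
    rw [Units.val_mul, Matrix.det_mul, map_mul, hh.2, one_mul, GeneralLinearGroup.coe_scalar,
      Matrix.det_fin_two] at this
    simp only [Matrix.scalar_apply, Matrix.diagonal_apply_eq, ne_eq, Fin.zero_ne_one,
      not_false_eq_true, Matrix.diagonal_apply_ne, zero_mul, sub_zero, map_mul] at this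
    exact (pow_eq_one_iff_of_nonneg zero_le two_ne_zero).mp (by rw [sq]; exact this)
  have e : ∀ i j, (h * GeneralLinearGroup.scalar (Fin 2) u).val i j = h.val i j * u := fun i j => by
    fin_cases j <;> simp [GeneralLinearGroup.coe_scalar, Matrix.mul_apply, Fin.sum_univ_two]
  refine ⟨s, ?_, ?_⟩ <;> simp only [e]
  · rwa [show ∀ a b : L, a * u - (s : ℤ) * (b * u) = (a - (s : ℤ) * b) * u from
      fun a b => by ring, map_mul, hu1, mul_one]
  · rwa [show ∀ a b : L, a * u + (s : ℤ) * (b * u) = (a + (s : ℤ) * b) * u from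
      fun a b => by ring, map_mul, hu1, mul_one]

/-- The dihedral condition on entries. -/
lemma exists_isTorusMod_iff {v : HeightOneSpectrum (𝓞 L)} {k : GL (Fin 2) L} :
    (∃ s, IsTorusMod v s k) ↔
      (v.valuation L (k.val 0 0 - k.val 1 1) < 1 ∧ v.valuation L (k.val 0 1 + k.val 1 0) < 1) ∨
      (v.valuation L (k.val 0 0 + k.val 1 1) < 1 ∧ v.valuation L (k.val 0 1 - k.val 1 0) < 1) := by
  constructor
  · rintro ⟨s, h⟩
    rcases Int.units_eq_one_or s with rfl | rfl
    exacts [Or.inl (by simpa [IsTorusMod] using h),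
      Or.inr (by simpa [IsTorusMod, sub_eq_add_neg] using h)]
  · rintro (h | h)
    exacts [⟨1, by simpa [IsTorusMod] using h⟩,
      ⟨-1, by simpa [IsTorusMod, sub_eq_add_neg] using h⟩]

lemma dG_neg_one_mem_locD (v : HeightOneSpectrum (𝓞 L)) : dG (-1 : Lˣ) ∈ locD v :=
  ⟨dB (-1), ⟨dB_mem_locGL (by simp), exists_isTorusMod_iff.2 (Or.inr ⟨by simp, by simp⟩)⟩, rfl⟩

/-- Distinct residual translations give distinct cosets of the normaliser. -/
lemma eq_of_nB_mem_locD {v : HeightOneSpectrum (𝓞 L)} {b b' : L} (hb : b ∈ residues v)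
    (hb' : b' ∈ residues v) {k : G2 L} (h : (nB b)⁻¹ * k ∈ locD v)
    (h' : (nB b')⁻¹ * k ∈ locD v) : b = b' := by
  refine (isResidues v).unique b hb b' hb' ?_
  have hle : v.valuation L (b - b') ≤ 1 := (Valuation.map_sub _ _ _).trans
    (max_le ((isResidues v).le_one b hb) ((isResidues v).le_one b' hb'))
  have hm := mul_mem h' (inv_mem h)
  rw [show (nB b' : G2 L)⁻¹ * k * ((nB b : G2 L)⁻¹ * k)⁻¹ = (nB b' : G2 L)⁻¹ * nB b by group,
    ← nB_neg, ← nB_add, neg_add_eq_sub] at hm
  obtain ⟨s, -, h2⟩ := (mk_mem_locD_iff (uB_mem_locGL hle)).1 hm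
  simpa using h2

/-- A place over three of norm three. -/
structure IsThree (v : HeightOneSpectrum (𝓞 L)) : Prop where
  absNorm : v.asIdeal.absNorm = 3
  three : v.valuation L 3 < 1

lemma IsThree.v_two (h : IsThree v) : v.valuation L 2 = 1 := by
  rw [show (2 : L) = 3 - 1 by norm_num, Valuation.map_sub_eq_of_lt_right _ (by simpa using h.three),
    map_one]

lemma IsThree.cases (h : IsThree v) {x : L} (hx : v.valuation L x ≤ 1) :
    v.valuation L x < 1 ∨ v.valuation L (x - 1) < 1 ∨ v.valuation L (x + 1) < 1 :=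
  Theta.Place.residue_three h.absNorm h.v_two hx

lemma IsThree.v_sq_add_sq (h : IsThree v) {c d : L} (hc : v.valuation L c ≤ 1)
    (hd : v.valuation L d ≤ 1) (hne : v.valuation L c = 1 ∨ v.valuation L d = 1) :
    v.valuation L (c ^ 2 + d ^ 2) = 1 := by
  have sq : ∀ z : L, v.valuation L z = 1 → v.valuation L (z ^ 2 - 1) < 1 := fun z hz => by
    rw [show z ^ 2 - 1 = (z - 1) * (z + 1) by ring, map_mul]
    rcases h.cases hz.le with h0 | h1 | h1
    · exact absurd hz h0.ne
    · exact mul_lt_one_of_lt_of_le h1 ((Valuation.map_add _ _ _).trans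
        (max_le hz.le (map_one _).le))
    · exact Right.mul_lt_one_of_le_of_lt ((Valuation.map_sub _ _ _).trans
        (max_le hz.le (map_one _).le)) h1
  have key : ∀ {c d : L}, v.valuation L d ≤ 1 → v.valuation L c = 1 →
      v.valuation L (c ^ 2 + d ^ 2) = 1 := by
    intro c d hd hc
    rcases hd.lt_or_eq with hd | hd
    · rw [Valuation.map_add_eq_of_lt_left, map_pow, hc, one_pow]
      rw [map_pow, map_pow, hc, one_pow]
      exact pow_lt_one' hd two_ne_zero
    · rw [show c ^ 2 + d ^ 2 = 2 + ((c ^ 2 - 1) + (d ^ 2 - 1)) by ring,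
        Valuation.map_add_eq_of_lt_left, h.v_two]
      rw [h.v_two]
      exact Valuation.map_add_lt _ (sq c hc) (sq d hd)
  rcases hne with h1 | h1
  · exact key hd h1
  · rw [add_comm]; exact key hc h1

/-- The residual translations represent the cosets of the normaliser. -/
theorem IsThree.exists_nB_mem (h : IsThree v) {k : G2 L} (hk : k ∈ locK v) :
    ∃ b ∈ residues v, (nB b)⁻¹ * k ∈ locD v := by
  obtain ⟨k, ⟨hle, hdet⟩, rfl⟩ := hk
  set a := k.val 0 0
  set B := k.val 0 1
  set c := k.val 1 0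
  set d := k.val 1 1
  have hdet' : v.valuation L (a * d - B * c) = 1 := by
    rw [← hdet, Matrix.det_fin_two]
  have hne : v.valuation L c = 1 ∨ v.valuation L d = 1 := by
    by_contra hcon
    push Not at hcon
    refine hdet'.not_lt (lt_of_le_of_lt (Valuation.map_sub _ _ _) (max_lt ?_ ?_)) <;> rw [map_mul]
    · exact Right.mul_lt_one_of_le_of_lt (hle 0 0) (lt_of_le_of_ne (hle 1 1) hcon.2)
    · exact Right.mul_lt_one_of_le_of_lt (hle 0 1) (lt_of_le_of_ne (hle 1 0) hcon.1)
  have hs := h.v_sq_add_sq (hle 1 0) (hle 1 1) hne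
  have hs0 : c ^ 2 + d ^ 2 ≠ 0 := fun e => by rw [e, map_zero] at hs; exact zero_ne_one hs
  set x := (a * c + B * d) / (c ^ 2 + d ^ 2)
  set ε := (a * d - B * c) / (c ^ 2 + d ^ 2)
  have hxle : v.valuation L x ≤ 1 := by
    rw [map_div₀, hs, div_one]
    refine (Valuation.map_add _ _ _).trans (max_le ?_ ?_) <;> rw [map_mul] <;>
      exact mul_le_one' (hle _ _) (hle _ _)
  have hε : v.valuation L ε = 1 := by rw [map_div₀, hs, hdet', div_one]
  obtain ⟨b, hb, hbx⟩ := (isResidues v).exists_mem x hxle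
  refine ⟨b, hb, ⟨uB (-b) * k, ⟨(locGL v).mul_mem (uB_mem_locGL (by
    rw [Valuation.map_neg]; exact (isResidues v).le_one b hb)) ⟨hle, hdet⟩,
    exists_isTorusMod_iff.2 ?_⟩, by rw [map_mul, ← nB_neg]⟩⟩
  have e1 : (uB (-b) * k).val 0 0 = (x - b) * c + ε * d := by
    simp [Matrix.mul_apply, Fin.sum_univ_two, x, ε]
    field_simp
    ring
  have e2 : (uB (-b) * k).val 0 1 = (x - b) * d - ε * c := by
    simp [Matrix.mul_apply, Fin.sum_univ_two, x, ε]
    field_simp
    ring
  have e3 : (uB (-b) * k).val 1 0 = c := by simp [Matrix.mul_apply, Fin.sum_univ_two, c]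
  have e4 : (uB (-b) * k).val 1 1 = d := by simp [Matrix.mul_apply, Fin.sum_univ_two, d]
  rw [e1, e2, e3, e4]
  have small : ∀ {p q r : L}, v.valuation L q ≤ 1 → v.valuation L r ≤ 1 →
      v.valuation L p < 1 → v.valuation L ((x - b) * q + p * r) < 1 := fun hq hr hp =>
    Valuation.map_add_lt _ (by rw [map_mul]; exact mul_lt_one_of_lt_of_le hbx hq)
      (by rw [map_mul]; exact mul_lt_one_of_lt_of_le hp hr)
  rcases h.cases hε.le with h0 | h1 | h1
  · exact absurd hε h0.ne
  · refine Or.inl ⟨?_, ?_⟩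
    · rw [show (x - b) * c + ε * d - d = (x - b) * c + (ε - 1) * d by ring]
      exact small (hle 1 0) (hle 1 1) h1
    · rw [show (x - b) * d - ε * c + c = (x - b) * d + -(ε - 1) * c by ring]
      exact small (hle 1 1) (hle 1 0) (by rwa [Valuation.map_neg])
  · refine Or.inr ⟨?_, ?_⟩
    · rw [show (x - b) * c + ε * d + d = (x - b) * c + (ε + 1) * d by ring]
      exact small (hle 1 0) (hle 1 1) h1
    · rw [show (x - b) * d - ε * c - c = (x - b) * d + -(ε + 1) * c by ring]
      exact small (hle 1 1) (hle 1 0) (by rwa [Valuation.map_neg])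

/-- The index of the normaliser in the maximal compact group. -/
theorem IsThree.relIndex_locD (h : IsThree v) : (locD v).relIndex (locK v) = 3 := by
  let F : residues v → locK v ⧸ (locD v).subgroupOf (locK v) := fun b =>
    QuotientGroup.mk ⟨nB b, nB_mem_locK ((isResidues v).le_one b b.2)⟩
  have hF : Function.Bijective F := by
    refine ⟨fun b b' e => Subtype.ext ?_, fun q => ?_⟩
    · rw [QuotientGroup.eq, Subgroup.mem_subgroupOf] at e
      refine eq_of_nB_mem_locD b.2 b'.2 (k := nB (b' : L)) (by simpa using e) ?_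
      rw [inv_mul_cancel]
      exact one_mem _
    · induction q using QuotientGroup.induction_on with | H k =>
      obtain ⟨b, hb, hk⟩ := h.exists_nB_mem k.2
      exact ⟨⟨b, hb⟩, QuotientGroup.eq.2 (Subgroup.mem_subgroupOf.2 hk)⟩
  rw [Subgroup.relIndex, Subgroup.index, ← Nat.card_eq_of_bijective F hF, Nat.card_eq_fintype_card,
    Fintype.card_coe, card_residues, h.absNorm]

/-- The cuspidal data of depth zero: invariance under the normaliser of the nonsplit torus and
vanishing sum over the residual translations. -/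
structure IsTameCusp (v : HeightOneSpectrum (𝓞 L)) (f : InfPts L → adelGrp L → ℂ) : Prop where
  inv : ∀ δ ∈ locD v, ∀ y a, f y (a * atV v δ) = f y a
  sum_zero : ∀ y a, ∑ b ∈ residues v, f y (a * atV v (nB b)) = 0

variable [IsTotallyComplex L] {S : Finset (HeightOneSpectrum (𝓞 L))}
  {f : InfPts L → adelGrp L → ℂ} (hf : IsForm S f) (ht : IsTameCusp v f)

omit [IsTotallyComplex L] in
/-- Local elements are integral everywhere. -/
lemma atV_mem_all {k : G2 L} (hk : k ∈ locK v) (w : HeightOneSpectrum (𝓞 L)) :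
    (atV v k).1 w ∈ locK w := by
  classical
  by_cases h : w = v
  · subst h; simpa using hk
  · rw [atV_ne h]; exact one_mem _

include hf ht in
/-- At a tame cusp the Whittaker function lives on the layer one above the conductor. -/
theorem IsTameCusp.W_eq_zero (h3 : IsThree v) {a : adelGrp L} {α : Lˣ} (ha : a.1 v = dG α)
    (hα : v.valuation L (α : L) ≠ exp (cnd v + 1)) (y : InfPts L) : LT2.Whit.W f y a = 0 := by
  rcases le_or_gt (exp (cnd v + 2)) (v.valuation L (α : L)) with hge | hlt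
  · exact hf.W_eq_zero_of_lt ha hge y
  have hle : v.valuation L (α : L) ≤ exp (cnd v) := by
    have h0 : v.valuation L (α : L) ≠ 0 := (Valuation.ne_zero_iff _).2 α.ne_zero
    rw [← exp_log h0] at hlt hα ⊢
    rw [exp_lt_exp] at hlt
    rw [Ne, exp_inj] at hα
    rw [exp_le_exp]
    omega
  have h := hf.deep.W_rel (residues v) (fun _ => 1) (fun b => atV v (nB b))
    (fun z c => by simpa using ht.sum_zero z c) y a
  simp only [one_mul, hf.deep.W_dG_mul_nB ha, ← Finset.sum_mul] at h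
  rw [sum_psiV_of_le hle, h3.absNorm] at h
  simpa using h

include hf ht in
/-- At a tame cusp the Whittaker function depends only on the valuation along the torus. -/
theorem IsTameCusp.W_unit (h3 : IsThree v) {a : adelGrp L} {α β : Lˣ}
    (hαβ : v.valuation L (α : L) = v.valuation L (β : L)) (y : InfPts L) :
    LT2.Whit.W f y (a * atV v (dG α)) = LT2.Whit.W f y (a * atV v (dG β)) := by
  have hu : v.valuation L ((β⁻¹ * α : Lˣ) : L) = 1 := by
    rw [Units.val_mul, map_mul, hαβ, Units.val_inv_eq_inv_val, map_inv₀,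
      inv_mul_cancel₀ ((Valuation.ne_zero_iff _).2 β.ne_zero)]
  have e : atV v (dG α) = atV v (dG β) * atV v (dG (β⁻¹ * α)) := by
    rw [← map_mul, ← dG_mul, mul_inv_cancel_left]
  rcases h3.cases hu.le with h0 | h1 | h1
  · exact absurd hu h0.ne
  · rw [e, ← mul_assoc, hf.W_level (atV_mem_levelGrp (locK1_le_ofFinset S v (dG_mem_locK1 h1)))]
  · have hd : atV v (dG (β⁻¹ * α)) = atV v (dG (-(β⁻¹ * α))) * atV v (dG (-1 : Lˣ)) := by
      rw [← map_mul, ← dG_mul, mul_neg_one, neg_neg]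
    rw [e, hd, ← mul_assoc, ← mul_assoc,
      hf.deep.W_right (fun z b => ht.inv _ (dG_neg_one_mem_locD v) z b),
      hf.W_level (atV_mem_levelGrp (locK1_le_ofFinset S v (dG_mem_locK1 ?_)))]
    rw [show ((-(β⁻¹ * α) : Lˣ) : L) - 1 = -(((β⁻¹ * α : Lˣ) : L) + 1) by push_cast; ring,
      Valuation.map_neg]
    exact h1

end FermatAgent.LT.Whit
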