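import Fermat.Agent.LT.Whit.Local

/-!
# Hecke operators and the recursion of the Whittaker function

The Hecke operator at a place prime to the level is a sum over `q + 1` neighbours, which turns the
eigenvalue equation into a three term recursion along the torus.
-/

set_option autoImplicit false

noncomputable section

open Matrix IsDedekindDomain NumberField Filter WithZero
open scoped MatrixGroups

namespace FermatAgent.LT.Whit

variable {L : Type*} [Field L] [NumberField L]

/-- A uniformiser as a unit of the field. -/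
def unifU (v : HeightOneSpectrum (𝓞 L)) : Lˣ :=
  Units.mk0 (Theta.Place.unif v) (Theta.Place.unif_ne_zero v)

/-- The valuation of the uniformiser. -/
@[simp] lemma v_unifU (v : HeightOneSpectrum (𝓞 L)) :
    v.valuation L (unifU v : L) = exp (-1 : ℤ) := Theta.Place.v_unif v

/-- The valuations of powers of the uniformiser. -/
lemma v_unifU_zpow (v : HeightOneSpectrum (𝓞 L)) (n : ℤ) :
    v.valuation L ((unifU v ^ n : Lˣ) : L) = exp (-n) := by
  rw [Units.val_zpow_eq_zpow_val, map_zpow₀, v_unifU, ← WithZero.exp_zsmul]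
  simp

variable (v : HeightOneSpectrum (𝓞 L))

/-- The first family of neighbours. -/
def nbr (t : L) : G2 L := nB t * dG (unifU v)

/-- The last neighbour. -/
def nbrLast : G2 L := dG (unifU v)⁻¹

/-- A neighbour as a matrix. -/
lemma nbr_eq (t : L) : nbr v t = ProjGenLinGroup.mk (uB t * dB (unifU v)) := (map_mul _ _ _).symm

/-- The matrix `diag(1, π)`. -/
def lastMat : GL (Fin 2) L :=
  GeneralLinearGroup.mkOfDetNeZero !![1, 0; 0, (unifU v : L)] (by simp [Matrix.det_fin_two])

/-- The last neighbour as a matrix. -/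
lemma nbrLast_eq : nbrLast v = ProjGenLinGroup.mk (lastMat v) := by
  rw [nbrLast, dG, Matrix.ProjGenLinGroup.mk_eq_mk_iff]
  refine ⟨unifU v, ?_⟩
  apply Units.ext
  ext i j
  fin_cases i <;> fin_cases j <;>
    simp [lastMat, GeneralLinearGroup.coe_scalar, GeneralLinearGroup.mkOfDetNeZero,
      Matrix.mul_apply,
      Fin.sum_univ_two]

lemma inv_exp_one_le : (exp (1 : ℤ))⁻¹ ≤ (1 : WithZero (Multiplicative ℤ)) := by
  rw [← WithZero.exp_neg, ← exp_zero, exp_le_exp]; norm_num

lemma nbr_mem_heckeSet {t : L} (ht : v.valuation L t ≤ 1) : nbr v t ∈ heckeSet v := by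
  refine ⟨uB t * dB (unifU v), ⟨fun i j => ?_, ?_⟩, (nbr_eq v t).symm⟩
  · fin_cases i <;> fin_cases j <;>
      simp [Matrix.mul_apply, Fin.sum_univ_two, ht, inv_exp_one_le]
  · simp [Matrix.det_fin_two]

lemma nbrLast_mem_heckeSet : nbrLast v ∈ heckeSet v := by
  refine ⟨lastMat v, ⟨fun i j => ?_, ?_⟩, (nbrLast_eq v).symm⟩
  · fin_cases i <;> fin_cases j <;> simp [lastMat, GeneralLinearGroup.mkOfDetNeZero, inv_exp_one_le]
  · simp [lastMat, GeneralLinearGroup.mkOfDetNeZero, Matrix.det_fin_two]

lemma mk_inv_mul_mem_locK {A H : GL (Fin 2) L}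
    (hle : ∀ i j, v.valuation L ((A⁻¹ * H).val i j) ≤ 1)
    (hA : v.valuation L A.val.det = exp (-1 : ℤ)) (hH : v.valuation L H.val.det = exp (-1 : ℤ)) :
    (ProjGenLinGroup.mk A : G2 L)⁻¹ * ProjGenLinGroup.mk H ∈ locK v := by
  refine ⟨A⁻¹ * H, ⟨hle, ?_⟩, by simp⟩
  have h := congrArg (v.valuation L) (congrArg Matrix.det (congrArg Units.val
    (show A * (A⁻¹ * H) = H from mul_inv_cancel_left A H)))
  rw [Units.val_mul, Matrix.det_mul, map_mul, hA, hH] at h
  exact (mul_eq_left₀ exp_ne_zero).1 h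

/-- Every element of the double coset lies in one of the cosets. -/
theorem heckeSet_cases {h : G2 L} (hh : h ∈ heckeSet v) :
    (∃ t ∈ residues v, (nbr v t)⁻¹ * h ∈ locK v) ∨ (nbrLast v)⁻¹ * h ∈ locK v := by
  obtain ⟨H, ⟨hle, hdet⟩, rfl⟩ := hh
  have hπ : (unifU v : L) ≠ 0 := (unifU v).ne_zero
  have hdet' := hdet
  rw [Matrix.det_fin_two] at hdet'
  by_cases h1 : v.valuation L (H.val 1 0) < 1 ∧ v.valuation L (H.val 1 1) < 1
  · right
    rw [nbrLast_eq]
    refine mk_inv_mul_mem_locK v (fun i j => ?_) (by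
      simp [lastMat, GeneralLinearGroup.mkOfDetNeZero, Matrix.det_fin_two]) hdet
    rw [Units.val_mul, Matrix.coe_units_inv, Matrix.inv_def, Matrix.adjugate_fin_two]
    have h10 := val_le_exp_of_lt_one h1.1
    have h11 := val_le_exp_of_lt_one h1.2
    have key : ∀ z : L, v.valuation L z ≤ exp (-1 : ℤ) →
        v.valuation L ((unifU v : L)⁻¹ * z) ≤ 1 := fun z hz => by
      rw [map_mul, map_inv₀, v_unifU, inv_mul_le_iff₀ exp_pos, mul_one]; exact hz
    fin_cases i <;> fin_cases j <;>
      simp [lastMat, GeneralLinearGroup.mkOfDetNeZero, Matrix.det_fin_two, Matrix.mul_apply,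
        Fin.sum_univ_two, hle, -map_mul] <;>
      field_simp
    all_goals first
      | with_reducible exact hle _ _
      | (rw [div_eq_inv_mul]; first | exact key _ h10 | exact key _ h11)
  · left
    obtain ⟨j, hj⟩ : ∃ j : Fin 2, v.valuation L (H.val 1 j) = 1 := by
      rcases not_and_or.1 h1 with h | h
      · exact ⟨0, le_antisymm (hle _ _) (not_lt.1 h)⟩
      · exact ⟨1, le_antisymm (hle _ _) (not_lt.1 h)⟩
    have hj0 : H.val 1 j ≠ 0 := fun e => by rw [e, map_zero] at hj; exact zero_ne_one hj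
    obtain ⟨t, ht, htlt⟩ := (isResidues v).exists_mem (H.val 0 j / H.val 1 j) (by
      rw [map_div₀, hj, div_one]; exact hle _ _)
    have htle := (isResidues v).le_one t ht
    refine ⟨t, ht, ?_⟩
    have hrow : ∀ i : Fin 2, v.valuation L (H.val 0 i - t * H.val 1 i) ≤ exp (-1 : ℤ) := by
      intro i
      have hjj : v.valuation L (H.val 0 j - t * H.val 1 j) ≤ exp (-1 : ℤ) := by
        rw [show H.val 0 j - t * H.val 1 j = (H.val 0 j / H.val 1 j - t) * H.val 1 j by
          field_simp, map_mul, hj, mul_one]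
        exact val_le_exp_of_lt_one htlt
      by_cases hij : i = j
      · rwa [hij]
      have hd : v.valuation L ((H.val 0 i - t * H.val 1 i) * H.val 1 j) ≤ exp (-1 : ℤ) := by
        have e : (H.val 0 i - t * H.val 1 i) * H.val 1 j =
            (H.val 0 i * H.val 1 j - H.val 0 j * H.val 1 i) +
              (H.val 0 j - t * H.val 1 j) * H.val 1 i := by ring
        rw [e]
        refine (Valuation.map_add _ _ _).trans (max_le (le_of_eq ?_) ?_)
        · rw [← hdet']
          fin_cases i <;> fin_cases j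
          · exact absurd rfl hij
          · rfl
          · rw [← Valuation.map_neg]; refine congrArg (v.valuation L) ?_
            simp only [Fin.zero_eta, Fin.mk_one, Fin.isValue]; ring
          · exact absurd rfl hij
        · rw [map_mul]
          exact (mul_le_of_le_one_right zero_le (hle _ _)).trans hjj
      rwa [map_mul, hj, mul_one] at hd
    rw [nbr_eq]
    refine mk_inv_mul_mem_locK v (fun i k => ?_) (by simp [Matrix.det_fin_two]) hdet
    rw [Units.val_mul, Matrix.coe_units_inv, Matrix.inv_def, Matrix.adjugate_fin_two]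
    have key : ∀ z : L, v.valuation L z ≤ exp (-1 : ℤ) →
        v.valuation L ((unifU v : L)⁻¹ * z) ≤ 1 := fun z hz => by
      rw [map_mul, map_inv₀, v_unifU, inv_mul_le_iff₀ exp_pos, mul_one]; exact hz
    fin_cases i <;> fin_cases k <;>
      simp [Matrix.det_fin_two, Matrix.mul_apply, Fin.sum_univ_two, hle, -map_mul] <;> field_simp
    all_goals first
      | with_reducible exact hle _ _
      | (have := key _ (hrow 0); rw [← div_eq_inv_mul] at this; convert this using 2; ring1)
      | (have := key _ (hrow 1); rw [← div_eq_inv_mul] at this; convert this using 2; ring1)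

/-- Entries of a representative of a class of the maximal compact group. -/
lemma sq_val_le_of_mk_mem {g : GL (Fin 2) L} (h : (ProjGenLinGroup.mk g : G2 L) ∈ locK v)
    (i j : Fin 2) : v.valuation L (g.val i j) ^ 2 ≤ v.valuation L g.val.det := by
  obtain ⟨k, hk, e⟩ := h
  obtain ⟨u, hu⟩ := Matrix.ProjGenLinGroup.mk_eq_mk_iff.mp e
  rw [← hu, Units.val_mul, Matrix.det_mul, map_mul, hk.2, one_mul]
  simp only [GeneralLinearGroup.coe_scalar, Matrix.scalar_apply, Matrix.mul_diagonal,
    Matrix.det_diagonal, Fin.prod_univ_two, map_mul, mul_pow, map_pow, ← sq]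
  exact mul_le_of_le_one_left zero_le (pow_le_one₀ zero_le (hk.1 i j))

/-- When a translation is in the maximal compact group. -/
lemma mk_uB_mem_locK_iff {x : L} :
    (ProjGenLinGroup.mk (uB x) : G2 L) ∈ locK v ↔ v.valuation L x ≤ 1 :=
  ⟨fun h => val_le_one_of_nB_mem h, fun h => nB_mem_locK h⟩

lemma nbr_inj {t t' : L}
    (h : (nbr v t)⁻¹ * nbr v t' ∈ locK v) : v.valuation L (t - t') < 1 := by
  have e : (nbr v t)⁻¹ * nbr v t' = nB (((unifU v)⁻¹ : Lˣ) * (t' - t)) := by
    have h1 := dG_mul_nB (unifU v)⁻¹ (t' - t)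
    rw [dG_inv] at h1
    rw [nbr, nbr, _root_.mul_inv_rev, ← nB_neg, mul_assoc, ← mul_assoc (nB (-t) : G2 L), ← nB_add,
      ← mul_assoc, neg_add_eq_sub, h1, mul_assoc, inv_mul_cancel, mul_one]
  rw [e, nB, mk_uB_mem_locK_iff, map_mul, Units.val_inv_eq_inv_val, map_inv₀, v_unifU,
    inv_mul_le_iff₀ exp_pos, mul_one] at h
  rw [Valuation.map_sub_swap]
  exact h.trans_lt (by rw [← exp_zero, exp_lt_exp]; norm_num)

lemma nbr_ne_last {t : L} :
    ¬((nbr v t)⁻¹ * nbrLast v ∈ locK v) := by
  intro h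
  have e : (nbr v t)⁻¹ * nbrLast v =
      nB (-(((unifU v)⁻¹ : Lˣ) * t)) * dG ((unifU v)⁻¹ * (unifU v)⁻¹) := by
    rw [nbr, nbrLast, _root_.mul_inv_rev, ← dG_inv, ← nB_neg, dG_mul_nB, mul_assoc, ← dG_mul,
      mul_neg]
  rw [e, nB, dG, ← map_mul] at h
  have := sq_val_le_of_mk_mem v h 0 0
  simp [Matrix.det_fin_two, Matrix.mul_apply, Fin.sum_univ_two, ← WithZero.exp_neg, ← exp_add,
    ← WithZero.exp_nsmul] at this

variable {U : Level L}

open Classical in
/-- The sum over the neighbours of a coset is the sum over `q + 1` translates. -/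
theorem tsum_adj (hv : U.loc v = locK v) (f : G2 L ⧸ U.loc v → ℂ) (g : G2 L) :
    ∑' d : FinCoset.adj v (QuotientGroup.mk g : G2 L ⧸ U.loc v), f d =
      (∑ t ∈ residues v, f (QuotientGroup.mk (g * nbr v t))) +
        f (QuotientGroup.mk (g * nbrLast v)) := by
  let e : Option (residues v) → FinCoset.adj v (QuotientGroup.mk g : G2 L ⧸ U.loc v) := fun o =>
    ⟨QuotientGroup.mk (g * o.elim (nbrLast v) fun t => nbr v t.1), by
      rw [FinCoset.mem_adj_iff, inv_mul_cancel_left]
      cases o with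
      | none => exact nbrLast_mem_heckeSet v
      | some t => exact nbr_mem_heckeSet v ((isResidues v).le_one _ t.2)⟩
  have heq : ∀ a b : G2 L,
      (QuotientGroup.mk (g * a) : G2 L ⧸ U.loc v) = QuotientGroup.mk (g * b) ↔
        a⁻¹ * b ∈ locK v := fun a b => by
    rw [QuotientGroup.eq, hv]
    simp [mul_assoc]
  have hinj : Function.Injective e := by
    rintro (_ | t) (_ | t') h
    · rfl
    · exact absurd ((heq _ _).1 (congrArg Subtype.val h).symm) (nbr_ne_last v)
    · exact absurd ((heq _ _).1 (congrArg Subtype.val h)) (nbr_ne_last v)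
    · rw [Subtype.ext ((isResidues v).unique _ t.2 _ t'.2 (nbr_inj v
        ((heq _ _).1 (congrArg Subtype.val h))))]
  have hsur : Function.Surjective e := by
    rintro ⟨d, hd⟩
    obtain ⟨h, rfl⟩ := QuotientGroup.mk_surjective d
    obtain ⟨x, rfl⟩ : ∃ x, h = g * x := ⟨g⁻¹ * h, (mul_inv_cancel_left g h).symm⟩
    rw [FinCoset.mem_adj_iff, inv_mul_cancel_left] at hd
    rcases heckeSet_cases v hd with ⟨t, ht, hk⟩ | hk
    · exact ⟨some ⟨t, ht⟩, Subtype.ext ((heq _ _).2 hk)⟩
    · exact ⟨none, Subtype.ext ((heq _ _).2 hk)⟩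
  rw [← (Equiv.ofBijective e ⟨hinj, hsur⟩).tsum_eq, tsum_fintype, Fintype.sum_option, add_comm,
    ← Finset.sum_coe_sort (residues v)]
  rfl

/-- The Hecke operator as a sum over representatives. -/
theorem heckeOp_cls (hv : U.loc v = locK v) (φ : Space U → ℂ) (y : InfPts L) (a : adelGrp L) :
    heckeOp v φ (y, cls U a) =
      (∑ t ∈ residues v, φ (y, cls U (a * atV v (nbr v t)))) +
        φ (y, cls U (a * atV v (nbrLast v))) := by
  simp only [cls_mul_atV]
  exact tsum_adj v hv (fun d => φ (y, (cls U a).update v d)) (a.1 v)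

/-- The Hecke operator on functions on the adelic group. -/
def heckeT (f : InfPts L → adelGrp L → ℂ) : InfPts L → adelGrp L → ℂ :=
  fun y a => (∑ t ∈ residues v, f y (a * atV v (nbr v t))) + f y (a * atV v (nbrLast v))

/-- The solution of the Hecke recursion. -/
def heckeSeq (q c : ℂ) : ℕ → ℂ
  | 0 => 1
  | 1 => c / q
  | n + 2 => (c * heckeSeq q c (n + 1) - heckeSeq q c n) / q

/-- The sequence starts at one. -/
lemma heckeSeq_zero (q c : ℂ) : heckeSeq q c 0 = 1 := by rw [heckeSeq]

end FermatAgent.LT.Whit
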