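import Fermat.Agent.LT.Whit.Rules

/-!
# Functions on the adelic space as forms on the adelic group

A bounded measurable eigenfunction of radial kernels is continuous at infinity, so an invariant one
lifts to a form.
-/

set_option autoImplicit false

noncomputable section

open Matrix IsDedekindDomain NumberField Filter MeasureTheory
open scoped MatrixGroups Topology ContDiff

namespace FermatAgent.LT.Whit

/-- The modulus of continuity of a kernel. -/
def kmod (k : ℝ → ℝ) (p p' : H3) : ℝ :=
  ∫ q, ‖k (H3.coshDist p q) - k (H3.coshDist p' q)‖ ∂H3.vol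

lemma isOpen_near (p' : H3) :
    IsOpen {p : H3 | |p.z.re| < |p'.z.re| + 1 ∧ |p.z.im| < |p'.z.im| + 1 ∧
      p'.t / 2 < p.t ∧ p.t < 2 * p'.t} :=
  (isOpen_lt (Complex.continuous_re.comp H3.continuous_z).abs continuous_const).inter
    ((isOpen_lt (Complex.continuous_im.comp H3.continuous_z).abs continuous_const).inter
      ((isOpen_lt continuous_const H3.continuous_t).inter
        (isOpen_lt H3.continuous_t continuous_const)))

lemma continuousAt_kmod {k : ℝ → ℝ} (hk : Continuous k) (hs : HasCompactSupport k) (p' : H3) :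
    ContinuousAt (fun p => kmod k p p') p' := by
  obtain ⟨R, hR⟩ := hs.bddAbove
  obtain ⟨M, hM⟩ := hk.bounded_above_of_compact_support hs
  set R' := max 1 R
  set A := |p'.z.re| + |p'.z.im| + 1
  set c := p'.t / 2
  set C := 2 * p'.t
  have hc : 0 < c := by have := p'.t_pos; positivity
  set B := box (2 * A + 4 * R' * C) (c / (2 * R')) (2 * R' * C)
  have hsupp : ∀ p : H3, |p.z.re| ≤ A → |p.z.im| ≤ A → p.t ∈ Set.Icc c C → ∀ q ∉ B,
      k (H3.coshDist p q) = 0 := fun p h1 h2 h3 q hq => by
    rw [coshDist_eq_Cf]
    by_contra hne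
    exact absurd (hR (subset_closure hne))
      (not_le.2 ((le_max_right _ _).trans_lt (Cf_support hc (le_max_left 1 R) h1 h2 h3 hq)))
  have hp' : |p'.z.re| ≤ A ∧ |p'.z.im| ≤ A ∧ p'.t ∈ Set.Icc c C := by
    have := p'.t_pos
    refine ⟨?_, ?_, ?_, ?_⟩ <;> simp only [A, c, C] <;>
      linarith [abs_nonneg p'.z.re, abs_nonneg p'.z.im]
  refine continuousAt_of_dominated (bound := B.indicator fun _ => 2 * M) ?_ ?_
    ((integrable_indicator_iff (measurableSet_box _ _ _)).2
      (integrableOn_const (C := 2 * M) (vol_box_ne_top _ (div_pos hc (by positivity)) _))) ?_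
  · exact Eventually.of_forall fun p => ((hk.comp (H3.continuous_coshDist p)).sub
      (hk.comp (H3.continuous_coshDist p'))).norm.aestronglyMeasurable
  · have hnhds := (isOpen_near p').mem_nhds (show p' ∈ _ from by
      have := p'.t_pos
      refine ⟨?_, ?_, ?_, ?_⟩ <;> linarith)
    filter_upwards [hnhds] with p hp
    refine ae_of_all _ fun q => ?_
    rw [Real.norm_eq_abs, abs_of_nonneg (norm_nonneg _)]
    by_cases hq : q ∈ B
    · rw [Set.indicator_of_mem hq, two_mul]
      exact (norm_sub_le _ _).trans (add_le_add (hM _) (hM _))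
    · rw [Set.indicator_of_notMem hq, hsupp p' hp'.1 hp'.2.1 hp'.2.2 q hq,
        hsupp p (by linarith [hp.1, abs_nonneg p'.z.im]) (by linarith [hp.2.1, abs_nonneg p'.z.re])
          ⟨hp.2.2.1.le, hp.2.2.2.le⟩ q hq]
      simp
  · refine ae_of_all _ fun q => ((hk.continuousAt.comp ?_).sub continuousAt_const).norm
    simp only [H3.coshDist_comm _ q]
    exact (H3.continuous_coshDist q).continuousAt

variable {ι : Type*} [Fintype ι]

open Classical in
/-- Radial eigenfunctions of several variables are continuous. -/
theorem continuous_of_radial {f : (ι → H3) → ℂ} (hm : Measurable f) {B : ℝ} (hB : ∀ y, ‖f y‖ ≤ B)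
    {k : ℝ → ℝ} (hk : Continuous k) (hs : HasCompactSupport k) {h : ℂ} (h0 : h ≠ 0)
    (heig : ∀ w y, kint (fun p => k (H3.coshDist (y w) p)) (fun p => f (Function.update y w p)) =
      h * f y) : Continuous f := by
  have hint : ∀ (w : ι) (y : ι → H3) (p : H3),
      Integrable (fun q => (k (H3.coshDist p q) : ℂ) * f (Function.update y w q)) H3.vol :=
    fun w y p => integrable_radial_mul hk hs p
      ⟨hm.comp (measurable_update y), fun _ _ _ _ => ⟨B, fun q _ => hB _⟩⟩
  have hstep : ∀ (w : ι) (y : ι → H3) (p : H3),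
      ‖f (Function.update y w p) - f y‖ ≤ ‖h‖⁻¹ * (B * kmod k p (y w)) := by
    intro w y p
    have e1 := heig w (Function.update y w p)
    simp only [Function.update_self, Function.update_idem] at e1
    have e2 := heig w y
    rw [show f (Function.update y w p) - f y = h⁻¹ *
      (kint (fun q => k (H3.coshDist p q)) (fun q => f (Function.update y w q)) -
        kint (fun q => k (H3.coshDist (y w) q)) (fun q => f (Function.update y w q))) by
      rw [e1, e2]; field_simp, norm_mul, norm_inv]
    refine mul_le_mul_of_nonneg_left ?_ (inv_nonneg.2 (norm_nonneg _))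
    rw [kint, kint, ← integral_sub (hint w y p) (hint w y (y w)), kmod, ← integral_const_mul]
    refine norm_integral_le_of_norm_le ?_ (ae_of_all _ fun q => ?_)
    · have h1 : ∀ p, Integrable (fun q => k (H3.coshDist p q)) H3.vol := fun p => by
        simpa using (integrable_radial_mul hk hs p (g := fun _ => 1)
          ⟨measurable_const, fun _ _ _ _ => ⟨1, fun _ _ => by simp⟩⟩).re
      exact ((h1 p).sub (h1 (y w))).norm.const_mul _
    · rw [← sub_mul, norm_mul, mul_comm, ← Complex.ofReal_sub, Complex.norm_real]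
      exact mul_le_mul_of_nonneg_right (hB _) (norm_nonneg _)
  rw [continuous_iff_continuousAt]
  intro y₀
  have htel : ∀ (F : Finset ι) (y : ι → H3), ‖f (F.piecewise y y₀) - f y₀‖ ≤
      ∑ w ∈ F, ‖h‖⁻¹ * (B * kmod k (y w) (y₀ w)) := by
    intro F
    induction F using Finset.induction_on with
    | empty => intro y; simp
    | insert w F hw ih =>
      intro y
      rw [Finset.piecewise_insert, Finset.sum_insert hw]
      refine (norm_sub_le_norm_sub_add_norm_sub _ (f (F.piecewise y y₀)) _).trans
        (add_le_add ?_ (ih y))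
      have := hstep w (F.piecewise y y₀) (y w)
      rwa [Finset.piecewise_eq_of_notMem F y y₀ hw] at this
  refine tendsto_iff_norm_sub_tendsto_zero.2 (squeeze_zero (fun _ => norm_nonneg _)
    (fun y => by simpa using htel Finset.univ y) ?_)
  have hlim : ∀ w : ι, Tendsto (fun y : ι → H3 => ‖h‖⁻¹ * (B * kmod k (y w) (y₀ w)))
      (𝓝 y₀) (𝓝 0) := by
    intro w
    have h1 := (continuousAt_kmod hk hs (y₀ w)).tendsto.comp ((continuous_apply w).tendsto y₀)
    have h00 : kmod k (y₀ w) (y₀ w) = 0 := by simp [kmod]
    rw [h00] at h1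
    simpa using (h1.const_mul B).const_mul ‖h‖⁻¹
  simpa using tendsto_finsetSum Finset.univ fun w _ => hlim w

variable {L : Type*} [Field L] [NumberField L]

/-- The lift of a function on the adelic space. -/
def liftF (U : Level L) (φ : Space U → ℂ) : InfPts L → adelGrp L → ℂ :=
  fun y a => φ (y, cls U a)

variable {S : Finset (HeightOneSpectrum (𝓞 L))} {φ : Space (Level.ofFinset S) → ℂ}

/-- The lift of a radial eigenfunction is radial. -/
theorem isRadial_liftF (hrad : ∀ (w : InfinitePlace L) (k : ℝ → ℝ), ContDiff ℝ ∞ k →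
      HasCompactSupport k → ∀ x, radialOp w (fun p q => k (H3.coshDist p q)) φ x = hT k * φ x) :
    IsRadial (liftF _ φ) := fun w k hk hs y a => hrad w k hk hs (y, cls _ a)

/-- The lift of a bounded measurable invariant radial eigenfunction is a form. -/
theorem isForm_liftF (hinv : ∀ (g : G2 L) x, φ (g • x) = φ x) (hm : Measurable φ)
    (hb : ∃ B, ∀ x, ‖φ x‖ ≤ B) (hrad : IsRadial (liftF _ φ)) : IsForm S (liftF _ φ) where
  glob_smul γ y a := by
    show φ (γ • y, cls _ (glob γ * a)) = φ (y, cls _ a)
    rw [cls_glob_mul]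
    exact hinv γ (y, cls _ a)
  right_inv y a u hu := by
    show φ (y, _) = φ (y, _)
    rw [cls_mul_of_mem a hu]
  cont a := by
    obtain ⟨B, hB⟩ := hb
    exact continuous_of_radial (f := fun y => φ (y, cls _ a)) (hm.comp measurable_prodMk_right)
      (B := B) (fun y => hB _) bump.continuous bump.hasCompactSupport hT_bump_ne_zero
      fun w y => hrad w _ contDiff_bump bump.hasCompactSupport y a
  bdd := hb.imp fun B hB y a => hB _

end FermatAgent.LT.Whit
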