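import Mathlib
import Fermat.Agent.LT.Base.Siegel
import Fermat.Agent.LT.Base.Cusp
import Fermat.Agent.LT.Theta.Approx

/-!
# The finite adelic group

Families of classes of matrices, almost all integral.  Functions on the adelic space are lifted to
this group, where right translations are available without any condition on the level.
-/

set_option autoImplicit false

noncomputable section

open Matrix IsDedekindDomain NumberField Filter WithZero
open scoped MatrixGroups

namespace FermatAgent.LT.Whit

variable {L : Type*} [Field L] [NumberField L]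

variable (L) in
/-- The restricted product of the groups `PGL₂` over the finite places. -/
def adelGrp : Subgroup (HeightOneSpectrum (𝓞 L) → G2 L) where
  carrier := {g | ∀ᶠ v in cofinite, g v ∈ locK v}
  one_mem' := show ∀ᶠ v in cofinite, (1 : HeightOneSpectrum (𝓞 L) → G2 L) v ∈ locK v from
    Filter.Eventually.of_forall fun v => (locK v).one_mem
  mul_mem' :=
    fun {a b} (ha : ∀ᶠ v in cofinite, a v ∈ locK v) (hb : ∀ᶠ v in cofinite, b v ∈ locK v) =>
    ha.mp (hb.mono fun v h1 h2 => (locK v).mul_mem h2 h1)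
  inv_mem' := fun {a} (ha : ∀ᶠ v in cofinite, a v ∈ locK v) =>
    ha.mono fun v h => (locK v).inv_mem h

/-- Diagonal embedding. -/
def glob : G2 L →* adelGrp L where
  toFun g := ⟨fun _ => g, eventually_mem_locK g⟩
  map_one' := rfl
  map_mul' _ _ := rfl

open Classical in
/-- An element concentrated at one place. -/
def atV (v : HeightOneSpectrum (𝓞 L)) : G2 L →* adelGrp L where
  toFun g := ⟨Pi.mulSingle v g, show ∀ᶠ w in cofinite, _ by
    filter_upwards [(Set.finite_singleton v).compl_mem_cofinite] with w hw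
    rw [Pi.mulSingle_eq_of_ne (by simpa using hw)]
    exact one_mem _⟩
  map_one' := Subtype.ext (Pi.mulSingle_one v)
  map_mul' g h :=
    Subtype.ext (Pi.mulSingle_mul (f := fun _ : HeightOneSpectrum (𝓞 L) => G2 L) v g h)

/-- The component of a single element. -/
@[simp] lemma atV_same (v : HeightOneSpectrum (𝓞 L)) (g : G2 L) : (atV v g).1 v = g := by
  simp [atV]

open Classical in
/-- The other components of a single element are trivial. -/
lemma atV_ne {v w : HeightOneSpectrum (𝓞 L)} (h : w ≠ v) (g : G2 L) : (atV v g).1 w = 1 := by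
  simp [atV, Pi.mulSingle_eq_of_ne h]

/-- Elements at different places commute. -/
lemma atV_comm {v w : HeightOneSpectrum (𝓞 L)} (h : v ≠ w) (g g' : G2 L) :
    atV v g * atV w g' = atV w g' * atV v g := by
  refine Subtype.ext (funext fun u => ?_)
  show (atV v g).1 u * (atV w g').1 u = (atV w g').1 u * (atV v g).1 u
  by_cases hu : u = v
  · subst hu; rw [atV_ne h]; simp
  · rw [atV_ne hu]; simp

open Classical in
/-- An element commutes with elements trivial at its place. -/
lemma atV_mul_of_eq_one {v : HeightOneSpectrum (𝓞 L)} {a : adelGrp L} (ha : a.1 v = 1) (g : G2 L) :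
    atV v g * a = a * atV v g := by
  refine Subtype.ext (funext fun u => ?_)
  show (atV v g).1 u * a.1 u = a.1 u * (atV v g).1 u
  by_cases hu : u = v
  · subst hu; simp [ha]
  · rw [atV_ne hu]; simp

/-- Moving an element across an adelic one. -/
lemma atV_mul_self (v : HeightOneSpectrum (𝓞 L)) (g : G2 L) (a : adelGrp L) :
    atV v g * a = a * atV v ((a.1 v)⁻¹ * g * a.1 v) := by
  refine Subtype.ext (funext fun u => ?_)
  show (atV v g).1 u * a.1 u = a.1 u * (atV v ((a.1 v)⁻¹ * g * a.1 v)).1 u
  by_cases hu : u = v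
  · subst hu; simp [mul_assoc]
  · rw [atV_ne hu, atV_ne hu]; simp

/-- Invariance under the components at finitely many places, and under what is left when they are
removed, gives invariance under the element. -/
theorem right_of_local {α : Type*} {Φ : adelGrp L → α} (S : Finset (HeightOneSpectrum (𝓞 L)))
    (u : adelGrp L) (h1 : ∀ v ∈ S, ∀ a, Φ (a * atV v (u.1 v)) = Φ a)
    (h0 : ∀ u' : adelGrp L, (∀ v ∈ S, u'.1 v = 1) → (∀ v ∉ S, u'.1 v = u.1 v) →
      ∀ a, Φ (a * u') = Φ a) (a : adelGrp L) : Φ (a * u) = Φ a := by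
  classical
  induction S using Finset.induction_on generalizing u a with
  | empty => exact h0 u (fun _ h => absurd h (Finset.notMem_empty _)) (fun _ _ => rfl) a
  | insert v T hvT ih =>
    have hu : ∀ w ≠ v, (u * (atV v (u.1 v))⁻¹).1 w = u.1 w := fun w hw => by simp [atV_ne hw]
    rw [show a * u = a * (u * (atV v (u.1 v))⁻¹) * atV v (u.1 v) by group,
      h1 v (Finset.mem_insert_self v T)]
    refine ih _ (fun w hw b => ?_) (fun u' h1' h2' b => h0 u' (fun w hw => ?_) (fun w hw => ?_) b) a
    · rw [hu w (ne_of_mem_of_not_mem hw hvT)]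
      exact h1 w (Finset.mem_insert_of_mem hw) b
    · rcases Finset.mem_insert.1 hw with rfl | hw
      · simp [h2' w hvT]
      · exact h1' w hw
    · rw [Finset.mem_insert, not_or] at hw
      rw [h2' w hw.2, hu w hw.1]

/-- Invariance under an element supported in a finite set, from invariance under its components. -/
theorem right_of_supported {α : Type*} {Φ : adelGrp L → α}
    (S : Finset (HeightOneSpectrum (𝓞 L))) (u : adelGrp L) (h0 : ∀ v ∉ S, u.1 v = 1)
    (h1 : ∀ v ∈ S, ∀ a, Φ (a * atV v (u.1 v)) = Φ a) (a : adelGrp L) : Φ (a * u) = Φ a := by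
  classical
  refine right_of_local S u h1 (fun u' e0 e1 b => ?_) a
  rw [show u' = 1 from Subtype.ext (funext fun v =>
    if hv : v ∈ S then e0 v hv else (e1 v hv).trans (h0 v hv)), mul_one]

section Coset

variable {U : Level L}

variable (U) in
/-- The elements of the level. -/
def levelGrp : Subgroup (adelGrp L) where
  carrier := {g | ∀ v, g.1 v ∈ U.loc v}
  one_mem' v := (U.loc v).one_mem
  mul_mem' := fun ha hb v => (U.loc v).mul_mem (ha v) (hb v)
  inv_mem' := fun ha v => (U.loc v).inv_mem (ha v)

/-- Local level elements lie in the level group. -/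
lemma atV_mem_levelGrp {v : HeightOneSpectrum (𝓞 L)} {g : G2 L} (hg : g ∈ U.loc v) :
    atV v g ∈ levelGrp U := fun w => by
  by_cases h : w = v
  · subst h; simpa using hg
  · rw [atV_ne h]; exact one_mem _

variable (U) in
/-- The coset of an element. -/
def cls (a : adelGrp L) : FinCoset U :=
  ⟨fun v => QuotientGroup.mk (a.1 v), by
    filter_upwards [a.2, U.eventually_eq] with v hv hU
    rw [QuotientGroup.eq, mul_one, hU]
    exact inv_mem hv⟩

@[simp] lemma cls_apply (a : adelGrp L) (v : HeightOneSpectrum (𝓞 L)) :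
    (cls U a).1 v = QuotientGroup.mk (a.1 v) := rfl

/-- The class map is onto. -/
lemma cls_surjective : Function.Surjective (cls U) := by
  intro c
  refine ⟨⟨fun v => (c.1 v).out, ?_⟩, FinCoset.ext fun v => Quotient.out_eq _⟩
  filter_upwards [c.2, U.eventually_eq] with v hv hU
  have h := QuotientGroup.eq.mp
    ((Quotient.out_eq (c.1 v)).trans hv : (QuotientGroup.mk (c.1 v).out : G2 L ⧸ U.loc v) = _)
  rw [mul_one, inv_mem_iff] at h
  exact hU.le h

/-- The class map is equivariant. -/
lemma cls_glob_mul (g : G2 L) (a : adelGrp L) : cls U (glob g * a) = g • cls U a := rfl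

/-- When two classes agree. -/
lemma cls_eq_iff {a b : adelGrp L} : cls U a = cls U b ↔ a⁻¹ * b ∈ levelGrp U := by
  constructor
  · intro h v
    exact QuotientGroup.eq.mp (congrFun (congrArg Subtype.val h) v)
  · intro h
    exact FinCoset.ext fun v => QuotientGroup.eq.mpr (h v)

/-- Classes are invariant under the level group. -/
lemma cls_mul_of_mem (a : adelGrp L) {u : adelGrp L} (hu : u ∈ levelGrp U) :
    cls U (a * u) = cls U a := (cls_eq_iff.mpr (by simpa using hu)).symm

/-- Classes after changing one place. -/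
lemma cls_mul_atV (a : adelGrp L) (v : HeightOneSpectrum (𝓞 L)) (g : G2 L) :
    cls U (a * atV v g) = (cls U a).update v (QuotientGroup.mk (a.1 v * g)) := by
  classical
  refine FinCoset.ext fun w => ?_
  by_cases h : w = v
  · subst h
    simp [FinCoset.update]
  · simp [FinCoset.update, Function.update_of_ne h, atV_ne h]

end Coset

section Unipotent

/-- The class of a translation. -/
abbrev nB (β : L) : G2 L := ProjGenLinGroup.mk (uB β)

/-- The class of a diagonal matrix. -/
abbrev dG (α : Lˣ) : G2 L := ProjGenLinGroup.mk (dB α)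

/-- Translations add. -/
lemma nB_add (a b : L) : (nB (a + b) : G2 L) = nB a * nB b := by
  rw [nB, uB_add, map_mul]

/-- The zero translation. -/
@[simp] lemma nB_zero : (nB (0 : L) : G2 L) = 1 := by
  rw [nB, show uB (0 : L) = 1 from Units.ext (by simp [Matrix.one_fin_two]), map_one]

/-- The inverse translation. -/
lemma nB_neg (a : L) : (nB (-a) : G2 L) = (nB a)⁻¹ := by
  rw [eq_inv_iff_mul_eq_one, ← nB_add, neg_add_cancel, nB_zero]

omit [NumberField L] in
/-- Diagonal elements multiply. -/
lemma dG_mul (a b : Lˣ) : dG (a * b) = dG a * dG b := by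
  rw [dG, dG, dG, ← map_mul]
  congr 1
  apply Units.ext
  ext i j
  fin_cases i <;> fin_cases j <;> simp

omit [NumberField L] in
/-- The diagonal element one. -/
@[simp] lemma dG_one : (dG (1 : Lˣ) : G2 L) = 1 := by
  rw [dG, show dB (1 : Lˣ) = 1 from Units.ext (by simp [Matrix.one_fin_two]), map_one]

omit [NumberField L] in
/-- The inverse diagonal element. -/
lemma dG_inv (a : Lˣ) : dG a⁻¹ = (dG a)⁻¹ := by
  rw [eq_inv_iff_mul_eq_one, ← dG_mul, inv_mul_cancel, dG_one]

/-- Diagonal elements normalise translations. -/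
lemma dG_mul_nB (α : Lˣ) (β : L) : dG α * nB β = nB ((α : L) * β) * dG α := by
  rw [dG, nB, nB, ← map_mul, ← map_mul]
  congr 1
  apply Units.ext
  ext i j
  fin_cases i <;> fin_cases j <;> simp

/-- Integral translations are in the maximal compact group. -/
lemma nB_mem_locK {v : HeightOneSpectrum (𝓞 L)} {β : L} (hβ : v.valuation L β ≤ 1) :
    (nB β : G2 L) ∈ locK v := ⟨_, uB_mem_locGL hβ, rfl⟩

/-- A translation in the maximal compact group is integral. -/
lemma val_le_one_of_nB_mem {v : HeightOneSpectrum (𝓞 L)} {x : L} (h : (nB x : G2 L) ∈ locK v) :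
    v.valuation L x ≤ 1 := by
  obtain ⟨k, hk, hk'⟩ := h
  obtain ⟨u, hu⟩ := Matrix.ProjGenLinGroup.mk_eq_mk_iff.mp hk'
  have e := congrArg Units.val hu
  have e00 := congrFun (congrFun e 0) 0
  have e01 := congrFun (congrFun e 0) 1
  have e10 := congrFun (congrFun e 1) 0
  have e11 := congrFun (congrFun e 1) 1
  simp [GeneralLinearGroup.coe_scalar, Matrix.mul_apply, Fin.sum_univ_two] at e00 e01 e10 e11
  have hd := hk.2
  rw [Matrix.det_fin_two, show k.val 0 0 = k.val 1 1 from
    mul_right_cancel₀ u.ne_zero (e00.trans e11.symm), e10, mul_zero, sub_zero, map_mul] at hd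
  have h1 : v.valuation L (k.val 1 1) = 1 :=
    (pow_eq_one_iff_of_nonneg zero_le two_ne_zero).mp (by rw [sq]; exact hd)
  have hu1 : v.valuation L (u : L) = 1 := by
    have := congrArg (v.valuation L) e11
    rwa [map_mul, h1, one_mul, map_one] at this
  rw [← e01, map_mul, hu1, mul_one]
  exact hk.1 0 1

/-- Small translations are in the congruence subgroup. -/
lemma nB_mem_locK1 {v : HeightOneSpectrum (𝓞 L)} {β : L} (hβ : v.valuation L β < 1) :
    (nB β : G2 L) ∈ locK1 v := ⟨_, ⟨uB_mem_locGL hβ.le, by simpa using hβ, by simp, by simp⟩, rfl⟩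

/-- Unit diagonal matrices are integral. -/
lemma dB_mem_locGL {v : HeightOneSpectrum (𝓞 L)} {α : Lˣ} (hα : v.valuation L (α : L) = 1) :
    dB α ∈ locGL v := by
  refine ⟨fun i j => ?_, by simp [Matrix.det_fin_two, hα]⟩
  fin_cases i <;> fin_cases j <;> simp [hα]

/-- Unit diagonal classes are in the maximal compact group. -/
lemma dG_mem_locK {v : HeightOneSpectrum (𝓞 L)} {α : Lˣ} (hα : v.valuation L (α : L) = 1) :
    dG α ∈ locK v := ⟨_, dB_mem_locGL hα, rfl⟩

/-- Diagonal classes near one are in the congruence subgroup. -/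
lemma dG_mem_locK1 {v : HeightOneSpectrum (𝓞 L)} {α : Lˣ}
    (hα : v.valuation L ((α : L) - 1) < 1) : dG α ∈ locK1 v := by
  have h1 : v.valuation L (α : L) = 1 := by
    rw [show (α : L) = 1 + ((α : L) - 1) by ring,
      Valuation.map_add_eq_of_lt_left _ (by rwa [map_one]), map_one]
  exact ⟨_, ⟨dB_mem_locGL h1, by simp, by simp, by simpa using hα⟩, rfl⟩

/-- A function fixed by the units of the torus at the places of `S`, and by the integral elements
which are one there, has equal values at torus elements with equal valuations. -/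
theorem eq_of_units {α : Type*} {Φ : adelGrp L → α} (S : Finset (HeightOneSpectrum (𝓞 L)))
    (hunit : ∀ v ∈ S, ∀ u : Lˣ, v.valuation L (u : L) = 1 → ∀ a, Φ (a * atV v (dG u)) = Φ a)
    (hlev : ∀ u' : adelGrp L, (∀ v ∈ S, u'.1 v = 1) → (∀ v ∉ S, u'.1 v ∈ locK v) →
      ∀ a, Φ (a * u') = Φ a) {a b : adelGrp L}
    (h : ∀ w, ∃ β γ : Lˣ, a.1 w = dG β ∧ b.1 w = dG γ ∧
      w.valuation L (β : L) = w.valuation L (γ : L)) : Φ a = Φ b := by
  have e : ∀ w, ∃ u : Lˣ, w.valuation L (u : L) = 1 ∧ (a⁻¹ * b).1 w = dG u := fun w => by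
    obtain ⟨β, γ, h1, h2, hv⟩ := h w
    refine ⟨β⁻¹ * γ, ?_, ?_⟩
    · rw [Units.val_mul, map_mul, ← hv, Units.val_inv_eq_inv_val, map_inv₀,
        inv_mul_cancel₀ ((Valuation.ne_zero_iff _).2 β.ne_zero)]
    · show (a.1 w)⁻¹ * b.1 w = _
      rw [h1, h2, ← dG_inv, ← dG_mul]
  rw [← mul_inv_cancel_left a b]
  refine (right_of_local S _ (fun v hv c => ?_) (fun u' h0 h1 => hlev u' h0 fun v hv => ?_) a).symm
  · obtain ⟨u, hu, hu'⟩ := e v
    rw [hu']; exact hunit v hv u hu c
  · obtain ⟨u, hu, hu'⟩ := e v
    rw [h1 v hv, hu']; exact dG_mem_locK hu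

end Unipotent

section Normal

lemma locCongr_conj {v : HeightOneSpectrum (𝓞 L)} {k g : GL (Fin 2) L} (hk : k ∈ locGL v)
    (hg : g ∈ locCongr v) : k⁻¹ * g * k ∈ locCongr v := by
  obtain ⟨hg, h01, h10, hd⟩ := hg
  set m := (k⁻¹ * g * k).val
  have hki := (locGL v).inv_mem hk
  set c := g.val 1 1
  have e : m = c • (1 : Matrix (Fin 2) (Fin 2) L) + (k⁻¹).val * (g.val - c • 1) * k.val := by
    rw [Matrix.mul_sub, Matrix.sub_mul, Matrix.mul_smul, Matrix.smul_mul, Matrix.mul_one,
      Units.inv_mul]
    simp [m]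
  have hN : ∀ i j, v.valuation L ((g.val - c • (1 : Matrix (Fin 2) (Fin 2) L)) i j) < 1 := by
    intro i j
    fin_cases i <;> fin_cases j
    · simpa [c] using hd
    · simpa [c] using h01
    · simpa [c] using h10
    · simp [c]
  have hM : ∀ i j, v.valuation L (((k⁻¹).val * (g.val - c • 1) * k.val) i j) < 1 := by
    intro i j
    rw [Matrix.mul_apply]
    refine Valuation.map_sum_lt _ one_ne_zero fun l _ => ?_
    rw [map_mul]
    refine mul_lt_one_of_lt_of_le ?_ (hk.1 _ _)
    rw [Matrix.mul_apply]
    refine Valuation.map_sum_lt _ one_ne_zero fun r _ => ?_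
    rw [map_mul]
    exact Right.mul_lt_one_of_le_of_lt (hki.1 _ _) (hN _ _)
  refine ⟨(locGL v).mul_mem ((locGL v).mul_mem hki hg) hk, ?_, ?_, ?_⟩
  · show v.valuation L (m 0 1) < 1
    rw [e]; simpa using hM 0 1
  · show v.valuation L (m 1 0) < 1
    rw [e]; simpa using hM 1 0
  · show v.valuation L (m 0 0 - m 1 1) < 1
    rw [e]
    simp only [Matrix.add_apply, Matrix.smul_apply, Matrix.one_apply_eq, add_sub_add_left_eq_sub]
    exact lt_of_le_of_lt (Valuation.map_sub _ _ _) (max_lt (hM 0 0) (hM 1 1))

/-- The congruence subgroup is normal. -/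
lemma locK1_conj {v : HeightOneSpectrum (𝓞 L)} {k g : G2 L} (hk : k ∈ locK v)
    (hg : g ∈ locK1 v) : k⁻¹ * g * k ∈ locK1 v := by
  obtain ⟨k', hk', rfl⟩ := hk
  obtain ⟨g', hg', rfl⟩ := hg
  exact ⟨_, locCongr_conj hk' hg', by simp⟩

open Classical in
/-- Levels of finite sets are normal locally. -/
lemma ofFinset_loc_conj (S : Finset (HeightOneSpectrum (𝓞 L))) {v : HeightOneSpectrum (𝓞 L)}
    {k g : G2 L} (hk : k ∈ locK v) (hg : g ∈ (Level.ofFinset S).loc v) :
    k⁻¹ * g * k ∈ (Level.ofFinset S).loc v := by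
  simp only [Level.ofFinset] at hg ⊢
  split_ifs at hg ⊢
  · exact locK1_conj hk hg
  · exact mul_mem (mul_mem (inv_mem hk) hg) hk

open Classical in
/-- Levels of finite sets contain congruence subgroups. -/
lemma locK1_le_ofFinset (S : Finset (HeightOneSpectrum (𝓞 L))) (v : HeightOneSpectrum (𝓞 L)) :
    locK1 v ≤ (Level.ofFinset S).loc v := by
  simp only [Level.ofFinset]
  split_ifs
  exacts [le_rfl, locK1_le v]

/-- Levels of finite sets are congruence levels. -/
lemma ofFinset_isCongr (S : Finset (HeightOneSpectrum (𝓞 L))) : (Level.ofFinset S).IsCongr :=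
  Level.IsCongr.of_locK1_le (locK1_le_ofFinset S)

open Classical in
/-- The level at a place of the set. -/
lemma ofFinset_loc_of_mem {S : Finset (HeightOneSpectrum (𝓞 L))} {v : HeightOneSpectrum (𝓞 L)}
    (hv : v ∈ S) : (Level.ofFinset S).loc v = locK1 v := by simp [Level.ofFinset, hv]

open Classical in
/-- The level away from the set. -/
lemma ofFinset_loc_of_notMem {S : Finset (HeightOneSpectrum (𝓞 L))} {v : HeightOneSpectrum (𝓞 L)}
    (hv : v ∉ S) : (Level.ofFinset S).loc v = locK v := by simp [Level.ofFinset, hv]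

/-- Conjugation by integral elements preserves the level. -/
lemma conj_mem_levelGrp (S : Finset (HeightOneSpectrum (𝓞 L))) {h u : adelGrp L}
    (hh : ∀ v, h.1 v ∈ locK v) (hu : u ∈ levelGrp (Level.ofFinset S)) :
    h⁻¹ * u * h ∈ levelGrp (Level.ofFinset S) :=
  fun v => ofFinset_loc_conj S (hh v) (hu v)

end Normal

end FermatAgent.LT.Whit
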