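import Fermat.Agent.LT2.Bad.Gal

/-!
# Invariance of eigenforms with invariant eigenvalues

An eigenform with tame cusps of norm three at its level, whose eigenvalues are invariant under a
field automorphism and whose level and remaining places are fixed by it, is itself invariant:
both forms have the same Whittaker values at the normalised points.
-/

set_option autoImplicit false

noncomputable section

open Matrix IsDedekindDomain NumberField Filter MeasureTheory WithZero
open scoped MatrixGroups ComplexConjugate ContDiff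

namespace FermatAgent.LT.Whit

variable {L : Type*} [Field L] [NumberField L]
  {S : Finset (HeightOneSpectrum (𝓞 L))} {f : InfPts L → adelGrp L → ℂ}

variable [IsTotallyComplex L]

open Classical in
/-- Points of the torus with equal valuations have equal Whittaker values. -/
theorem IsForm.W_units (hf : IsForm S f) (h3 : ∀ v ∈ S, IsThree v)
    (ht : ∀ v ∈ S, IsTameCusp v f) {a b : adelGrp L}
    (h : ∀ w, ∃ α β : Lˣ, a.1 w = dG α ∧ b.1 w = dG β ∧
      w.valuation L (α : L) = w.valuation L (β : L)) (y : InfPts L) :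
    LT2.Whit.W f y a = LT2.Whit.W f y b := by
  refine eq_of_units (Φ := LT2.Whit.W f y) S (fun v hv u hu c => ?_)
    (fun u h0 h1 c => hf.W_level (fun w => ?_) y c) h
  · simpa using (ht v hv).W_unit hf (h3 v hv) (a := c) (α := u) (β := 1) (by simpa using hu) y
  · by_cases hw : w ∈ S
    · rw [h0 w hw]; exact one_mem _
    · rw [ofFinset_loc_of_notMem hw]; exact h1 w hw

variable (τ : L ≃+* L)

omit [IsTotallyComplex L] in
/-- An automorphism stabilising the set of congruence places stabilises the level. -/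
lemma ofFinset_stable (hS : ∀ v, placeMap τ v ∈ S ↔ v ∈ S) (w : HeightOneSpectrum (𝓞 L))
    (g : G2 L) : g2Map (τ : L →+* L) g ∈ (Level.ofFinset S).loc w ↔
      g ∈ (Level.ofFinset S).loc ((placeMap τ).symm w) := by
  obtain ⟨v, rfl⟩ := (placeMap τ).surjective w
  rw [Equiv.symm_apply_apply]
  have hinj := (bijective_g2Map τ).1
  have hsurj : Function.Surjective (GeneralLinearGroup.map (n := Fin 2) (τ : L →+* L)) :=
    fun k => by
    refine ⟨GeneralLinearGroup.map (τ.symm : L →+* L) k, ?_⟩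
    apply Units.ext
    ext i j
    simp
  by_cases hv : v ∈ S
  · rw [ofFinset_loc_of_mem hv, ofFinset_loc_of_mem ((hS v).2 hv)]
    refine ⟨fun ⟨k, hk, hkg⟩ => ?_, g2Map_mem_locK1 τ⟩
    obtain ⟨k, rfl⟩ := hsurj k
    exact ⟨k, ((placePair_placeMap τ v).map_mem_locCongr_iff k).1 hk, hinj hkg⟩
  · rw [ofFinset_loc_of_notMem hv, ofFinset_loc_of_notMem fun h => hv ((hS v).1 h)]
    refine ⟨fun ⟨k, hk, hkg⟩ => ?_, g2Map_mem_locK τ⟩
    obtain ⟨k, rfl⟩ := hsurj k
    exact ⟨k, ((placePair_placeMap τ v).map_mem_locGL_iff k).1 hk, hinj hkg⟩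

/-- **Invariance**: a cuspidal eigenfunction on the adelic space whose level consists of tame
cusps of norm three is fixed by an automorphism fixing the level, the other exceptional places
and the eigenvalues. -/
theorem comp_ofAut_eq {φ : Space (Level.ofFinset S) → ℂ}
    (hU : ∀ w g, g2Map (τ : L →+* L) g ∈ (Level.ofFinset S).loc w ↔
      g ∈ (Level.ofFinset S).loc ((placeMap τ).symm w))
    (hinv : ∀ (g : G2 L) x, φ (g • x) = φ x) (hm : Measurable φ) (hb : ∃ B, ∀ x, ‖φ x‖ ≤ B)
    (hrad : ∀ (w : InfinitePlace L) (k : ℝ → ℝ), ContDiff ℝ ∞ k → HasCompactSupport k →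
      ∀ x, radialOp w (fun p q => k (H3.coshDist p q)) φ x = hT k * φ x)
    (h3 : ∀ v ∈ S, IsThree v) (ht : ∀ v ∈ S, IsTameCusp v (liftF _ φ))
    (P : Finset (HeightOneSpectrum (𝓞 L))) (hSP : S ⊆ P) {c : HeightOneSpectrum (𝓞 L) → ℂ}
    (hheck : ∀ v ∉ P, ∀ x, heckeOp v φ x = c v * φ x)
    (hS : ∀ v, placeMap τ v ∈ S ↔ v ∈ S) (hP : ∀ v, placeMap τ v ∈ P ↔ v ∈ P)
    (hc : ∀ v ∉ P, c (placeMap τ v) = c v)
    (hfix : ∀ v ∈ P, v ∉ S → placeMap τ v = v) :
    ∀ x, φ ((LevelHom.ofAut hU).map x) = φ x := by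
  set f := liftF _ φ
  have hr : IsRadial f := isRadial_liftF hrad
  have hf : IsForm S f := isForm_liftF hinv hm hb hr
  have hK : ∀ v ∉ P, LT2.Whit.FixedAt f v (locK v) := fun v hv => hf.fixedAt fun h => hv (hSP h)
  have hH : ∀ v ∉ P, heckeT v f = c v • f := fun v hv =>
    LT2.Whit.heckeT_liftF (ofFinset_loc_of_notMem fun h => hv (hSP h)) (hheck v hv)
  have hg : LT2.Whit.IsForm (Whit.gal τ f) := hf.deep.gal τ
  have key : Whit.gal τ f - f = 0 := by
    refine (hg.sub hf.deep).eq_zero_of_pts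
      (LT2.Whit.IsRadial.sub' hg (IsRadial.gal τ hr) hf.deep hr) P (fun v hv k hk y a => ?_) c
      (fun v hv => ?_) fun a ha => ?_
    · simp only [Pi.sub_apply, hK v hv k hk y a,
        LT2.Whit.FixedAt.gal τ (hK _ (mt (hP v).1 hv)) k hk y a]
    · funext y a
      have h1 : heckeT v (Whit.gal τ f) = c v • Whit.gal τ f := by
        rw [LT2.Whit.heckeT_gal τ (hK _ (mt (hP v).1 hv)), hH _ (mt (hP v).1 hv), hc v hv]
        rfl
      have h2 := congrFun (congrFun h1 y) a
      have h4 := congrFun (congrFun (hH v hv) y) a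
      simp only [heckeT, Pi.smul_apply, smul_eq_mul, Pi.sub_apply, Finset.sum_sub_distrib]
        at h2 h4 ⊢
      linear_combination h2 - h4
    rw [hg.W_sub hf.deep, hf.deep.W_gal, infMap_baseY, sub_eq_zero]
    have hα : ∀ v, ∃ α : Lˣ, a.1 v = dG α ∧ (v ∉ P → α = unifU v ^ (-cnd v)) := fun v => by
      by_cases hv : v ∈ P
      · exact (ha.1 v hv).imp fun α h => ⟨h, fun h' => absurd hv h'⟩
      · exact ⟨_, ha.2 v hv, fun _ => rfl⟩
    choose α hα hαP using hα
    have hτa : ∀ v, (adelMap τ a).1 (placeMap τ v) = dG (mapU τ (α v)) := fun v => by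
      rw [adelMap_apply, hα, g2Map_dG]
    have hval : ∀ v, (placeMap τ v).valuation L ((mapU τ (α v) : Lˣ) : L) =
        v.valuation L (α v : L) := fun v => valuation_placeMap τ v _
    by_cases hlay : ∀ v ∈ S, v.valuation L (α v : L) = exp (cnd v + 1)
    · refine hf.W_units h3 ht (fun w => ?_) _
      obtain ⟨v, rfl⟩ := (placeMap τ).surjective w
      refine ⟨_, _, hτa v, hα _, ?_⟩
      rw [hval]
      by_cases hvS : v ∈ S
      · rw [hlay v hvS, hlay _ ((hS v).2 hvS), cnd_placeMap]
      by_cases hvP : v ∈ P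
      · rw [hfix v hvP hvS]
      · rw [hαP v hvP, hαP _ (mt (hP v).1 hvP), v_unifU_zpow, v_unifU_zpow, cnd_placeMap]
    · simp only [not_forall] at hlay
      obtain ⟨v, hv, hne⟩ := hlay
      rw [(ht v hv).W_eq_zero hf (h3 v hv) (hα v) hne,
        (ht _ ((hS v).2 hv)).W_eq_zero hf (h3 _ ((hS v).2 hv)) (hτa v)
          (by rwa [hval, cnd_placeMap])]
  intro x
  obtain ⟨y, z⟩ := x
  obtain ⟨a, rfl⟩ := cls_surjective z
  rw [cls_adelMap τ hU]
  exact sub_eq_zero.1 (congrFun (congrFun key y) a)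

end FermatAgent.LT.Whit
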