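import Fermat.Agent.LT.Whit.Char

/-!
# The local additive characters

The character at one finite place through which translations act on the Whittaker function, its
conductor, and its sums over representatives of the residue field.
-/

set_option autoImplicit false

noncomputable section

open Matrix IsDedekindDomain NumberField Filter WithZero
open FermatAgent.LT.Theta.LocalChar
open scoped MatrixGroups

namespace FermatAgent.LT.Whit

variable {L : Type*} [Field L] [NumberField L]

/-- The local character at `v`. -/
def psiV (v : HeightOneSpectrum (𝓞 L)) (x : L) : ℂ := ψloc v (-x)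

/-- The exponent of the conductor of the local character. -/
def cnd (v : HeightOneSpectrum (𝓞 L)) : ℤ := cond v

variable {v : HeightOneSpectrum (𝓞 L)}

/-- The local character is additive. -/
lemma psiV_add (x x' : L) : psiV v (x + x') = psiV v x * psiV v x' := by
  rw [psiV, psiV, psiV, neg_add, ψloc_add]

/-- The local character at zero. -/
@[simp] lemma psiV_zero : psiV v (0 : L) = 1 := by
  rw [psiV, neg_zero, ψloc_eq_one (by simp)]

/-- Congruent elements have equal characters. -/
lemma psiV_sub_eq {x x' : L} (h : psiV v (x - x') = 1) : psiV v x = psiV v x' := by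
  rw [show x = (x - x') + x' by ring, psiV_add, h, one_mul]

/-- The local character is trivial up to the conductor. -/
lemma psiV_eq_one {x : L} (h : v.valuation L x ≤ exp (cnd v)) : psiV v x = 1 :=
  ψloc_eq_one_of_le v (by rwa [Valuation.map_neg])

lemma exists_psiV_ne_one (v : HeightOneSpectrum (𝓞 L)) :
    ∃ x : L, v.valuation L x = exp (cnd v + 1) ∧ psiV v x ≠ 1 := by
  obtain ⟨a, ha, hne⟩ := exists_ψloc_ne_one v
  have hne' : psiV v (-a) ≠ 1 := by rwa [psiV, neg_neg]
  refine ⟨-a, le_antisymm (by rwa [Valuation.map_neg]) (not_lt.1 fun h => hne' (psiV_eq_one ?_)),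
    hne'⟩
  rcases eq_or_ne (v.valuation L (-a)) 0 with h0 | h0
  · rw [h0]; exact zero_le
  · rw [← exp_log h0, exp_lt_exp] at h
    rw [← exp_log h0, exp_le_exp]
    omega

/-- Beyond the conductor some multiple below a given size pairs nontrivially. -/
lemma exists_psiV_mul_ne_one {x : L} {m : ℤ} (hx : exp (cnd v + 1) ≤ v.valuation L x * exp m) :
    ∃ b : L, v.valuation L b ≤ exp m ∧ psiV v (x * b) ≠ 1 := by
  obtain ⟨x₀, hx₀, hne⟩ := exists_psiV_ne_one v
  have hx0 : x ≠ 0 := fun e => by
    rw [e, map_zero, zero_mul] at hx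
    exact absurd hx (not_le.2 exp_pos)
  refine ⟨x₀ / x, ?_, by rwa [mul_div_cancel₀ _ hx0]⟩
  rw [map_div₀, hx₀, div_le_iff₀ (zero_lt_iff.2 ((Valuation.ne_zero_iff _).2 hx0)), mul_comm]
  exact hx

/-- Small elements have negative exponent. -/
lemma val_le_exp_of_lt_one {x : L} (h : v.valuation L x < 1) : v.valuation L x ≤ exp (-1 : ℤ) :=
  Theta.Place.v_le_exp_neg_one v h

/-- A set of representatives of the residue field, inside the field. -/
structure IsResidues (v : HeightOneSpectrum (𝓞 L)) (R : Finset L) : Prop where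
  le_one : ∀ t ∈ R, v.valuation L t ≤ 1
  exists_mem : ∀ x, v.valuation L x ≤ 1 → ∃ t ∈ R, v.valuation L (x - t) < 1
  unique : ∀ t ∈ R, ∀ t' ∈ R, v.valuation L (t - t') < 1 → t = t'

/-- Representatives of the residue field exist, as many as its order. -/
theorem exists_residues (v : HeightOneSpectrum (𝓞 L)) :
    ∃ R : Finset L, IsResidues v R ∧ R.card = v.asIdeal.absNorm := by
  classical
  have : Finite (𝓞 L ⧸ v.asIdeal) := Ideal.finiteQuotientOfFreeOfNeBot _ v.ne_bot
  have := Fintype.ofFinite (𝓞 L ⧸ v.asIdeal)
  have hr : ∀ q : 𝓞 L ⧸ v.asIdeal, Ideal.Quotient.mk v.asIdeal q.out = q := Quotient.out_eq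
  have key : ∀ a b : 𝓞 L, v.valuation L ((a : L) - (b : L)) < 1 ↔
      Ideal.Quotient.mk v.asIdeal a = Ideal.Quotient.mk v.asIdeal b := fun a b => by
    rw [← map_sub, v.valuation_lt_one_iff_mem, Ideal.Quotient.eq]
  have hinj : Function.Injective fun q : 𝓞 L ⧸ v.asIdeal => ((q.out : 𝓞 L) : L) := fun q q' h => by
    rw [← hr q, ← hr q', show (q.out : 𝓞 L) = q'.out from RingOfIntegers.coe_injective h]
  refine ⟨Finset.univ.image fun q : 𝓞 L ⧸ v.asIdeal => ((q.out : 𝓞 L) : L), ⟨?_, ?_, ?_⟩, ?_⟩
  · simp only [Finset.mem_image, Finset.mem_univ, true_and, forall_exists_index]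
    rintro _ q rfl
    exact v.valuation_le_one _
  · intro x hx
    obtain ⟨y, hy⟩ := exists_integer_near v hx
    refine ⟨_, Finset.mem_image.2 ⟨Ideal.Quotient.mk v.asIdeal y, Finset.mem_univ _, rfl⟩, ?_⟩
    rw [show x - ((Ideal.Quotient.mk v.asIdeal y).out : 𝓞 L) =
      (x - (y : L)) + ((y : L) - ((Ideal.Quotient.mk v.asIdeal y).out : 𝓞 L)) by ring]
    exact Valuation.map_add_lt _ hy ((key _ _).2 (hr _).symm)
  · simp only [Finset.mem_image, Finset.mem_univ, true_and, forall_exists_index]
    rintro _ q rfl _ q' rfl h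
    rw [(key _ _).1 h |> fun e => (hr q).symm.trans (e.trans (hr q'))]
  · rw [Finset.card_image_of_injective _ hinj, Finset.card_univ, Ideal.absNorm_apply,
      Submodule.cardQuot_apply, Nat.card_eq_fintype_card]

/-- A choice of representatives. -/
def residues (v : HeightOneSpectrum (𝓞 L)) : Finset L := (exists_residues v).choose

/-- The chosen representatives are residue representatives. -/
lemma isResidues (v : HeightOneSpectrum (𝓞 L)) : IsResidues v (residues v) :=
  (exists_residues v).choose_spec.1

/-- The number of representatives is the norm. -/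
lemma card_residues (v : HeightOneSpectrum (𝓞 L)) : (residues v).card = v.asIdeal.absNorm :=
  (exists_residues v).choose_spec.2

/-- Character sums below the conductor. -/
lemma sum_psiV_of_le {x : L} (hx : v.valuation L x ≤ exp (cnd v)) :
    ∑ b ∈ residues v, psiV v (x * b) = (v.asIdeal.absNorm : ℂ) := by
  rw [Finset.sum_congr rfl (g := fun _ => (1 : ℂ)) fun b hb => psiV_eq_one (by
    rw [map_mul]
    exact (mul_le_of_le_one_right zero_le ((isResidues v).le_one b hb)).trans hx)]
  simp [card_residues]

end FermatAgent.LT.Whit
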