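import Fermat.Agent.LT.Base.SpaceMap
import Fermat.Agent.LT.Whit.Lift

/-!
# Field automorphisms acting on forms

An automorphism of the field permutes the places and acts on the adelic group and on the points at
infinity; composition with it carries forms, radial eigenfunctions and eigenforms to such, with the
eigenvalues and Whittaker values transported.
-/

set_option autoImplicit false

noncomputable section

open Matrix IsDedekindDomain NumberField Filter MeasureTheory WithZero
open FermatAgent.LT.Periodic (ivec)
open FermatAgent.LT.Theta.LocalChar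
open scoped MatrixGroups ComplexConjugate ContDiff

namespace FermatAgent.LT.Whit

variable {L : Type*} [Field L] [NumberField L] (τ : L ≃+* L)

/-- The action on the adelic group. -/
def adelMap : adelGrp L →* adelGrp L where
  toFun a := ⟨fun w => g2Map (τ : L →+* L) (a.1 ((placeMap τ).symm w)), show ∀ᶠ w in cofinite, _ by
    filter_upwards [(placeMap τ).symm.injective.tendsto_cofinite.eventually a.2] with w hw
    obtain ⟨k, hk, hkm⟩ := hw
    refine ⟨GeneralLinearGroup.map (τ : L →+* L) k, ?_, by
      rw [← hkm]; rfl⟩
    have h := placePair_placeMap τ ((placeMap τ).symm w)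
    rw [Equiv.apply_symm_apply] at h
    exact (h.map_mem_locGL_iff k).2 hk⟩
  map_one' := Subtype.ext (funext fun w => map_one _)
  map_mul' _ _ := Subtype.ext (funext fun w => map_mul _ _ _)

/-- The components of a transported element. -/
@[simp] lemma adelMap_apply (a : adelGrp L) (v : HeightOneSpectrum (𝓞 L)) :
    (adelMap τ a).1 (placeMap τ v) = g2Map (τ : L →+* L) (a.1 v) := by
  show g2Map (τ : L →+* L) (a.1 ((placeMap τ).symm (placeMap τ v))) = _
  rw [Equiv.symm_apply_apply]

/-- Transport of global elements. -/
lemma adelMap_glob (g : G2 L) : adelMap τ (glob g) = glob (g2Map (τ : L →+* L) g) := rfl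

/-- Transport of single elements. -/
lemma adelMap_atV (v : HeightOneSpectrum (𝓞 L)) (g : G2 L) :
    adelMap τ (atV v g) = atV (placeMap τ v) (g2Map (τ : L →+* L) g) := by
  refine Subtype.ext (funext fun w => ?_)
  obtain ⟨u, rfl⟩ := (placeMap τ).surjective w
  rw [adelMap_apply]
  by_cases h : u = v
  · subst h; simp
  · rw [atV_ne h, atV_ne fun e => h ((placeMap τ).injective e), map_one]

/-- Transport of translations. -/
lemma g2Map_nB (x : L) : g2Map (τ : L →+* L) (nB x) = nB (τ x) := by
  rw [nB, nB, ProjGenLinGroup.map_mk]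
  congr 1
  apply Units.ext
  ext i j
  fin_cases i <;> fin_cases j <;> simp

/-- The image of a unit. -/
abbrev mapU (α : Lˣ) : Lˣ := Units.map (τ : L →* L) α

/-- Transport of the maximal compact group. -/
lemma g2Map_mem_locK {v : HeightOneSpectrum (𝓞 L)} {g : G2 L} (hg : g ∈ locK v) :
    g2Map (τ : L →+* L) g ∈ locK (placeMap τ v) := by
  obtain ⟨k, hk, rfl⟩ := hg
  exact ⟨_, ((placePair_placeMap τ v).map_mem_locGL_iff k).2 hk, rfl⟩

/-- Transport of the congruence subgroup. -/
lemma g2Map_mem_locK1 {v : HeightOneSpectrum (𝓞 L)} {g : G2 L} (hg : g ∈ locK1 v) :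
    g2Map (τ : L →+* L) g ∈ locK1 (placeMap τ v) := by
  obtain ⟨k, hk, rfl⟩ := hg
  exact ⟨_, ((placePair_placeMap τ v).map_mem_locCongr_iff k).2 hk, rfl⟩

/-- Transport commutes with classes. -/
lemma cls_adelMap {U : Level L} (hU : ∀ w g, g2Map (τ : L →+* L) g ∈ U.loc w ↔
    g ∈ U.loc ((placeMap τ).symm w)) (y : InfPts L) (a : adelGrp L) :
    (LevelHom.ofAut hU).map (y, cls U a) = (LevelHom.infMap (τ : L →+* L) y, cls U (adelMap τ a)) :=
  Prod.ext rfl (FinCoset.ext fun _ => rfl)

/-- The form composed with the automorphism `τ` on both variables. -/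
def gal (f : InfPts L → adelGrp L → ℂ) : InfPts L → adelGrp L → ℂ :=
  fun y a => f (LevelHom.infMap (τ : L →+* L) y) (adelMap τ a)

section

omit [NumberField L]

/-- Transport of diagonal classes. -/
lemma g2Map_dG (α : Lˣ) : g2Map (τ : L →+* L) (dG α) = dG (mapU τ α) := by
  rw [dG, dG, ProjGenLinGroup.map_mk]
  congr 1
  apply Units.ext
  ext i j
  fin_cases i <;> fin_cases j <;> simp

/-- Transport at infinity is equivariant. -/
lemma infMap_smul (g : G2 L) (y : InfPts L) :
    LevelHom.infMap (τ : L →+* L) (g • y) =
      g2Map (τ : L →+* L) g • LevelHom.infMap (τ : L →+* L) y := by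
  induction g using Matrix.ProjGenLinGroup.induction_on with | mk g =>
  funext w
  show twistPt _ w ((ProjGenLinGroup.mk g • y) (w.comap (τ : L →+* L))) = _
  rw [infPts_smul_apply, infPts_smul_apply, ProjGenLinGroup.map_mk, ProjGenLinGroup.map_mk,
    ProjGenLinGroup.map_mk, H3.mk_smul, H3.mk_smul]
  refine ((twistPt_twistPt_symm _ w _).symm.trans (congrArg (twistPt _ w) ?_)).symm
  rw [twistPt_smul]
  exact congrArg _ (twistPt_twistPt_symm _ _ _)

/-- Transport at infinity is continuous. -/
lemma continuous_infMap : Continuous (LevelHom.infMap (τ : L →+* L) (K := L)) := by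
  refine continuous_pi fun w => ?_
  show Continuous fun y : InfPts L => twistPt _ w (y (w.comap (τ : L →+* L)))
  unfold twistPt
  split_ifs
  · exact continuous_apply _
  · exact H3.continuous_flip.comp (continuous_apply _)

open Classical in
/-- The automorphism on the translations. -/
def infLin : InfV L →ₗ[ℝ] InfV L where
  toFun x w :=
    if w.embedding.comp (τ : L →+* L) = (w.comap (τ : L →+* L)).embedding then
      x (w.comap (τ : L →+* L)) else conj (x (w.comap (τ : L →+* L)))
  map_add' x x' := by
    funext w
    simp only [Pi.add_apply]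
    split_ifs <;> simp
  map_smul' r x := by
    funext w
    simp only [Pi.smul_apply, RingHom.id_apply]
    split_ifs <;> simp

/-- Transport of translations at infinity. -/
lemma infMap_transl (x : InfV L) (y : InfPts L) :
    LevelHom.infMap (τ : L →+* L) (transl x y) =
      transl (infLin τ x) (LevelHom.infMap (τ : L →+* L) y) := by
  funext w
  refine H3.ext ?_ ?_ <;>
    simp only [LevelHom.infMap, twistPt, transl, infLin, LinearMap.coe_mk, AddHom.coe_mk] <;>
    split_ifs <;> simp [H3.flip]

/-- Transport of field elements at infinity. -/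
lemma infLin_infEmb (z : L) : infLin τ (infEmb L z) = infEmb L (τ z) := by
  funext w
  simp only [infLin, LinearMap.coe_mk, AddHom.coe_mk, infEmb_apply]
  split_ifs with h
  · exact (congrArg (fun φ : L →+* ℂ => φ z) h).symm
  · rw [← (comap_embedding_eq_or (τ : L →+* L) w).resolve_left h]
    simp

/-- Transport fixes the base point. -/
lemma infMap_baseY : LevelHom.infMap (τ : L →+* L) (baseY : InfPts L) = baseY := by
  funext w
  refine H3.ext ?_ ?_ <;> simp only [LevelHom.infMap, twistPt, baseY] <;>
    split_ifs <;> simp [H3.flip, H3.base]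

end

variable {f : InfPts L → adelGrp L → ℂ}

/-- The transported function is again a radial eigenfunction. -/
theorem IsRadial.gal (hf : IsRadial f) : IsRadial (gal τ f) := by
  classical
  intro w k hk hs y a
  obtain ⟨w', rfl⟩ := (bijective_comap_inf τ).2 w
  have hmp := measurePreserving_twistPt (τ : L →+* L) w'
  have hemb : MeasurableEmbedding (twistPt (τ : L →+* L) w') :=
    (MeasurableEquiv.mk ⟨twistPt (τ : L →+* L) w', twistPt (τ : L →+* L) w',
      twistPt_twistPt_symm _ _,
      twistPt_twistPt_symm _ _⟩ hmp.measurable hmp.measurable).measurableEmbedding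
  have h := hf w' k hk hs (LevelHom.infMap (τ : L →+* L) y) (adelMap τ a)
  rw [kint, ← hmp.integral_comp hemb] at h
  refine Eq.trans ?_ h
  refine integral_congr_ae (ae_of_all _ fun p => ?_)
  show (k (H3.coshDist (y (w'.comap (τ : L →+* L))) p) : ℂ) *
    f (LevelHom.infMap (τ : L →+* L) (Function.update y (w'.comap (τ : L →+* L)) p))
    (adelMap τ a) = _
  congr 1
  · show _ =
        ((k (H3.coshDist (twistPt _ w' (y (w'.comap (τ : L →+* L)))) (twistPt _ w' p)) : ℝ) : ℂ)
    rw [coshDist_twistPt]
  · congr 1
    funext v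
    show twistPt _ v (Function.update y (w'.comap (τ : L →+* L)) p (v.comap (τ : L →+* L))) = _
    by_cases hv : v = w'
    · subst hv; simp
    · rw [Function.update_of_ne fun e => hv ((bijective_comap_inf τ).1 e), Function.update_of_ne hv]
      rfl

/-- Transport preserves the character. -/
lemma psiI_infLin (x : InfV L) : psiI (infLin τ x) = psiI x := by
  rw [psiI, psiI]
  congr 3
  rw [← (Equiv.ofBijective _ (bijective_comap_inf τ)).sum_comp fun w => 2 * (x w).re]
  refine Finset.sum_congr rfl fun w _ => ?_
  simp only [infLin, LinearMap.coe_mk, AddHom.coe_mk, Equiv.ofBijective_apply]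
  split_ifs <;> simp

lemma infLin_bijective : Function.Bijective (infLin τ) := by
  have hinj : Function.Injective (infLin τ) := by
    intro x x' h
    funext w
    obtain ⟨w', rfl⟩ := (bijective_comap_inf τ).2 w
    have := congrFun h w'
    simp only [infLin, LinearMap.coe_mk, AddHom.coe_mk] at this
    split_ifs at this
    · exact this
    · exact star_injective this
  exact ⟨hinj, LinearMap.surjective_of_injective hinj⟩

/-- The automorphism on the translations as an equivalence. -/
def infEquiv : InfV L ≃L[ℝ] InfV L :=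
  (LinearEquiv.ofBijective _ (infLin_bijective τ)).toContinuousLinearEquiv

lemma trace_apply (x : L) : Algebra.trace ℚ L (τ x) = Algebra.trace ℚ L x :=
  Algebra.trace_eq_of_algEquiv (AlgEquiv.ofRingEquiv (f := τ) fun q => by simp) x

lemma ψloc_placeMap (v : HeightOneSpectrum (𝓞 L)) (x : L) :
    ψloc (placeMap τ v) (τ x) = ψloc v x := by
  obtain ⟨b, hb⟩ := exists_part v x
  rw [ψloc_eq hb, ψloc_eq (a := τ x) (b := τ b) ⟨?_, fun w hw => ?_⟩, trace_apply]
  · rw [← map_sub, valuation_placeMap]; exact hb.1
  · obtain ⟨u, rfl⟩ := (placeMap τ).surjective w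
    rw [valuation_placeMap]
    exact hb.2 u fun e => hw (e ▸ rfl)

/-- Transport preserves the conductor. -/
lemma cnd_placeMap (v : HeightOneSpectrum (𝓞 L)) : cnd (placeMap τ v) = cnd v := by
  have key : ∀ n : ℤ, (∀ x, (placeMap τ v).valuation L x ≤ exp n → ψloc (placeMap τ v) x = 1) ↔
      ∀ x, v.valuation L x ≤ exp n → ψloc v x = 1 := fun n => by
    refine ⟨fun h x hx => ?_, fun h x hx => ?_⟩
    · rw [← ψloc_placeMap τ]; exact h _ (by rwa [valuation_placeMap])
    · obtain ⟨z, rfl⟩ := τ.surjective x
      rw [ψloc_placeMap]; exact h z (by rwa [valuation_placeMap] at hx)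
  exact le_antisymm
    ((exists_conductor v).choose_spec.2 _ ((key _).1 (exists_conductor _).choose_spec.1))
    ((exists_conductor (placeMap τ v)).choose_spec.2 _
      ((key _).2 (exists_conductor _).choose_spec.1))

/-- Transport of a system of representatives. -/
lemma exists_residues_bij (v : HeightOneSpectrum (𝓞 L)) :
    ∃ σ : L → L, (∀ t ∈ residues v, σ t ∈ residues (placeMap τ v) ∧
        (placeMap τ v).valuation L (τ t - σ t) < 1) ∧
      (∀ t ∈ residues v, ∀ t' ∈ residues v, σ t = σ t' → t = t') ∧
      ∀ s ∈ residues (placeMap τ v), ∃ t ∈ residues v, σ t = s := by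
  classical
  have h1 : ∀ t ∈ residues v, ∃ s ∈ residues (placeMap τ v),
      (placeMap τ v).valuation L (τ t - s) < 1 := fun t ht =>
    (isResidues _).exists_mem _ (by rw [valuation_placeMap]; exact (isResidues v).le_one t ht)
  choose! σ hσ hσ' using h1
  refine ⟨σ, fun t ht => ⟨hσ t ht, hσ' t ht⟩, fun t ht t' ht' e =>
    (isResidues v).unique t ht t' ht' ?_,
    fun s hs => ?_⟩
  · rw [← valuation_placeMap τ, map_sub,
      show τ t - τ t' = (τ t - σ t) - (τ t' - σ t') by rw [e]; ring]
    exact lt_of_le_of_lt (Valuation.map_sub _ _ _) (max_lt (hσ' t ht) (hσ' t' ht'))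
  · obtain ⟨t, ht, h⟩ := (isResidues v).exists_mem (τ.symm s) (by
      rw [← valuation_placeMap τ, RingEquiv.apply_symm_apply]
      exact (isResidues _).le_one s hs)
    refine ⟨t, ht, (isResidues _).unique _ (hσ t ht) s hs ?_⟩
    rw [← valuation_placeMap τ, map_sub, RingEquiv.apply_symm_apply] at h
    rw [show σ t - s = -((τ t - σ t) + (s - τ t)) by ring, Valuation.map_neg]
    exact Valuation.map_add_lt _ (hσ' t ht) h

end FermatAgent.LT.Whit
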