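import Mathlib
import Fermat.Agent.LT.Base.Siegel
import Fermat.Agent.LT.Base.Local

/-!
# The differential equation forced by radial kernels

A locally bounded function of the form `exp (iμ Re z) a(t)` on hyperbolic three space which is an
eigenfunction of every radial kernel operator satisfies a second order differential equation in `t`.
-/

set_option autoImplicit false

noncomputable section

open Filter MeasureTheory Set
open scoped Topology ContDiff

namespace FermatAgent.LT.Whit

/-- The radial variable in real coordinates. -/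
def Cf (a b t : ℝ) (q : H3) : ℝ :=
  ((a - q.z.re) ^ 2 + (b - q.z.im) ^ 2 + t ^ 2 + q.t ^ 2) / (2 * t * q.t)

/-- The distance in coordinates. -/
lemma coshDist_eq_Cf (p q : H3) : H3.coshDist p q = Cf p.z.re p.z.im p.t q := by
  have := p.t_pos
  have := q.t_pos
  simp only [H3.coshDist, Cf, Complex.normSq_apply, Complex.sub_re, Complex.sub_im]
  field_simp
  ring

/-- First derivatives of the radial variable. -/
def Ca (a t : ℝ) (q : H3) : ℝ := (a - q.z.re) / (t * q.t)

/-- The second coordinate. -/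
def Cb (b t : ℝ) (q : H3) : ℝ := (b - q.z.im) / (t * q.t)

/-- The derivative in the height. -/
def Ct (a b t : ℝ) (q : H3) : ℝ :=
  (t ^ 2 - q.t ^ 2 - ((a - q.z.re) ^ 2 + (b - q.z.im) ^ 2)) / (2 * t ^ 2 * q.t)

/-- The second derivative in the height. -/
def Ctt (a b t : ℝ) (q : H3) : ℝ :=
  (q.t ^ 2 + ((a - q.z.re) ^ 2 + (b - q.z.im) ^ 2)) / (t ^ 3 * q.t)

variable {a b t : ℝ} (q : H3)

lemma hasDerivAt_Cf_a (ht : 0 < t) : HasDerivAt (fun x => Cf x b t q) (Ca a t q) a := by
  have := q.t_pos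
  have h : HasDerivAt (fun x => (x - q.z.re) ^ 2 + (b - q.z.im) ^ 2 + t ^ 2 + q.t ^ 2)
      (2 * (a - q.z.re)) a := by
    refine ((((((hasDerivAt_id' a).sub_const q.z.re).fun_pow 2).add_const _).add_const _).add_const
      _).congr_deriv ?_
    simp
  refine (h.div_const (2 * t * q.t)).congr_deriv ?_
  rw [Ca]; field_simp

lemma hasDerivAt_Cf_b (ht : 0 < t) : HasDerivAt (fun x => Cf a x t q) (Cb b t q) b := by
  have := q.t_pos
  have h : HasDerivAt (fun x => (a - q.z.re) ^ 2 + (x - q.z.im) ^ 2 + t ^ 2 + q.t ^ 2)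
      (2 * (b - q.z.im)) b := by
    refine ((((((hasDerivAt_id' b).sub_const q.z.im).fun_pow 2).const_add _).add_const _).add_const
      _).congr_deriv ?_
    simp
  refine (h.div_const (2 * t * q.t)).congr_deriv ?_
  rw [Cb]; field_simp

lemma hasDerivAt_Cf_t (ht : 0 < t) : HasDerivAt (fun x => Cf a b x q) (Ct a b t q) t := by
  have := q.t_pos
  have h1 : HasDerivAt (fun x => (a - q.z.re) ^ 2 + (b - q.z.im) ^ 2 + x ^ 2 + q.t ^ 2)
      (2 * t) t := by
    refine ((((hasDerivAt_id' t).fun_pow 2).const_add _).add_const _).congr_deriv ?_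
    simp
  have h2 : HasDerivAt (fun x => 2 * x * q.t) (2 * q.t) t := by
    simpa using ((hasDerivAt_id t).const_mul 2).mul_const q.t
  refine (h1.div h2 (by positivity)).congr_deriv ?_
  rw [Ct]; field_simp; ring

lemma hasDerivAt_Ct (ht : 0 < t) : HasDerivAt (fun x => Ct a b x q) (Ctt a b t q) t := by
  have := q.t_pos
  have h1 : HasDerivAt (fun x => x ^ 2 - q.t ^ 2 - ((a - q.z.re) ^ 2 + (b - q.z.im) ^ 2))
      (2 * t) t := by
    refine ((((hasDerivAt_id' t).fun_pow 2).sub_const _).sub_const _).congr_deriv ?_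
    simp
  have h2 : HasDerivAt (fun x => 2 * x ^ 2 * q.t) (4 * t * q.t) t := by
    refine ((((hasDerivAt_id' t).fun_pow 2).const_mul 2).mul_const q.t).congr_deriv ?_
    norm_num; left; ring
  refine (h1.div h2 (by positivity)).congr_deriv ?_
  rw [Ctt]; field_simp; ring

/-- A box in hyperbolic space. -/
def box (B c C : ℝ) : Set H3 := {p | ‖p.z‖ ≤ B ∧ c ≤ p.t ∧ p.t ≤ C}

/-- Boxes are measurable. -/
lemma measurableSet_box (B c C : ℝ) : MeasurableSet (box B c C) :=
  ((isClosed_le H3.continuous_z.norm continuous_const).inter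
    ((isClosed_le continuous_const H3.continuous_t).inter
      (isClosed_le H3.continuous_t continuous_const))).measurableSet

/-- Boxes have finite volume. -/
lemma vol_box_ne_top (B : ℝ) {c : ℝ} (hc : 0 < c) (C : ℝ) : H3.vol (box B c C) ≠ ⊤ :=
  ne_top_of_le_ne_top (H3.vol_box_lt_top B hc).ne (measure_mono fun _ hp => ⟨hp.1, hp.2.1⟩)

/-- Boxes are compact. -/
lemma isCompact_box (B : ℝ) {c : ℝ} (hc : 0 < c) (C : ℝ) : IsCompact (box B c C) := by
  rw [H3.isEmbedding_coord.isCompact_iff]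
  have e : H3.coord '' box B c C =
      (WithLp.toLp 2) '' (Metric.closedBall (0 : ℂ) B ×ˢ Icc c C) := by
    ext x
    constructor
    · rintro ⟨p, hp, rfl⟩
      exact ⟨(p.z, p.t), ⟨by simpa using hp.1, hp.2.1, hp.2.2⟩, rfl⟩
    · rintro ⟨⟨z, s⟩, ⟨hz, h1, h2⟩, rfl⟩
      exact ⟨⟨z, s, hc.trans_le h1⟩, ⟨by simpa using hz, h1, h2⟩, rfl⟩
  rw [e]
  exact ((isCompact_closedBall _ _).prod isCompact_Icc).image (WithLp.prod_continuous_toLp 2 ℂ ℝ)

/-- Near a given point the radial variable is large outside a box. -/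
lemma Cf_support {A c C R : ℝ} (hc : 0 < c) (hR : 1 ≤ R) {a b t : ℝ} (ha : |a| ≤ A) (hb : |b| ≤ A)
    (ht : t ∈ Icc c C) {q : H3} (hq : q ∉ box (2 * A + 4 * R * C) (c / (2 * R)) (2 * R * C)) :
    R < Cf a b t q := by
  by_contra hle
  rw [not_lt, Cf, div_le_iff₀ (by have := q.t_pos; have := hc.trans_le ht.1; positivity)] at hle
  have ht0 := hc.trans_le ht.1
  have hqt := q.t_pos
  have h1 : q.t ≤ 2 * R * t := by
    by_contra h
    nlinarith [sq_nonneg (a - q.z.re), sq_nonneg (b - q.z.im), mul_pos ht0 hqt]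
  have h2 : t ≤ 2 * R * q.t := by
    by_contra h
    nlinarith [sq_nonneg (a - q.z.re), sq_nonneg (b - q.z.im), mul_pos ht0 hqt]
  refine hq ⟨?_, ?_, h1.trans (by nlinarith [ht.2])⟩
  · have hbound : (a - q.z.re) ^ 2 + (b - q.z.im) ^ 2 ≤ (2 * R * C) ^ 2 := by
      have : R * (2 * t * q.t) ≤ (2 * R * C) ^ 2 :=
        (mul_le_mul_of_nonneg_left (mul_le_mul_of_nonneg_left h1 (by positivity)) (by
          linarith)).trans
          (le_of_eq_of_le (by ring)
            (pow_le_pow_left₀ (by positivity) (mul_le_mul_of_nonneg_left ht.2 (by positivity)) 2))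
      nlinarith
    have hC : 0 ≤ 2 * R * C := by have := ht0.le.trans ht.2; positivity
    have hr : |a - q.z.re| ≤ 2 * R * C :=
      abs_le.2 ⟨by nlinarith [sq_nonneg (b - q.z.im)], by nlinarith [sq_nonneg (b - q.z.im)]⟩
    have hi : |b - q.z.im| ≤ 2 * R * C :=
      abs_le.2 ⟨by nlinarith [sq_nonneg (a - q.z.re)], by nlinarith [sq_nonneg (a - q.z.re)]⟩
    refine (Complex.norm_le_abs_re_add_abs_im q.z).trans ?_
    have e1 : |q.z.re| ≤ A + 2 * R * C := by
      rw [abs_le] at hr ha ⊢; constructor <;> linarith [hr.1, hr.2, ha.1, ha.2]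
    have e2 : |q.z.im| ≤ A + 2 * R * C := by
      rw [abs_le] at hi hb ⊢; constructor <;> linarith [hi.1, hi.2, hb.1, hb.2]
    linarith
  · rw [div_le_iff₀ (by positivity)]
    linarith [ht.1]

/-- Locally bounded functions. -/
def IsLocBdd (g : H3 → ℂ) : Prop :=
  Measurable g ∧ ∀ B c C : ℝ, 0 < c → ∃ M, ∀ p ∈ box B c C, ‖g p‖ ≤ M

/-- The integral of a kernel against a function. -/
def kint (G : H3 → ℝ) (g : H3 → ℂ) : ℂ := ∫ p, (G p : ℂ) * g p ∂H3.vol

/-- Differentiating under the integral. -/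
lemma hasDerivAt_kint {g : H3 → ℂ} (hg : IsLocBdd g) {G G' : ℝ → H3 → ℝ} {s₀ δ B c C : ℝ}
    (hδ : 0 < δ) (hc : 0 < c)
    (hd : ∀ p, ∀ s ∈ Icc (s₀ - δ) (s₀ + δ), HasDerivAt (fun s => G s p) (G' s p) s)
    (hGc : ∀ s ∈ Icc (s₀ - δ) (s₀ + δ), Continuous (G s))
    (hG'c : ContinuousOn (fun z : ℝ × H3 => G' z.1 z.2) (Icc (s₀ - δ) (s₀ + δ) ×ˢ univ))
    (hsupp : ∀ s ∈ Icc (s₀ - δ) (s₀ + δ), ∀ p ∉ box B c C, G s p = 0 ∧ G' s p = 0) :
    HasDerivAt (fun s => kint (G s) g) (kint (G' s₀) g) s₀ := by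
  obtain ⟨M, hM⟩ := hg.2 B c C hc
  have hsub : Metric.ball s₀ δ ⊆ Icc (s₀ - δ) (s₀ + δ) := by
    rw [Real.ball_eq_Ioo]; exact Ioo_subset_Icc_self
  have hs₀ : s₀ ∈ Icc (s₀ - δ) (s₀ + δ) := hsub (Metric.mem_ball_self hδ)
  have hK := isCompact_box B hc C
  obtain ⟨N, hN⟩ := (isCompact_Icc.prod hK).exists_bound_of_continuousOn
    (hG'c.mono (prod_mono le_rfl (subset_univ _)))
  have hN0 : ∀ p ∈ box B c C, 0 ≤ N := fun p hp => (norm_nonneg _).trans (hN (s₀, p) ⟨hs₀, hp⟩)
  have hint : ∀ K : ℝ, Integrable ((box B c C).indicator fun _ => K) H3.vol := fun K =>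
    (integrable_indicator_iff (measurableSet_box B c C)).2
      (integrableOn_const (vol_box_ne_top B hc C))
  have hmeas : ∀ h : H3 → ℝ, Continuous h →
      AEStronglyMeasurable (fun p => (h p : ℂ) * g p) H3.vol := fun h hh =>
    ((Complex.continuous_ofReal.comp hh).measurable.mul hg.1).aestronglyMeasurable
  obtain ⟨N₀, hN₀⟩ := hK.exists_bound_of_continuousOn (hGc s₀ hs₀).continuousOn
  refine (hasDerivAt_integral_of_dominated_loc_of_deriv_le
    (F := fun s p => (G s p : ℂ) * g p) (F' := fun s p => (G' s p : ℂ) * g p)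
    (bound := (box B c C).indicator fun _ => N * M) (Metric.ball_mem_nhds s₀ hδ) ?_ ?_ ?_ ?_
    (hint _)
    ?_).2
  · filter_upwards [Metric.ball_mem_nhds s₀ hδ] with s hs
    exact hmeas _ (hGc s (hsub hs))
  · refine Integrable.mono' (hint (N₀ * M)) (hmeas _ (hGc s₀ hs₀)) (ae_of_all _ fun p => ?_)
    by_cases hp : p ∈ box B c C
    · rw [indicator_of_mem hp, norm_mul, Complex.norm_real]
      exact mul_le_mul (hN₀ p hp) (hM p hp) (norm_nonneg _) ((norm_nonneg _).trans (hN₀ p hp))
    · rw [indicator_of_notMem hp, (hsupp s₀ hs₀ p hp).1]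
      simp
  · exact hmeas _ (hG'c.comp_continuous (continuous_const.prodMk continuous_id)
      fun p => ⟨hs₀, mem_univ _⟩)
  · refine ae_of_all _ fun p s hs => ?_
    by_cases hp : p ∈ box B c C
    · rw [indicator_of_mem hp, norm_mul, Complex.norm_real]
      exact mul_le_mul (hN (s, p) ⟨hsub hs, hp⟩) (hM p hp) (norm_nonneg _) (hN0 p hp)
    · rw [indicator_of_notMem hp, (hsupp s (hsub hs) p hp).2]
      simp
  · refine ae_of_all _ fun p s hs => ?_
    exact ((hd p s (hsub hs)).ofReal_comp).mul_const _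

lemma continuousOn_Cf {X : Type*} [TopologicalSpace X] {a b t : X → ℝ} {q : X → H3} {S : Set X}
    (ha : ContinuousOn a S) (hb : ContinuousOn b S) (ht : ContinuousOn t S) (hq : ContinuousOn q S)
    (ht0 : ∀ x ∈ S, 0 < t x) : ContinuousOn (fun x => Cf (a x) (b x) (t x) (q x)) S := by
  have h1 := (Complex.continuous_re.comp H3.continuous_z).comp_continuousOn hq
  have h2 := (Complex.continuous_im.comp H3.continuous_z).comp_continuousOn hq
  have h3 := H3.continuous_t.comp_continuousOn hq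
  exact ((((ha.sub h1).pow 2).add ((hb.sub h2).pow 2)).add (ht.pow 2) |>.add (h3.pow 2)).div
    ((continuousOn_const.mul ht).mul h3) fun x hx => by
      have := ht0 x hx
      have := (q x).t_pos
      exact (mul_pos (mul_pos two_pos (ht0 x hx)) (q x).t_pos).ne'

variable {k : ℝ → ℝ}

lemma deriv_zero_of_support {R : ℝ} (hsupp : ∀ x, R < x → k x = 0) :
    ∀ x, R < x → deriv k x = 0 := fun x hx => by
  rw [Filter.EventuallyEq.deriv_eq (f := fun _ => (0 : ℝ))
    (eventually_of_mem (Ioi_mem_nhds hx) hsupp), deriv_const]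

/-- The Laplacian of the kernel as a radial function. -/
def lapK (k : ℝ → ℝ) (x : ℝ) : ℝ := (x ^ 2 - 1) * deriv (deriv k) x + 3 * x * deriv k x

/-- Derivatives of smooth profiles are smooth. -/
lemma contDiff_deriv_top (hk : ContDiff ℝ ∞ k) : ContDiff ℝ ∞ (deriv k) :=
  (contDiff_infty_iff_deriv.1 hk).2

/-- The Laplacian of a smooth profile is smooth. -/
lemma contDiff_lapK (hk : ContDiff ℝ ∞ k) : ContDiff ℝ ∞ (lapK k) :=
  (((contDiff_id.pow 2).sub contDiff_const).mul (contDiff_deriv_top (contDiff_deriv_top hk))).add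
    ((contDiff_const.mul contDiff_id).mul (contDiff_deriv_top hk))

/-- The Laplacian keeps compact support. -/
lemma hasCompactSupport_lapK (hs : HasCompactSupport k) : HasCompactSupport (lapK k) := by
  refine hs.mono' fun x hx => ?_
  by_contra h
  apply hx
  have h1 : deriv k x = 0 := by
    by_contra h'
    exact h (support_deriv_subset h')
  have h2 : deriv (deriv k) x = 0 := by
    by_contra h'
    refine h ?_
    have := support_deriv_subset (f := deriv k) h'
    exact closure_minimal support_deriv_subset (isClosed_tsupport _) this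
  simp [lapK, h1, h2]

lemma lap_identity (ht : 0 < t) (q : H3) :
    t ^ 2 *
      ((deriv (deriv k) (Cf a b t q) * Ca a t q ^ 2 + deriv k (Cf a b t q) * (1 / (t * q.t))) +
        (deriv (deriv k) (Cf a b t q) * Cb b t q ^ 2 + deriv k (Cf a b t q) * (1 / (t * q.t))) +
        (deriv (deriv k) (Cf a b t q) * Ct a b t q ^ 2 + deriv k (Cf a b t q) * Ctt a b t q)) -
      t * (deriv k (Cf a b t q) * Ct a b t q) = lapK k (Cf a b t q) := by
  have := q.t_pos
  simp only [lapK, Cf, Ca, Cb, Ct, Ctt]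
  field_simp
  ring

/-- The horizontal first derivative is continuous. -/
private lemma continuousOn_Ca {X : Type*} [TopologicalSpace X] {a t : X → ℝ} {q : X → H3}
    {S : Set X} (ha : ContinuousOn a S) (ht : ContinuousOn t S) (hq : ContinuousOn q S)
    (ht0 : ∀ x ∈ S, 0 < t x) : ContinuousOn (fun x => Ca (a x) (t x) (q x)) S :=
  (ha.sub ((Complex.continuous_re.comp H3.continuous_z).comp_continuousOn hq)).div
    (ht.mul (H3.continuous_t.comp_continuousOn hq)) fun x hx =>
      (mul_pos (ht0 x hx) (q x).t_pos).ne'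

/-- The second horizontal first derivative is continuous. -/
private lemma continuousOn_Cb {X : Type*} [TopologicalSpace X] {b t : X → ℝ} {q : X → H3}
    {S : Set X} (hb : ContinuousOn b S) (ht : ContinuousOn t S) (hq : ContinuousOn q S)
    (ht0 : ∀ x ∈ S, 0 < t x) : ContinuousOn (fun x => Cb (b x) (t x) (q x)) S :=
  (hb.sub ((Complex.continuous_im.comp H3.continuous_z).comp_continuousOn hq)).div
    (ht.mul (H3.continuous_t.comp_continuousOn hq)) fun x hx =>
      (mul_pos (ht0 x hx) (q x).t_pos).ne'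

/-- The second derivative in a horizontal coordinate is continuous. -/
private lemma continuousOn_one_div_mul {X : Type*} [TopologicalSpace X] {t : X → ℝ} {q : X → H3}
    {S : Set X} (ht : ContinuousOn t S) (hq : ContinuousOn q S) (ht0 : ∀ x ∈ S, 0 < t x) :
    ContinuousOn (fun x => 1 / (t x * (q x).t)) S :=
  continuousOn_const.div (ht.mul (H3.continuous_t.comp_continuousOn hq)) fun x hx =>
    (mul_pos (ht0 x hx) (q x).t_pos).ne'

/-- The derivative in the height is continuous. -/
private lemma continuousOn_Ct {X : Type*} [TopologicalSpace X] {a b t : X → ℝ} {q : X → H3}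
    {S : Set X} (ha : ContinuousOn a S) (hb : ContinuousOn b S) (ht : ContinuousOn t S)
    (hq : ContinuousOn q S) (ht0 : ∀ x ∈ S, 0 < t x) :
    ContinuousOn (fun x => Ct (a x) (b x) (t x) (q x)) S := by
  have h1 := (Complex.continuous_re.comp H3.continuous_z).comp_continuousOn hq
  have h2 := (Complex.continuous_im.comp H3.continuous_z).comp_continuousOn hq
  have h3 := H3.continuous_t.comp_continuousOn hq
  exact (((ht.pow 2).sub (h3.pow 2)).sub (((ha.sub h1).pow 2).add ((hb.sub h2).pow 2))).div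
    ((continuousOn_const.mul (ht.pow 2)).mul h3)
    fun x hx => (mul_pos (mul_pos two_pos (pow_pos (ht0 x hx) 2)) (q x).t_pos).ne'

/-- The second derivative in the height is continuous. -/
private lemma continuousOn_Ctt {X : Type*} [TopologicalSpace X] {a b t : X → ℝ} {q : X → H3}
    {S : Set X} (ha : ContinuousOn a S) (hb : ContinuousOn b S) (ht : ContinuousOn t S)
    (hq : ContinuousOn q S) (ht0 : ∀ x ∈ S, 0 < t x) :
    ContinuousOn (fun x => Ctt (a x) (b x) (t x) (q x)) S := by
  have h1 := (Complex.continuous_re.comp H3.continuous_z).comp_continuousOn hq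
  have h2 := (Complex.continuous_im.comp H3.continuous_z).comp_continuousOn hq
  have h3 := H3.continuous_t.comp_continuousOn hq
  exact ((h3.pow 2).add (((ha.sub h1).pow 2).add ((hb.sub h2).pow 2))).div ((ht.pow 3).mul h3)
    fun x hx => (mul_pos (pow_pos (ht0 x hx) 3) (q x).t_pos).ne'

/-- Two derivatives under the integral along a path of the radial variable. -/
private lemma hasDerivAt_kint_comp {g : H3 → ℂ} (hg : IsLocBdd g) (hk : ContDiff ℝ ∞ k) {R : ℝ}
    (hR : ∀ x, R < x → k x = 0) {C D E : ℝ → H3 → ℝ} {s₀ δ B c C' : ℝ} (hδ : 0 < δ) (hc : 0 < c)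
    (hC : ∀ q, ∀ s ∈ Icc (s₀ - δ) (s₀ + δ), HasDerivAt (fun s => C s q) (D s q) s)
    (hD : ∀ q, ∀ s ∈ Icc (s₀ - δ) (s₀ + δ), HasDerivAt (fun s => D s q) (E s q) s)
    (hCc : ContinuousOn (fun z : ℝ × H3 => C z.1 z.2) (Icc (s₀ - δ) (s₀ + δ) ×ˢ univ))
    (hDc : ContinuousOn (fun z : ℝ × H3 => D z.1 z.2) (Icc (s₀ - δ) (s₀ + δ) ×ˢ univ))
    (hEc : ContinuousOn (fun z : ℝ × H3 => E z.1 z.2) (Icc (s₀ - δ) (s₀ + δ) ×ˢ univ))
    (hsupp : ∀ s ∈ Icc (s₀ - δ) (s₀ + δ), ∀ q ∉ box B c C', R < C s q) :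
    HasDerivAt (fun s => kint (fun q => k (C s q)) g)
        (kint (fun q => deriv k (C s₀ q) * D s₀ q) g) s₀ ∧
      HasDerivAt (fun s => kint (fun q => deriv k (C s q) * D s q) g)
        (kint (fun q => deriv (deriv k) (C s₀ q) * D s₀ q ^ 2 + deriv k (C s₀ q) * E s₀ q) g)
        s₀ := by
  have hR' := deriv_zero_of_support hR
  have hR'' := deriv_zero_of_support hR'
  have hk' := contDiff_deriv_top hk
  have hd : ∀ q, ∀ s ∈ Icc (s₀ - δ) (s₀ + δ),
      HasDerivAt (fun s => k (C s q)) (deriv k (C s q) * D s q) s := fun q s hs' =>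
    ((hk.differentiable (by simp) _).hasDerivAt).comp s (hC q s hs')
  have hd' : ∀ q, ∀ s ∈ Icc (s₀ - δ) (s₀ + δ), HasDerivAt (fun s => deriv k (C s q) * D s q)
      (deriv (deriv k) (C s q) * D s q ^ 2 + deriv k (C s q) * E s q) s := fun q s hs' =>
    ((((hk'.differentiable (by simp) _).hasDerivAt).comp s (hC q s hs')).mul
      (hD q s hs')).congr_deriv (by simp only [Function.comp_apply]; ring)
  have hG1 := (hk'.continuous.comp_continuousOn hCc).mul hDc
  refine ⟨hasDerivAt_kint hg (G := fun s q => k (C s q)) (G' := fun s q => deriv k (C s q) * D s q)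
      (B := B) (C := C') hδ hc hd (fun s hs' => ?_) hG1 fun s hs' q hq =>
        ⟨hR _ (hsupp s hs' q hq), by simp [hR' _ (hsupp s hs' q hq)]⟩,
    hasDerivAt_kint hg (G := fun s q => deriv k (C s q) * D s q)
      (G' := fun s q => deriv (deriv k) (C s q) * D s q ^ 2 + deriv k (C s q) * E s q)
      (B := B) (C := C') hδ hc hd' (fun s hs' => ?_) ?_ fun s hs' q hq =>
        ⟨by simp [hR' _ (hsupp s hs' q hq)],
          by simp [hR' _ (hsupp s hs' q hq), hR'' _ (hsupp s hs' q hq)]⟩⟩
  · exact (hk.continuous.comp_continuousOn hCc).comp_continuous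
      (continuous_const.prodMk continuous_id) fun q => ⟨hs', mem_univ _⟩
  · exact hG1.comp_continuous (continuous_const.prodMk continuous_id) fun q => ⟨hs', mem_univ _⟩
  · exact (((contDiff_deriv_top hk').continuous.comp_continuousOn hCc).mul (hDc.pow 2)).add
      ((hk'.continuous.comp_continuousOn hCc).mul hEc)

/-- Two derivatives in the first horizontal coordinate. -/
private lemma hasDerivAt_kint_a {g : H3 → ℂ} (hg : IsLocBdd g) (hk : ContDiff ℝ ∞ k) {R : ℝ}
    (hR1 : 1 ≤ R) (hR : ∀ x, R < x → k x = 0) (a : ℝ) {t : ℝ} (ht : 0 < t) :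
    HasDerivAt (fun x => kint (fun q => k (Cf x 0 t q)) g)
        (kint (fun q => deriv k (Cf a 0 t q) * Ca a t q) g) a ∧
      HasDerivAt (fun x => kint (fun q => deriv k (Cf x 0 t q) * Ca x t q) g)
        (kint (fun q => deriv (deriv k) (Cf a 0 t q) * Ca a t q ^ 2 +
          deriv k (Cf a 0 t q) * (1 / (t * q.t))) g) a :=
  hasDerivAt_kint_comp hg hk hR (C := fun x q => Cf x 0 t q) (D := fun x q => Ca x t q)
    (E := fun _ q => 1 / (t * q.t)) (δ := 1) (B := 2 * (|a| + 1) + 4 * R * t) (c := t / (2 * R))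
    (C' := 2 * R * t) one_pos (by positivity) (fun q x _ => hasDerivAt_Cf_a q ht)
    (fun q x _ => ((hasDerivAt_id x).sub_const _).div_const _)
    (continuousOn_Cf continuousOn_fst continuousOn_const continuousOn_const continuousOn_snd
      fun _ _ => ht)
    (continuousOn_Ca continuousOn_fst continuousOn_const continuousOn_snd fun _ _ => ht)
    (continuousOn_one_div_mul continuousOn_const continuousOn_snd fun _ _ => ht)
    fun x hx q hq => Cf_support ht hR1 (A := |a| + 1) (a := x) (b := 0)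
      (abs_le.2 ⟨by linarith [hx.1, neg_abs_le a], by linarith [hx.2, le_abs_self a]⟩)
      (by simp only [abs_zero]; positivity) (right_mem_Icc.2 le_rfl) hq

/-- Two derivatives in the second horizontal coordinate. -/
private lemma hasDerivAt_kint_b {g : H3 → ℂ} (hg : IsLocBdd g) (hk : ContDiff ℝ ∞ k) {R : ℝ}
    (hR1 : 1 ≤ R) (hR : ∀ x, R < x → k x = 0) (b : ℝ) {t : ℝ} (ht : 0 < t) :
    HasDerivAt (fun x => kint (fun q => k (Cf 0 x t q)) g)
        (kint (fun q => deriv k (Cf 0 b t q) * Cb b t q) g) b ∧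
      HasDerivAt (fun x => kint (fun q => deriv k (Cf 0 x t q) * Cb x t q) g)
        (kint (fun q => deriv (deriv k) (Cf 0 b t q) * Cb b t q ^ 2 +
          deriv k (Cf 0 b t q) * (1 / (t * q.t))) g) b :=
  hasDerivAt_kint_comp hg hk hR (C := fun x q => Cf 0 x t q) (D := fun x q => Cb x t q)
    (E := fun _ q => 1 / (t * q.t)) (δ := 1) (B := 2 * (|b| + 1) + 4 * R * t) (c := t / (2 * R))
    (C' := 2 * R * t) one_pos (by positivity) (fun q x _ => hasDerivAt_Cf_b q ht)
    (fun q x _ => ((hasDerivAt_id x).sub_const _).div_const _)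
    (continuousOn_Cf continuousOn_const continuousOn_fst continuousOn_const continuousOn_snd
      fun _ _ => ht)
    (continuousOn_Cb continuousOn_fst continuousOn_const continuousOn_snd fun _ _ => ht)
    (continuousOn_one_div_mul continuousOn_const continuousOn_snd fun _ _ => ht)
    fun x hx q hq => Cf_support ht hR1 (A := |b| + 1) (a := 0) (b := x)
      (by simp only [abs_zero]; positivity)
      (abs_le.2 ⟨by linarith [hx.1, neg_abs_le b], by linarith [hx.2, le_abs_self b]⟩)
      (right_mem_Icc.2 le_rfl) hq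

/-- Two derivatives in the height. -/
private lemma hasDerivAt_kint_t {g : H3 → ℂ} (hg : IsLocBdd g) (hk : ContDiff ℝ ∞ k) {R : ℝ}
    (hR1 : 1 ≤ R) (hR : ∀ x, R < x → k x = 0) {t : ℝ} (ht : 0 < t) :
    HasDerivAt (fun x => kint (fun q => k (Cf 0 0 x q)) g)
        (kint (fun q => deriv k (Cf 0 0 t q) * Ct 0 0 t q) g) t ∧
      HasDerivAt (fun x => kint (fun q => deriv k (Cf 0 0 x q) * Ct 0 0 x q) g)
        (kint (fun q => deriv (deriv k) (Cf 0 0 t q) * Ct 0 0 t q ^ 2 +
          deriv k (Cf 0 0 t q) * Ctt 0 0 t q) g) t := by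
  have hpos : ∀ z ∈ Icc (t - t / 2) (t + t / 2) ×ˢ (univ : Set H3), 0 < z.1 :=
    fun z hz => by linarith [hz.1.1]
  exact hasDerivAt_kint_comp hg hk hR (C := fun x q => Cf 0 0 x q) (D := fun x q => Ct 0 0 x q)
    (E := fun x q => Ctt 0 0 x q) (δ := t / 2) (B := 2 * 0 + 4 * R * (t + t / 2))
    (c := (t - t / 2) / (2 * R)) (C' := 2 * R * (t + t / 2)) (by positivity)
    (div_pos (by linarith) (by positivity))
    (fun q x hx => hasDerivAt_Cf_t q (by linarith [hx.1]))
    (fun q x hx => hasDerivAt_Ct q (by linarith [hx.1]))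
    (continuousOn_Cf continuousOn_const continuousOn_const continuousOn_fst continuousOn_snd hpos)
    (continuousOn_Ct continuousOn_const continuousOn_const continuousOn_fst continuousOn_snd hpos)
    (continuousOn_Ctt continuousOn_const continuousOn_const continuousOn_fst continuousOn_snd hpos)
    fun x hx q hq => Cf_support (by linarith : 0 < t - t / 2) hR1 (A := 0) (a := 0) (b := 0)
      (by simp) (by simp) hx hq

/-- A continuous kernel supported near a point is integrable against a locally bounded function. -/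
private lemma integrable_kernel_mul {g : H3 → ℂ} (hg : IsLocBdd g) {R : ℝ} (hR1 : 1 ≤ R) {t : ℝ}
    (ht : 0 < t) {G : H3 → ℝ} (hG : Continuous G) (hGz : ∀ q, R < Cf 0 0 t q → G q = 0) :
    Integrable (fun q => (G q : ℂ) * g q) H3.vol := by
  set S := box (2 * 0 + 4 * R * t) (t / (2 * R)) (2 * R * t)
  have hc : 0 < t / (2 * R) := by positivity
  obtain ⟨M, hM⟩ := hg.2 (2 * 0 + 4 * R * t) (t / (2 * R)) (2 * R * t) hc
  obtain ⟨N, hN⟩ := (isCompact_box (2 * 0 + 4 * R * t) hc
    (2 * R * t)).exists_bound_of_continuousOn hG.continuousOn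
  refine Integrable.mono' (g := S.indicator fun _ => N * M)
    ((integrable_indicator_iff (measurableSet_box _ _ _)).2
      (integrableOn_const (C := N * M) (vol_box_ne_top _ hc _)))
    ((Complex.continuous_ofReal.comp hG).measurable.mul hg.1).aestronglyMeasurable
    (ae_of_all _ fun q => ?_)
  by_cases hq : q ∈ S
  · rw [indicator_of_mem hq, norm_mul, Complex.norm_real]
    exact mul_le_mul (hN q hq) (hM q hq) (norm_nonneg _) ((norm_nonneg _).trans (hN q hq))
  · rw [indicator_of_notMem hq, hGz q (Cf_support ht hR1 (A := 0) (by simp) (by simp)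
      (right_mem_Icc.2 le_rfl) hq)]
    simp

/-- The integral against the Laplacian of a kernel in terms of derivatives along the coordinates. -/
private lemma kint_lapK {g : H3 → ℂ} (hg : IsLocBdd g) (hk : ContDiff ℝ ∞ k) {R : ℝ} (hR1 : 1 ≤ R)
    (hR : ∀ x, R < x → k x = 0) {t : ℝ} (ht : 0 < t) :
    kint (fun q => lapK k (Cf 0 0 t q)) g =
      (t : ℂ) ^ 2 * (kint (fun q => deriv (deriv k) (Cf 0 0 t q) * Ca 0 t q ^ 2 +
          deriv k (Cf 0 0 t q) * (1 / (t * q.t))) g +
        kint (fun q => deriv (deriv k) (Cf 0 0 t q) * Cb 0 t q ^ 2 +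
          deriv k (Cf 0 0 t q) * (1 / (t * q.t))) g +
        kint (fun q => deriv (deriv k) (Cf 0 0 t q) * Ct 0 0 t q ^ 2 +
          deriv k (Cf 0 0 t q) * Ctt 0 0 t q) g) -
      (t : ℂ) * kint (fun q => deriv k (Cf 0 0 t q) * Ct 0 0 t q) g := by
  have hR' := deriv_zero_of_support hR
  have hR'' := deriv_zero_of_support hR'
  have h0 : ∀ x ∈ (univ : Set H3), 0 < t := fun _ _ => ht
  have hC : Continuous fun q => Cf 0 0 t q := continuousOn_univ.1
    (continuousOn_Cf continuousOn_const continuousOn_const continuousOn_const continuousOn_id h0)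
  have hd0 : Continuous fun q => Ca 0 t q := continuousOn_univ.1
    (continuousOn_Ca continuousOn_const continuousOn_const continuousOn_id h0)
  have hd1 : Continuous fun q => Cb 0 t q := continuousOn_univ.1
    (continuousOn_Cb continuousOn_const continuousOn_const continuousOn_id h0)
  have hd2 : Continuous fun q => Ct 0 0 t q := continuousOn_univ.1
    (continuousOn_Ct continuousOn_const continuousOn_const continuousOn_const continuousOn_id h0)
  have hd3 : Continuous fun q => Ctt 0 0 t q := continuousOn_univ.1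
    (continuousOn_Ctt continuousOn_const continuousOn_const continuousOn_const continuousOn_id h0)
  have hd4 : Continuous fun q : H3 => 1 / (t * q.t) := continuousOn_univ.1
    (continuousOn_one_div_mul continuousOn_const continuousOn_id h0)
  have k1 := (contDiff_deriv_top hk).continuous.comp hC
  have k2 := (contDiff_deriv_top (contDiff_deriv_top hk)).continuous.comp hC
  have ia := integrable_kernel_mul hg hR1 ht (G := fun q => deriv (deriv k) (Cf 0 0 t q) *
      Ca 0 t q ^ 2 + deriv k (Cf 0 0 t q) * (1 / (t * q.t)))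
    ((k2.mul (hd0.pow 2)).add (k1.mul hd4)) fun q hq => by simp [hR' _ hq, hR'' _ hq]
  have ib := integrable_kernel_mul hg hR1 ht (G := fun q => deriv (deriv k) (Cf 0 0 t q) *
      Cb 0 t q ^ 2 + deriv k (Cf 0 0 t q) * (1 / (t * q.t)))
    ((k2.mul (hd1.pow 2)).add (k1.mul hd4)) fun q hq => by simp [hR' _ hq, hR'' _ hq]
  have it := integrable_kernel_mul hg hR1 ht (G := fun q => deriv (deriv k) (Cf 0 0 t q) *
      Ct 0 0 t q ^ 2 + deriv k (Cf 0 0 t q) * Ctt 0 0 t q)
    ((k2.mul (hd2.pow 2)).add (k1.mul hd3)) fun q hq => by simp [hR' _ hq, hR'' _ hq]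
  have iu := integrable_kernel_mul hg hR1 ht (G := fun q => deriv k (Cf 0 0 t q) * Ct 0 0 t q)
    (k1.mul hd2) fun q hq => by simp [hR' _ hq]
  unfold kint
  rw [← integral_add ia ib, ← integral_add (ia.fun_add ib) it, ← integral_const_mul,
    ← integral_const_mul, ← integral_sub (((ia.fun_add ib).fun_add it).const_mul _)
      (iu.const_mul _)]
  refine integral_congr_ae (ae_of_all _ fun q => ?_)
  show ((lapK k (Cf 0 0 t q) : ℝ) : ℂ) * g q = _
  rw [← lap_identity (k := k) ht q]
  push_cast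
  ring

/-- A radial eigenfunction `exp (iμ Re z) A(t)` makes `A` twice differentiable with
`t² (A″ - μ² A) - t A′` a multiple of `A`. -/
theorem ode_of_radial {F : H3 → ℂ} {A : ℝ → ℂ} {μ : ℝ} (hF : IsLocBdd F)
    (hFA : ∀ p : H3, F p = Complex.exp ((μ * p.z.re : ℝ) * Complex.I) * A p.t)
    {h : (ℝ → ℝ) → ℂ}
    (heig : ∀ k : ℝ → ℝ, ContDiff ℝ ∞ k → HasCompactSupport k → ∀ p : H3,
      kint (fun q => k (H3.coshDist p q)) F = h k * F p)
    (hk : ContDiff ℝ ∞ k) (hs : HasCompactSupport k) (hk0 : h k ≠ 0) :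
    ∃ A1 A2 : ℝ → ℂ, ∀ t, 0 < t → HasDerivAt A (A1 t) t ∧ HasDerivAt A1 (A2 t) t ∧
      h k * ((t : ℂ) ^ 2 * (A2 t - (μ : ℂ) ^ 2 * A t) - (t : ℂ) * A1 t) = h (lapK k) * A t := by
  obtain ⟨R, hR1, hR⟩ : ∃ R, 1 ≤ R ∧ ∀ x, R < x → k x = 0 := by
    obtain ⟨R, hR⟩ := hs.bddAbove
    exact ⟨max 1 R, le_max_left _ _, fun x hx => by
      by_contra hne
      exact absurd (hR (subset_closure hne)) (not_le.2 ((le_max_right _ _).trans_lt hx))⟩
  -- the integral representation
  have hrep : ∀ a b t : ℝ, 0 < t → kint (fun q => k (Cf a b t q)) F =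
      h k * (Complex.exp ((μ * a : ℝ) * Complex.I) * A t) := fun a b t ht => by
    have := heig k hk hs ⟨⟨a, b⟩, t, ht⟩
    rw [hFA ⟨⟨a, b⟩, t, ht⟩] at this
    simpa only [coshDist_eq_Cf] using this
  refine ⟨fun t => (h k)⁻¹ * kint (fun q => deriv k (Cf 0 0 t q) * Ct 0 0 t q) F,
    fun t => (h k)⁻¹ * kint (fun q => deriv (deriv k) (Cf 0 0 t q) * Ct 0 0 t q ^ 2 +
      deriv k (Cf 0 0 t q) * Ctt 0 0 t q) F,
    fun t ht => ⟨?_, (hasDerivAt_kint_t hF hk hR1 hR ht).2.const_mul _, ?_⟩⟩
  · refine ((hasDerivAt_kint_t hF hk hR1 hR ht).1.const_mul (h k)⁻¹).congr_of_eventuallyEq ?_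
    filter_upwards [Ioi_mem_nhds ht] with x hx
    rw [hrep 0 0 x hx, ← mul_assoc, inv_mul_cancel₀ hk0]
    simp
  · set E := fun x : ℝ => Complex.exp ((μ * x : ℝ) * Complex.I)
    have hE : ∀ x, HasDerivAt E (E x * (μ * Complex.I)) x := fun x => by
      have h1 : HasDerivAt (fun x : ℝ => ((μ * x : ℝ) : ℂ) * Complex.I) (μ * Complex.I) x := by
        simpa using (((hasDerivAt_id x).const_mul μ).ofReal_comp).mul_const Complex.I
      simpa [E] using h1.cexp
    have e1 : ∀ x, kint (fun q => deriv k (Cf x 0 t q) * Ca x t q) F =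
        h k * (E x * (μ * Complex.I) * A t) := fun x =>
      (hasDerivAt_kint_a hF hk hR1 hR x ht).1.unique
        ((((hE x).mul_const (A t)).const_mul (h k)).congr_of_eventuallyEq
          (Eventually.of_forall fun y => hrep y 0 t ht))
    have e2 := (hasDerivAt_kint_a hF hk hR1 hR 0 ht).2.unique
      (((((hE 0).mul_const (μ * Complex.I : ℂ)).mul_const (A t)).const_mul
        (h k)).congr_of_eventuallyEq (Eventually.of_forall e1))
    have e3 : ∀ x, kint (fun q => deriv k (Cf 0 x t q) * Cb x t q) F = 0 := fun x =>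
      (hasDerivAt_kint_b hF hk hR1 hR x ht).1.unique
        ((hasDerivAt_const x (h k * (E 0 * A t))).congr_of_eventuallyEq
          (Eventually.of_forall fun y => hrep 0 y t ht))
    have e4 := (hasDerivAt_kint_b hF hk hR1 hR 0 ht).2.unique
      ((hasDerivAt_const (0 : ℝ) (0 : ℂ)).congr_of_eventuallyEq (Eventually.of_forall e3))
    have e5 : kint (fun q => lapK k (Cf 0 0 t q)) F = h (lapK k) * (E 0 * A t) := by
      have := heig (lapK k) (contDiff_lapK hk) (hasCompactSupport_lapK hs) ⟨⟨0, 0⟩, t, ht⟩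
      rw [hFA ⟨⟨0, 0⟩, t, ht⟩] at this
      simpa only [coshDist_eq_Cf] using this
    have key := kint_lapK hF hk hR1 hR ht
    rw [e5, e2, e4, show E 0 = 1 by simp [E]] at key
    simp only [one_mul] at key
    have hI := Complex.I_mul_I
    field_simp
    linear_combination -key - (h k * (t : ℂ) ^ 2 * (μ : ℂ) ^ 2 * A t) * hI

end FermatAgent.LT.Whit
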