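import Mathlib

/-!
# Decaying solutions of the archimedean Whittaker equation

For `u'' + u' / t = c ^ 2 u` on `t > 0` a comparison principle gives that a solution tending to
zero is determined by any value, never vanishes unless zero, and decays exponentially.
-/

set_option autoImplicit false

noncomputable section

open Filter Set
open scoped Topology

namespace FermatAgent.LT.Whit

/-- A positive second derivative at a critical point excludes a maximum from the right. -/
lemma exists_gt_of_deriv2_pos {v v1 : ℝ → ℝ} {v2 m R : ℝ} (hR : m < R)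
    (hv : ∀ x ∈ Set.Icc m R, HasDerivAt v (v1 x) x) (h1 : v1 m = 0) (h2 : HasDerivAt v1 v2 m)
    (hpos : 0 < v2) : ∃ x ∈ Set.Ioc m R, v m < v x := by
  have h := ((hasDerivAt_iff_tendsto_slope.1 h2).mono_left
    (nhdsWithin_mono m fun x (hx : m < x) => ne_of_gt hx)).eventually (eventually_gt_nhds hpos)
  obtain ⟨b, hb, hbsub⟩ := mem_nhdsGT_iff_exists_Ioo_subset.1 h
  set x := min R ((m + b) / 2)
  have hb' : m < b := hb
  have hmx : m < x := lt_min hR (by linarith)
  have hxb : x < b := (min_le_right _ _).trans_lt (by linarith)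
  obtain ⟨c, hc, hce⟩ := exists_hasDerivAt_eq_slope v v1 hmx
    (fun z hz => (hv z ⟨hz.1, hz.2.trans (min_le_left _ _)⟩).continuousAt.continuousWithinAt)
    fun z hz => hv z ⟨hz.1.le, hz.2.le.trans (min_le_left _ _)⟩
  have hs : 0 < slope v1 m c := hbsub ⟨hc.1, hc.2.trans hxb⟩
  rw [slope_def_field, h1, sub_zero] at hs
  have hc0 : 0 < v1 c := by
    rcases div_pos_iff.1 hs with h | h
    · exact h.1
    · linarith [hc.1, h.2]
  rw [hce] at hc0
  refine ⟨x, ⟨hmx, min_le_left _ _⟩, ?_⟩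
  rcases div_pos_iff.1 hc0 with h | h
  · linarith [h.1]
  · linarith [h.2]

/-- The comparison principle on a half line. -/
theorem nonpos_of_subsolution {c t₀ : ℝ} (hc : c ≠ 0) {v v1 v2 : ℝ → ℝ}
    (hv : ∀ t, t₀ ≤ t → HasDerivAt v (v1 t) t) (hv1 : ∀ t, t₀ < t → HasDerivAt v1 (v2 t) t)
    (h0 : v t₀ ≤ 0) (hlim : ∀ ε, 0 < ε → ∀ᶠ t in atTop, v t < ε)
    (hineq : ∀ t, t₀ < t → c ^ 2 * v t ≤ v2 t + v1 t / t) {t : ℝ} (ht : t₀ ≤ t) : v t ≤ 0 := by
  by_contra hpos
  rw [not_le] at hpos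
  obtain ⟨R, hR⟩ := eventually_atTop.1 (hlim (v t) hpos)
  have hne : (Icc t₀ (max R t + 1)).Nonempty := ⟨t₀, le_refl _, by linarith [le_max_right R t]⟩
  obtain ⟨m, hm, hmax⟩ := isCompact_Icc.exists_isMaxOn hne
    fun x hx => (hv x hx.1).continuousAt.continuousWithinAt
  have hmt : v t ≤ v m := hmax ⟨ht, by linarith [le_max_right R t]⟩
  have hm0 : t₀ < m := by
    rcases hm.1.lt_or_eq with h | h
    · exact h
    · subst h; linarith
  have hmR : m < max R t + 1 := by
    rcases hm.2.lt_or_eq with h | h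
    · exact h
    · exact absurd (hR m (by rw [h]; linarith [le_max_left R t])) (not_lt.2 hmt)
  have hloc : IsLocalMax v m := hmax.isLocalMax (Icc_mem_nhds hm0 hmR)
  have h1 := hloc.hasDerivAt_eq_zero (hv m hm.1)
  have h2 : 0 < v2 m := by
    have := hineq m hm0
    rw [h1, zero_div, add_zero] at this
    have hcm : 0 < c ^ 2 * v m := mul_pos (pow_two_pos_of_ne_zero hc) (hpos.trans_le hmt)
    linarith
  obtain ⟨x, hx, hlt⟩ := exists_gt_of_deriv2_pos hmR
    (fun z hz => hv z (hm.1.trans hz.1)) h1 (hv1 m hm0) h2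
  exact absurd (hmax ⟨hm.1.trans hx.1.le, hx.2⟩) (not_le.2 hlt)

/-- A solution of `u'' + u' / t = c² u` on `t > 0` tending to zero at infinity. -/
def IsWhit (c : ℝ) (u : ℝ → ℂ) : Prop :=
  ∃ u1 u2 : ℝ → ℂ, (∀ t, 0 < t → HasDerivAt u (u1 t) t ∧ HasDerivAt u1 (u2 t) t ∧
    u2 t + u1 t / (t : ℂ) = (c : ℂ) ^ 2 * u t) ∧ Tendsto u atTop (𝓝 0)

variable {c : ℝ} {u w : ℝ → ℂ}

/-- Multiples of solutions are solutions. -/
lemma IsWhit.smul (hu : IsWhit c u) (r : ℂ) : IsWhit c fun t => r * u t := by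
  obtain ⟨u1, u2, h, hl⟩ := hu
  refine ⟨fun t => r * u1 t, fun t => r * u2 t, fun t ht => ?_, by simpa using hl.const_mul r⟩
  obtain ⟨a, b, e⟩ := h t ht
  exact ⟨a.const_mul r, b.const_mul r, by linear_combination r * e⟩

/-- The real part of a solution against an exponential. -/
lemma IsWhit.re_compare (hu : IsWhit c u) (hc : c ≠ 0) {t₀ A B k : ℝ} (ht₀ : 0 < t₀) (hk : 0 < k)
    (h0 : A * (u t₀).re + B ≤ 0)
    (hbar : ∀ t, t₀ < t → 0 ≤ B * Real.exp (-(k * (t - t₀))) * (k ^ 2 - k / t - c ^ 2))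
    {t : ℝ} (ht : t₀ ≤ t) : A * (u t).re + B * Real.exp (-(k * (t - t₀))) ≤ 0 := by
  obtain ⟨u1, u2, h, hl⟩ := hu
  set e := fun s : ℝ => Real.exp (-(k * (s - t₀)))
  have he : ∀ s, HasDerivAt e (-k * e s) s := fun s => by
    have h1 : HasDerivAt (fun s : ℝ => -(k * (s - t₀))) (-k) s := by
      simpa using (((hasDerivAt_id s).sub_const t₀).const_mul k).fun_neg
    simpa [e, mul_comm] using h1.exp
  have hre : ∀ {f : ℝ → ℂ} {d : ℂ} {s : ℝ}, HasDerivAt f d s →
      HasDerivAt (fun x => (f x).re) d.re s :=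
        fun hf => Complex.reCLM.hasFDerivAt.comp_hasDerivAt _ hf
  refine nonpos_of_subsolution (c := c) hc (v := fun s => A * (u s).re + B * e s)
    (v1 := fun s => A * (u1 s).re + B * (-k * e s))
    (v2 := fun s => A * (u2 s).re + B * (-k * (-k * e s)))
    (fun s hs => ((hre (h s (ht₀.trans_le hs)).1).const_mul A).add ((he s).const_mul B))
    (fun s hs => ((hre (h s (ht₀.trans hs)).2.1).const_mul A).add
      (((he s).const_mul (-k)).const_mul B)) ?_ ?_ ?_ ht
  · simpa [e] using h0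
  · intro ε hε
    have h1 : Tendsto (fun s => A * (u s).re + B * e s) atTop (𝓝 0) := by
      have hA : Tendsto (fun s => A * (u s).re) atTop (𝓝 0) := by
        simpa using ((Complex.continuous_re.tendsto 0).comp hl).const_mul A
      have hB : Tendsto (fun s => B * e s) atTop (𝓝 0) := by
        have hlin : Tendsto (fun s => k * (s - t₀)) atTop atTop :=
          Tendsto.const_mul_atTop hk (tendsto_atTop_add_const_right _ _ tendsto_id)
        simpa [e, Function.comp_def] using
          (Real.tendsto_exp_neg_atTop_nhds_zero.comp hlin).const_mul B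
      simpa using hA.add hB
    exact h1.eventually (eventually_lt_nhds hε)
  · intro s hs
    have hb := hbar s hs
    have hs0 : (s : ℂ) ≠ 0 := by exact_mod_cast (ht₀.trans hs).ne'
    have he' := congrArg Complex.re (h s (ht₀.trans hs)).2.2
    rw [Complex.add_re, Complex.div_ofReal_re, ← Complex.ofReal_pow, Complex.re_ofReal_mul] at he'
    have he'' : (u2 s).re = c ^ 2 * (u s).re - (u1 s).re / s := by linarith
    rw [he'']
    simp only [e] at hb ⊢
    have expand : (A * (u1 s).re + B * (-k * Real.exp (-(k * (s - t₀))))) / s =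
        A * ((u1 s).re / s) + B * (-k * Real.exp (-(k * (s - t₀)))) / s := by ring
    rw [expand]
    ring_nf at hb ⊢
    linarith

/-- A solution vanishing at a point vanishes beyond it. -/
theorem IsWhit.eq_zero_of_ge (hu : IsWhit c u) (hc : c ≠ 0) {t₀ t : ℝ} (ht₀ : 0 < t₀)
    (h0 : u t₀ = 0) (ht : t₀ ≤ t) : u t = 0 := by
  have key : ∀ r : ℂ, (r * u t).re = 0 := fun r => by
    have h1 := (hu.smul r).re_compare hc (t₀ := t₀) (A := 1) (B := 0) (k := 1) ht₀ one_pos
      (by simp [h0]) (fun s _ => by simp) ht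
    have h2 := (hu.smul r).re_compare hc (t₀ := t₀) (A := -1) (B := 0) (k := 1) ht₀ one_pos
      (by simp [h0]) (fun s _ => by simp) ht
    linarith
  refine Complex.ext ?_ ?_
  · simpa using key 1
  · have := key Complex.I
    simpa using this

/-- Beyond a point where it is one, a solution lies between two exponentials. -/
theorem IsWhit.bounds (hu : IsWhit c u) (hc : 0 < c) {t₀ t : ℝ} (ht₀ : 0 < t₀) (h1 : u t₀ = 1)
    (ht : t₀ ≤ t) : (u t).im = 0 ∧ (u t).re ≤ Real.exp (-(c * (t - t₀))) ∧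
      Real.exp (-((c + 1 / t₀) * (t - t₀))) ≤ (u t).re := by
  refine ⟨?_, ?_, ?_⟩
  · have ha := (hu.smul Complex.I).re_compare hc.ne' (t₀ := t₀) (A := 1) (B := 0) (k := 1) ht₀
      one_pos (by simp [h1]) (fun s _ => by simp) ht
    have hb := (hu.smul Complex.I).re_compare hc.ne' (t₀ := t₀) (A := -1) (B := 0) (k := 1) ht₀
      one_pos (by simp [h1]) (fun s _ => by simp) ht
    simp at ha hb
    linarith
  · have h := hu.re_compare hc.ne' (t₀ := t₀) (A := 1) (B := -1) (k := c) ht₀ hc (by simp [h1])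
      (fun s hs => by
        have : 0 < c / s := div_pos hc (ht₀.trans hs)
        have he := Real.exp_pos (-(c * (s - t₀)))
        nlinarith) ht
    linarith
  · have h := hu.re_compare hc.ne' (t₀ := t₀) (A := -1) (B := 1) (k := c + 1 / t₀) ht₀
      (by positivity) (by simp [h1]) (fun s hs => by
        have hk : 0 < c + 1 / t₀ := by positivity
        have h2 : (c + 1 / t₀) / s ≤ (c + 1 / t₀) / t₀ := by gcongr
        have e : (c + 1 / t₀) ^ 2 - (c + 1 / t₀) / t₀ - c ^ 2 = c / t₀ := by field_simp; ring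
        have : 0 < c / t₀ := div_pos hc ht₀
        refine mul_nonneg (mul_nonneg zero_le_one (Real.exp_pos _).le) ?_
        linarith) ht
    linarith

/-- A solution which is nonzero somewhere is nonzero everywhere. -/
theorem IsWhit.ne_zero (hu : IsWhit c u) (hc : 0 < c) {t₀ t : ℝ} (ht₀ : 0 < t₀) (ht : 0 < t)
    (h0 : u t₀ ≠ 0) : u t ≠ 0 := by
  rcases le_total t₀ t with h | h
  · intro he
    obtain ⟨-, -, hlo⟩ := (hu.smul (u t₀)⁻¹).bounds hc ht₀ (inv_mul_cancel₀ h0) h
    rw [he, mul_zero, Complex.zero_re] at hlo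
    exact absurd hlo (not_le.2 (Real.exp_pos _))
  · exact fun he => h0 (hu.eq_zero_of_ge hc.ne' ht he h)

/-- Exponential decay. -/
theorem IsWhit.norm_le (hu : IsWhit c u) (hc : 0 < c) {t₀ t : ℝ} (ht₀ : 0 < t₀) (ht : t₀ ≤ t) :
    ‖u t‖ ≤ ‖u t₀‖ * Real.exp (-(c * (t - t₀))) := by
  by_cases h0 : u t₀ = 0
  · simp [hu.eq_zero_of_ge hc.ne' ht₀ h0 ht, h0]
  obtain ⟨him, hup, hlo⟩ := (hu.smul (u t₀)⁻¹).bounds hc ht₀ (inv_mul_cancel₀ h0) ht
  have e : u t = u t₀ * ((u t₀)⁻¹ * u t) := by field_simp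
  rw [e, norm_mul]
  refine mul_le_mul_of_nonneg_left ?_ (norm_nonneg _)
  rw [← Complex.abs_re_eq_norm.2 him, abs_of_nonneg ((Real.exp_pos _).le.trans hlo)]
  exact hup

end FermatAgent.LT.Whit
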