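import Fermat.Agent.LT.Whit.Coef
import Fermat.Agent.LT.Whit.MaxPrinciple
import Fermat.Agent.LT.Whit.KernelDiff

/-!
# The Whittaker function at an infinite place

A radial eigenform has, at each infinite place, a Whittaker function equal to `t` times a decaying
solution of `u'' + u' / t = (4π) ^ 2 u`.
-/

set_option autoImplicit false

noncomputable section

open Matrix IsDedekindDomain NumberField Filter MeasureTheory
open scoped MatrixGroups Topology ContDiff

namespace FermatAgent.LT.Whit

/-- The eigenvalue of the radial kernel `k` on the height function. -/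
def hT (k : ℝ → ℝ) : ℂ := kint (fun p => k (H3.coshDist H3.base p)) fun p => (p.t : ℂ)

/-- Open sets have positive volume. -/
lemma vol_pos_of_isOpen {U : Set H3} (hU : IsOpen U) (hne : U.Nonempty) : 0 < H3.vol U := by
  obtain ⟨p, hp⟩ := hne
  have hcont : ContinuousOn H3.ofCoord H3.half := by
    rw [continuousOn_iff_continuous_domRestrict, H3.isEmbedding_coord.continuous_iff]
    exact continuous_subtype_val.congr fun x => (H3.coord_ofCoord x.2).symm
  have hhalf : IsOpen H3.half := isOpen_lt continuous_const (WithLp.prod_continuous_ofLp 2 ℂ ℝ).snd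
  have hV : IsOpen (H3.half ∩ H3.ofCoord ⁻¹' U) := hcont.isOpen_inter_preimage hhalf hU
  have hVne : (H3.half ∩ H3.ofCoord ⁻¹' U).Nonempty :=
    ⟨H3.coord p, H3.coord_mem p, by simpa using hp⟩
  rw [pos_iff_ne_zero]
  intro h0
  rw [H3.vol, Measure.map_apply H3.measurable_ofCoord hU.measurableSet,
    withDensity_apply_eq_zero H3.measurable_dens,
    Measure.restrict_apply' H3.measurableSet_half] at h0
  refine (hV.measure_pos H3.vol3 hVne).ne' (measure_mono_null (fun x hx => ?_) h0)
  refine ⟨⟨?_, hx.2⟩, hx.1⟩
  have hx0 : 0 < x.snd := hx.1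
  simp only [H3.dens, ne_eq, Set.mem_ofPred_eq, ENNReal.ofReal_eq_zero, not_le]
  positivity

lemma coshDist_self (p : H3) : H3.coshDist p p = 1 := by
  simp [H3.coshDist]

/-- Radial kernels are supported in boxes. -/
lemma exists_box_support {k : ℝ → ℝ} (hs : HasCompactSupport k) (p : H3) :
    ∃ B c C : ℝ, 0 < c ∧ ∀ q ∉ box B c C, k (H3.coshDist p q) = 0 := by
  obtain ⟨R, hR⟩ := hs.bddAbove
  refine ⟨2 * (|p.z.re| + |p.z.im|) + 4 * max 1 R * p.t, p.t / (2 * max 1 R), 2 * max 1 R * p.t,
    div_pos p.t_pos (by positivity), fun q hq => ?_⟩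
  rw [coshDist_eq_Cf]
  by_contra hne
  have := Cf_support p.t_pos (le_max_left 1 R) (A := |p.z.re| + |p.z.im|)
    (le_add_of_nonneg_right (abs_nonneg _)) (le_add_of_nonneg_left (abs_nonneg _))
    (Set.right_mem_Icc.2 le_rfl) hq
  exact absurd (hR (subset_closure hne)) (not_le.2 ((le_max_right _ _).trans_lt this))

/-- A compactly supported radial kernel times a locally bounded function is integrable. -/
lemma integrable_radial_mul {k : ℝ → ℝ} (hk : Continuous k) (hs : HasCompactSupport k) (p : H3)
    {g : H3 → ℂ} (hg : IsLocBdd g) :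
    Integrable (fun q => (k (H3.coshDist p q) : ℂ) * g q) H3.vol := by
  obtain ⟨B, c, C, hc, hbox⟩ := exists_box_support hs p
  obtain ⟨N, hN⟩ := hk.bounded_above_of_compact_support hs
  obtain ⟨M, hM⟩ := hg.2 B c C hc
  refine (integrableOn_iff_integrable_of_support_subset (s := box B c C) fun q hq => ?_).1
    (IntegrableOn.of_bound (vol_box_ne_top B hc C).lt_top
      (((Complex.continuous_ofReal.comp (hk.comp (H3.continuous_coshDist p))).measurable.mul
        hg.1).aestronglyMeasurable) (N * M)
      ((ae_restrict_iff' (measurableSet_box B c C)).2 (ae_of_all _ fun q hq => ?_)))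
  · by_contra hn
    exact hq (by simp [hbox q hn])
  · rw [norm_mul, Complex.norm_real]
    exact mul_le_mul (hN _) (hM q hq) (norm_nonneg _) ((norm_nonneg _).trans (hN 0))

lemma isLocBdd_t : IsLocBdd fun p : H3 => (p.t : ℂ) :=
  ⟨(Complex.continuous_ofReal.comp H3.continuous_t).measurable, fun B c C _ =>
    ⟨C, fun p hp => by rw [Complex.norm_real, Real.norm_eq_abs, abs_of_pos p.t_pos]; exact hp.2.2⟩⟩

/-- A test kernel. -/
def bump : ContDiffBump (1 : ℝ) := ⟨1, 2, one_pos, one_lt_two⟩

/-- The bump is smooth. -/
lemma contDiff_bump : ContDiff ℝ ∞ (bump : ℝ → ℝ) := bump.contDiff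

/-- The transform of the bump is nonzero. -/
lemma hT_bump_ne_zero : hT (bump : ℝ → ℝ) ≠ 0 := by
  set G : H3 → ℝ := fun p => bump (H3.coshDist H3.base p) * p.t
  have hG : Continuous G :=
    (bump.continuous.comp (H3.continuous_coshDist _)).mul H3.continuous_t
  have e : hT (bump : ℝ → ℝ) = ((∫ p, G p ∂H3.vol : ℝ) : ℂ) := by
    rw [hT, kint, ← integral_complex_ofReal]
    exact integral_congr_ae (ae_of_all _ fun p => by simp [G])
  rw [e, Complex.ofReal_ne_zero]
  have hnn : 0 ≤ G := fun p => mul_nonneg bump.nonneg p.t_pos.le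
  have hint : Integrable G H3.vol := by
    simpa [G] using
      (integrable_radial_mul bump.continuous bump.hasCompactSupport H3.base isLocBdd_t).re
  refine ((integral_pos_iff_support_of_nonneg hnn hint).2 ?_).ne'
  refine (vol_pos_of_isOpen (isOpen_ne_fun hG continuous_const) ⟨H3.base, ?_⟩).trans_le le_rfl
  show bump (H3.coshDist H3.base H3.base) * H3.base.t ≠ 0
  rw [coshDist_self]
  refine mul_ne_zero ?_ H3.base.t_pos.ne'
  exact (bump.pos_of_mem_ball (Metric.mem_ball_self (by norm_num [bump]))).ne'

/-- The height is an eigenfunction of radial kernels. -/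
theorem kint_t (k : ℝ → ℝ) (p : H3) :
    kint (fun q => k (H3.coshDist p q)) (fun q => (q.t : ℂ)) = hT k * (p.t : ℂ) := by
  obtain ⟨g, hg, hgv⟩ := H3.exists_smul_base p
  have hmp := H3.measurePreserving_smul g
  have he : MeasurableEmbedding fun q : H3 => g • q :=
    (Homeomorph.smul g).measurableEmbedding
  rw [kint, ← hmp.integral_comp he, hT, kint, ← integral_mul_const]
  refine integral_congr_ae (ae_of_all _ fun q => ?_)
  show (k (H3.coshDist p (g • q)) : ℂ) * ((g • q).t : ℂ) = _
  have ht : (g • q).t = p.t * q.t := by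
    rw [H3.t_smul, hgv]
    simp [H3.den, Matrix.det_fin_two, abs_of_pos p.t_pos]
  rw [← hg, H3.coshDist_smul, hg, ht]
  push_cast
  ring

/-- The transform intertwines the Laplacian. -/
lemma hT_lapK {k : ℝ → ℝ} (hk : ContDiff ℝ ∞ k) (hs : HasCompactSupport k) (h0 : hT k ≠ 0) :
    hT (lapK k) = -hT k := by
  obtain ⟨A1, A2, hA⟩ := ode_of_radial (F := fun p : H3 => (p.t : ℂ)) (A := fun t => (t : ℂ))
    (μ := 0) isLocBdd_t (fun p => by simp) (h := hT) (fun k _ _ p => kint_t k p) hk hs h0
  obtain ⟨h1, h2, h3⟩ := hA 1 one_pos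
  have e1 : ∀ t : ℝ, 0 < t → A1 t = 1 := fun t ht =>
    (hA t ht).1.unique (by simpa using (hasDerivAt_id t).ofReal_comp)
  have e2 : A2 1 = 0 := h2.unique ((hasDerivAt_const (1 : ℝ) (1 : ℂ)).congr_of_eventuallyEq (by
    filter_upwards [Ioi_mem_nhds (zero_lt_one' ℝ)] with t ht using e1 t ht))
  rw [e1 1 one_pos, e2] at h3
  simp at h3
  linear_combination -h3

variable {L : Type*} [Field L] [NumberField L]

open Classical in
/-- Eigenfunction at each infinite place of every radial kernel operator, with the eigenvalue of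
the height function. -/
def IsRadial (f : InfPts L → adelGrp L → ℂ) : Prop :=
  ∀ (w : InfinitePlace L) (k : ℝ → ℝ), ContDiff ℝ ∞ k → HasCompactSupport k → ∀ y a,
    kint (fun p => k (H3.coshDist (y w) p)) (fun p => f (Function.update y w p) a) = hT k * f y a

/-- Translates of radial forms are radial. -/
lemma IsRadial.rt {f : InfPts L → adelGrp L → ℂ} (hf : IsRadial f) (h : adelGrp L) :
    IsRadial (Whit.rt h f) := fun w k hk hs y a => hf w k hk hs y (a * h)

variable [IsTotallyComplex L] {f : InfPts L → adelGrp L → ℂ} (hr : IsRadial f)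

lemma coshDist_translate (p q : H3) (x : ℂ) :
    H3.coshDist ⟨p.z + x, p.t, p.t_pos⟩ ⟨q.z + x, q.t, q.t_pos⟩ = H3.coshDist p q := by
  simp [H3.coshDist]

omit [NumberField L] [IsTotallyComplex L] in
open Classical in
lemma transl_update (x : InfV L) (y : InfPts L) (w : InfinitePlace L) (p : H3) :
    transl x (Function.update y w p) =
      Function.update (transl x y) w ⟨p.z + x w, p.t, p.t_pos⟩ := by
  funext v
  by_cases h : v = w
  · subst h; exact H3.ext (by simp) (by simp)
  · refine H3.ext ?_ ?_ <;> simp [Function.update_of_ne h]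

section Radial

open Classical

variable (hcont : ∀ a, Continuous fun y => f y a) (hbdd : ∃ B, ∀ y a, ‖f y a‖ ≤ B)

include hcont hbdd in
/-- Means are continuous in each place. -/
lemma continuous_meanAt_update (ξ : L) (d : Lˣ) (w : InfinitePlace L) (y : InfPts L)
    (a : adelGrp L) : Continuous fun p : H3 => meanAt f ξ d (Function.update y w p) a := by
  obtain ⟨B, hB⟩ := hbdd
  refine continuous_of_dominated (fun p =>
    (((continuous_integrand hcont ξ _ a).comp (latA d).continuous).aestronglyMeasurable))
    (bound := fun _ => B) (fun p => ae_of_all _ fun c => by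
      rw [norm_mul, norm_psiI, mul_one]; exact hB _ _) (integrable_const _)
    (ae_of_all _ fun c => ?_)
  refine ((hcont a).comp ?_).mul continuous_const
  simp only [transl_update]
  refine continuous_pi fun v => ?_
  by_cases h : v = w
  · subst h
    simp only [Function.update_self]
    exact H3.continuous_mk (H3.continuous_z.add continuous_const) H3.continuous_t
  · simp only [Function.update_of_ne h]
    exact continuous_const

/-- Means are bounded. -/
lemma norm_meanAt_le {B : ℝ} (hB : ∀ y a, ‖f y a‖ ≤ B) (ξ : L) (d : Lˣ) (y : InfPts L)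
    (a : adelGrp L) : ‖meanAt f ξ d y a‖ ≤ B := by
  refine (norm_integral_le_of_norm_le_const (C := B) (ae_of_all _ fun c => ?_)).trans_eq ?_
  · rw [norm_mul, norm_psiI, mul_one]; exact hB _ _
  · simp [measureReal_def, volume_cube]

include hcont hbdd hr in
/-- A mean of a radial eigenfunction against an additive character is again a radial
eigenfunction. -/
theorem meanAt_radial (ξ : L) (d : Lˣ) (w : InfinitePlace L) (k : ℝ → ℝ) (hk : ContDiff ℝ ∞ k)
    (hs : HasCompactSupport k)
    (y : InfPts L) (a : adelGrp L) :
    kint (fun p => k (H3.coshDist (y w) p)) (fun p => meanAt f ξ d (Function.update y w p) a) =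
      hT k * meanAt f ξ d y a := by
  obtain ⟨B, hB⟩ := hbdd
  obtain ⟨Bz, c, C, hc, hbox⟩ := exists_box_support hs (y w)
  obtain ⟨N, hN⟩ := (isCompact_box Bz hc C).exists_bound_of_continuousOn
    (f := fun p => k (H3.coshDist (y w) p))
    (hk.continuous.comp (H3.continuous_coshDist _)).continuousOn
  let Φ : H3 → (Idx L → ℝ) → ℂ := fun p x => (k (H3.coshDist (y w) p) : ℂ) *
    (f (transl (latA d x) (Function.update y w p)) a * psiI (-(infEmb L ξ * latA d x)))
  have hcont : Continuous (Function.uncurry Φ) := by
    refine (Complex.continuous_ofReal.comp (hk.continuous.comp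
      ((H3.continuous_coshDist _).comp continuous_fst))).mul (Continuous.mul ?_ ?_)
    · refine (hcont a).comp ?_
      simp only [transl_update]
      refine continuous_pi fun v => ?_
      by_cases h : v = w
      · subst h
        simp only [Function.update_self]
        refine H3.continuous_mk ?_ ?_
        · exact (H3.continuous_z.comp (continuous_fst (X := H3) (Y := Idx L → ℝ))).add
            ((continuous_apply v).comp ((latA d).continuous.comp continuous_snd))
        · show Continuous fun x : H3 × (Idx L → ℝ) => x.1.t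
          exact H3.continuous_t.comp continuous_fst
      · simp only [Function.update_of_ne h]
        exact (H3.continuous_mk (continuous_const.add ((continuous_apply v).comp
          ((latA d).continuous.comp continuous_snd))) continuous_const)
    · exact continuous_psiI.comp
        (continuous_const.mul ((latA d).continuous.comp continuous_snd)).neg
  have hint : Integrable (Function.uncurry Φ) (H3.vol.prod (volume.restrict (cube (Idx L)))) := by
    refine Integrable.mono' (g := ((box Bz c C) ×ˢ Set.univ).indicator fun _ => N * B)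
      ((integrable_indicator_iff ((measurableSet_box Bz c C).prod MeasurableSet.univ)).2
        (integrableOn_const ?_)) hcont.aestronglyMeasurable (ae_of_all _ fun ⟨p, x⟩ => ?_)
    · rw [Measure.prod_prod]
      exact ENNReal.mul_ne_top (vol_box_ne_top Bz hc C) (measure_ne_top _ _)
    · show ‖Φ p x‖ ≤ _
      by_cases hp : p ∈ box Bz c C
      · rw [Set.indicator_of_mem (Set.mk_mem_prod hp (Set.mem_univ x))]
        simp only [Φ, norm_mul, Complex.norm_real, norm_psiI, mul_one]
        exact mul_le_mul (hN p hp) (hB _ _) (norm_nonneg _) ((norm_nonneg _).trans (hN p hp))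
      · rw [Set.indicator_of_notMem (fun h => hp h.1)]
        simp [Φ, hbox p hp]
  calc kint (fun p => k (H3.coshDist (y w) p)) (fun p => meanAt f ξ d (Function.update y w p) a)
      = ∫ p, ∫ x in cube (Idx L), Φ p x ∂volume ∂H3.vol := by
        refine integral_congr_ae (ae_of_all _ fun p => ?_)
        exact (integral_const_mul _ _).symm
    _ = ∫ x in cube (Idx L), ∫ p, Φ p x ∂H3.vol := integral_integral_swap hint
    _ = ∫ x in cube (Idx L), hT k * (f (transl (latA d x) y) a *
          psiI (-(infEmb L ξ * latA d x))) := by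
        refine integral_congr_ae (ae_of_all _ fun x => ?_)
        let g : GL (Fin 2) ℂ := GeneralLinearGroup.mkOfDetNeZero !![1, latA d x w; 0, 1]
          (by simp [Matrix.det_fin_two])
        have hg : ∀ p : H3, g • p = ⟨p.z + latA d x w, p.t, p.t_pos⟩ := fun p => by
          ext <;> simp [H3.smul_def, H3.act, H3.den, g, GeneralLinearGroup.mkOfDetNeZero,
            Matrix.det_fin_two]
        have h1 := hr w k hk hs (transl (latA d x) y) a
        rw [kint, ← (H3.measurePreserving_smul g).integral_comp
          (Homeomorph.smul g).measurableEmbedding] at h1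
        show ∫ p, Φ p x ∂H3.vol = hT k * (_ * _)
        rw [← mul_assoc, ← h1, ← integral_mul_const]
        refine integral_congr_ae (ae_of_all _ fun p => ?_)
        simp only [Φ, transl_update, hg]
        rw [show (transl (latA d x) y w) = ⟨(y w).z + latA d x w, (y w).t, (y w).t_pos⟩ from rfl,
          coshDist_translate]
        ring
    _ = hT k * meanAt f ξ d y a := integral_const_mul _ _

variable {V : InfPts L → ℂ} (hVt : ∀ (x : InfV L) (y : InfPts L), V (transl x y) = psiI x * V y)

omit [IsTotallyComplex L] in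
include hVt in
lemma update_eq (w : InfinitePlace L) (y : InfPts L) (p : H3) :
    V (Function.update y w p) =
      Complex.exp ((4 * Real.pi * (p.z - (y w).z).re : ℝ) * Complex.I) *
        V (Function.update y w ⟨(y w).z, p.t, p.t_pos⟩) := by
  rw [show Function.update y w p = transl (Pi.single w (p.z - (y w).z))
      (Function.update y w ⟨(y w).z, p.t, p.t_pos⟩) by
    funext v
    by_cases h : v = w
    · subst h; exact H3.ext (by simp) (by simp)
    · refine H3.ext ?_ ?_ <;> simp [Function.update_of_ne h, Pi.single_eq_of_ne h], hVt]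
  congr 1
  rw [psiI, Finset.sum_eq_single w (fun v _ hv => by simp [Pi.single_eq_of_ne hv]) (by simp)]
  simp only [Pi.single_eq_same]
  push_cast
  ring_nf

variable (hVc : ∀ (w : InfinitePlace L) (y : InfPts L),
    Continuous fun p : H3 => V (Function.update y w p))
  (hVb : ∃ B, ∀ y, ‖V y‖ ≤ B)
  (hVr : ∀ (w : InfinitePlace L) (k : ℝ → ℝ), ContDiff ℝ ∞ k → HasCompactSupport k → ∀ y,
    kint (fun p => k (H3.coshDist (y w) p)) (fun p => V (Function.update y w p)) = hT k * V y)

omit [IsTotallyComplex L] in
include hVt hVc hVb hVr in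
/-- A radial eigenfunction transforming by the character is, along each height, `t` times a
decaying solution of the Whittaker equation. -/
theorem isWhit_of_radial (y : InfPts L) (w : InfinitePlace L) :
    IsWhit (4 * Real.pi)
      (fun t => if h : 0 < t then V (Function.update y w ⟨(y w).z, t, h⟩) / (t : ℂ) else 0) := by
  obtain ⟨B, hB⟩ := hVb
  set A : ℝ → ℂ := fun t => if h : 0 < t then
    Complex.exp ((-(4 * Real.pi * (y w).z.re) : ℝ) * Complex.I) *
      V (Function.update y w ⟨(y w).z, t, h⟩) else 0
  have hFA : ∀ p : H3, V (Function.update y w p) =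
      Complex.exp ((4 * Real.pi * p.z.re : ℝ) * Complex.I) * A p.t := fun p => by
    rw [update_eq hVt w y p]
    simp only [A, dif_pos p.t_pos]
    rw [← mul_assoc, ← Complex.exp_add, Complex.sub_re]
    push_cast
    ring_nf
  obtain ⟨A1, A2, hA⟩ := ode_of_radial (F := fun p => V (Function.update y w p)) (A := A)
    (μ := 4 * Real.pi) ⟨(hVc w y).measurable,
      fun _ _ _ _ => ⟨B, fun p _ => hB _⟩⟩ hFA (h := hT)
    (fun k hk hs p => by
      have := hVr w k hk hs (Function.update y w p)
      simpa [Function.update_idem] using this)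
    contDiff_bump bump.hasCompactSupport hT_bump_ne_zero
  set κ := Complex.exp (((4 * Real.pi * (y w).z.re) : ℝ) * Complex.I)
  set u : ℝ → ℂ :=
    fun t => if h : 0 < t then V (Function.update y w ⟨(y w).z, t, h⟩) / (t : ℂ) else 0
  have hU : ∀ t, 0 < t → u t = κ * (A t / (t : ℂ)) := fun t ht => by
    simp only [u, A, κ, dif_pos ht]
    rw [mul_div_assoc', ← mul_assoc, ← Complex.exp_add]
    push_cast
    ring_nf
    simp
  refine ⟨fun t => κ * (A1 t / (t : ℂ) - A t / (t : ℂ) ^ 2),
    fun t => κ * (A2 t / (t : ℂ) - 2 * A1 t / (t : ℂ) ^ 2 + 2 * A t / (t : ℂ) ^ 3),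
    fun t ht => ?_, ?_⟩
  · obtain ⟨h1, h2, h3⟩ := hA t ht
    have htc : (t : ℂ) ≠ 0 := by exact_mod_cast ht.ne'
    have hid : HasDerivAt (fun x : ℝ => (x : ℂ)) 1 t := by
      simpa using (hasDerivAt_id t).ofReal_comp
    refine ⟨?_, ?_, ?_⟩
    · refine (((h1.div hid htc).const_mul κ).congr_of_eventuallyEq ?_).congr_deriv ?_
      · filter_upwards [Ioi_mem_nhds ht] with x hx using by rw [hU x hx]; rfl
      · field_simp
    · have hd2 : HasDerivAt (fun x : ℝ => (x : ℂ) ^ 2) (2 * (t : ℂ)) t := by
        simpa using hid.fun_pow 2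
      refine (((h2.div hid htc).sub (h1.div hd2 (pow_ne_zero 2 htc))).const_mul κ).congr_deriv ?_
      field_simp
      ring
    · rw [hT_lapK contDiff_bump bump.hasCompactSupport hT_bump_ne_zero] at h3
      have h4 : (t : ℂ) ^ 2 * (A2 t - ((4 * Real.pi : ℝ) : ℂ) ^ 2 * A t) -
          (t : ℂ) * A1 t + A t = 0 :=
        (mul_eq_zero.1 (show hT (bump : ℝ → ℝ) * _ = 0 by linear_combination h3)).resolve_left
          hT_bump_ne_zero
      rw [hU t ht]
      field_simp
      linear_combination κ * h4
  · rw [tendsto_zero_iff_norm_tendsto_zero]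
    refine squeeze_zero' (Eventually.of_forall fun _ => norm_nonneg _) ?_
      (tendsto_const_nhds.div_atTop tendsto_id : Tendsto (fun t : ℝ => B / t) atTop (𝓝 0))
    filter_upwards [eventually_gt_atTop 0] with t ht
    simp only [u]
    rw [dif_pos ht, norm_div, Complex.norm_real, Real.norm_eq_abs, abs_of_pos ht]
    exact div_le_div_of_nonneg_right (hB _) ht.le

end Radial

end FermatAgent.LT.Whit
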