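import Mathlib
import Fermat.Agent.LT.Base.Periodic

/-!
# Means of periodic functions

A continuous function periodic with respect to two lattices has the same mean over both, and a
continuous periodic function all of whose Fourier coefficients vanish is zero.
-/

set_option autoImplicit false

noncomputable section

open MeasureTheory UnitAddTorus Filter
open FermatAgent.LT.Periodic (ivec)
open scoped Topology ComplexConjugate

namespace FermatAgent.LT.Whit

/-- The probability measure on the circle. -/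
local instance haarMeasureSpace : MeasureSpace UnitAddCircle := ⟨AddCircle.haarAddCircle⟩

local instance haarIsProb : IsProbabilityMeasure (volume : Measure UnitAddCircle) :=
  inferInstanceAs (IsProbabilityMeasure AddCircle.haarAddCircle)

variable {ι : Type} [Fintype ι] {E : Type*} [NormedAddCommGroup E] [NormedSpace ℝ E]

/-- The unit cube. -/
def cube (ι : Type) [Fintype ι] : Set (ι → ℝ) := {x | ∀ i, x i ∈ Set.Ioc (0 : ℝ) 1}

/-- The cube has volume one. -/
lemma volume_cube : volume (cube ι) = 1 := by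
  have h : cube ι = Set.univ.pi fun _ : ι => Set.Ioc (0 : ℝ) 1 := by ext x; simp [cube, Set.pi]
  rw [h, volume_pi_pi]
  simp

instance isFiniteMeasure_cube : IsFiniteMeasure (volume.restrict (cube ι)) :=
  ⟨by rw [Measure.restrict_apply_univ, volume_cube]; simp⟩

/-- Bounded continuous functions are integrable on the cube. -/
lemma integrable_cube {g : (ι → ℝ) → ℂ} (hg : Continuous g) {B : ℝ} (hB : ∀ x, ‖g x‖ ≤ B) :
    Integrable g (volume.restrict (cube ι)) :=
  Integrable.of_bound hg.aestronglyMeasurable B (ae_of_all _ hB)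

/-- Periodicity for the integral vectors. -/
def IsPeriodicZ {X : Type*} (g : (ι → ℝ) → X) : Prop := ∀ x n, g (x + ivec n) = g x

/-- The chosen representative of a point of the torus. -/
def rep (t : UnitAddTorus ι) : ι → ℝ := fun i => (AddCircle.equivIoc 1 0 (t i)).1

omit [Fintype ι] in
lemma exists_rep_add (x : ι → ℝ) :
    ∃ n : ι → ℤ, rep (fun i => (x i : UnitAddCircle)) = x + ivec n := by
  have h : ∀ i, ∃ n : ℤ, rep (fun i => (x i : UnitAddCircle)) i = x i + n := fun i => by
    have h1 := AddCircle.coe_equivIoc (p := (1 : ℝ)) (a := 0) (y := (x i : UnitAddCircle))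
    obtain ⟨n, hn⟩ := AddSubgroup.mem_zmultiples_iff.mp (QuotientAddGroup.eq.mp h1.symm)
    refine ⟨n, ?_⟩
    show (AddCircle.equivIoc 1 0 (x i : UnitAddCircle)).1 = _
    simp only [zsmul_eq_mul, mul_one] at hn
    linarith
  choose n hn using h
  exact ⟨n, funext fun i => hn i⟩

omit [Fintype ι] in
lemma apply_rep {X : Type*} {g : (ι → ℝ) → X} (hg : IsPeriodicZ g) (x : ι → ℝ) :
    g (rep fun i => (x i : UnitAddCircle)) = g x := by
  obtain ⟨n, hn⟩ := exists_rep_add x
  rw [hn, hg]

lemma setIntegral_box {g : (ι → ℝ) → ℂ} (hg : IsPeriodicZ g) (a : ι → ℝ) :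
    ∫ x in {x : ι → ℝ | ∀ i, x i ∈ Set.Ioc (a i) (a i + 1)}, g x =
      ∫ t : UnitAddTorus ι, g (rep t) := by
  rw [integral_preimage (fun t => g (rep t)) a]
  simp only [apply_rep hg]

lemma setIntegral_cube_eq {g : (ι → ℝ) → ℂ} (hg : IsPeriodicZ g) :
    ∫ x in cube ι, g x = ∫ t : UnitAddTorus ι, g (rep t) := by
  rw [← setIntegral_box hg 0]
  congr 2
  simp [cube]

/-- The mean is invariant under translations. -/
theorem setIntegral_cube_add {g : (ι → ℝ) → ℂ} (hg : IsPeriodicZ g) (c : ι → ℝ) :
    ∫ x in cube ι, g (x + c) = ∫ x in cube ι, g x := by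
  rw [setIntegral_cube_eq hg, ← setIntegral_box hg c]
  have h : cube ι = (fun x => x + c) ⁻¹' {x : ι → ℝ | ∀ i, x i ∈ Set.Ioc (c i) (c i + 1)} := by
    ext x
    simp [cube, add_comm (c _)]
  rw [h]
  exact (measurePreserving_add_right volume c).setIntegral_preimage_emb
    (measurableEmbedding_addRight c) g _

/-- A continuous function periodic for two lattices has the same mean over both. -/
theorem mean_eq (A₁ A₂ : (ι → ℝ) ≃L[ℝ] E) {G : E → ℂ} (hG : Continuous G) {B : ℝ}
    (hB : ∀ v, ‖G v‖ ≤ B) (h1 : ∀ v n, G (v + A₁ (ivec n)) = G v)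
    (h2 : ∀ v n, G (v + A₂ (ivec n)) = G v) :
    ∫ c in cube ι, G (A₁ c) = ∫ c in cube ι, G (A₂ c) := by
  have key : ∀ (A : (ι → ℝ) ≃L[ℝ] E), (∀ v n, G (v + A (ivec n)) = G v) →
      ∀ v, ∫ c in cube ι, G (A c + v) = ∫ c in cube ι, G (A c) := by
    intro A hA v
    have hp : IsPeriodicZ fun c => G (A c) := fun x n => by
      show G (A (x + ivec n)) = _
      rw [map_add]; exact hA _ n
    have := setIntegral_cube_add hp (A.symm v)
    simpa only [map_add, A.apply_symm_apply] using this
  have hcont : Continuous fun p : (ι → ℝ) × (ι → ℝ) => G (A₁ p.1 + A₂ p.2) :=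
    hG.comp ((A₁.continuous.comp continuous_fst).add (A₂.continuous.comp continuous_snd))
  have hswap := integral_integral_swap (μ := volume.restrict (cube ι))
    (ν := volume.restrict (cube ι)) (f := fun x y => G (A₁ x + A₂ y))
    (Integrable.of_bound hcont.aestronglyMeasurable B (ae_of_all _ fun p => hB _))
  have e1 : ∀ x, ∫ y in cube ι, G (A₁ x + A₂ y) = ∫ y in cube ι, G (A₂ y) := fun x => by
    simp only [add_comm (A₁ x)]; exact key A₂ h2 _
  have e2 : ∀ y, ∫ x in cube ι, G (A₁ x + A₂ y) = ∫ x in cube ι, G (A₁ x) := fun y =>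
    key A₁ h1 _
  simp only [e1, e2, integral_const, measureReal_def, Measure.restrict_apply_univ, volume_cube,
    ENNReal.toReal_one, one_smul] at hswap
  exact hswap.symm

/-- The character of the torus attached to an integral vector. -/
def chr (n : ι → ℤ) (x : ι → ℝ) : ℂ :=
  Complex.exp (2 * (Real.pi : ℂ) * Complex.I * ((∑ i, (n i : ℝ) * x i : ℝ) : ℂ))

lemma mFourier_coe (n : ι → ℤ) (x : ι → ℝ) :
    mFourier n (fun i => (x i : UnitAddCircle)) = chr n x := by
  show ∏ i, fourier (n i) (x i : UnitAddCircle) = _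
  simp only [fourier_coe_apply, chr, Complex.ofReal_sum, Finset.mul_sum, Complex.exp_sum]
  refine Finset.prod_congr rfl fun i _ => ?_
  push_cast
  ring_nf

omit [Fintype ι] in
lemma isOpenQuotientMap_coe :
    IsOpenQuotientMap fun (x : ι → ℝ) (i : ι) => (x i : UnitAddCircle) :=
  IsOpenQuotientMap.piMap fun _ => QuotientAddGroup.isOpenQuotientMap_mk

/-- A periodic continuous function as a function on the torus. -/
def liftTorus {g : (ι → ℝ) → ℂ} (hg : IsPeriodicZ g) (hc : Continuous g) :
    C(UnitAddTorus ι, ℂ) where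
  toFun t := g (rep t)
  continuous_toFun := by
    rw [(isOpenQuotientMap_coe (ι := ι)).isQuotientMap.continuous_iff]
    show Continuous fun x : ι → ℝ => g (rep fun i => (x i : UnitAddCircle))
    simpa only [apply_rep hg] using hc

omit [Fintype ι] in
lemma liftTorus_coe {g : (ι → ℝ) → ℂ} (hg : IsPeriodicZ g) (hc : Continuous g) (x : ι → ℝ) :
    liftTorus hg hc (fun i => (x i : UnitAddCircle)) = g x := apply_rep hg x

lemma mFourierCoeff_liftTorus {g : (ι → ℝ) → ℂ} (hg : IsPeriodicZ g) (hc : Continuous g)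
    (n : ι → ℤ) : mFourierCoeff (liftTorus hg hc) n = ∫ x in cube ι, chr (-n) x * g x := by
  rw [mFourierCoeff_eq_integral _ n 0]
  simp only [liftTorus_coe, mFourier_coe, smul_eq_mul]
  congr 2
  simp [cube]

/-- A summable Fourier series represents the function. -/
theorem hasSum_fourier {g : (ι → ℝ) → ℂ} (hg : IsPeriodicZ g) (hc : Continuous g)
    (hsum : Summable fun n => ∫ x in cube ι, chr (-n) x * g x) (x : ι → ℝ) :
    HasSum (fun n => (∫ y in cube ι, chr (-n) y * g y) * chr n x) (g x) := by
  have h := hasSum_mFourier_series_apply_of_summable (f := liftTorus hg hc)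
    (by simpa only [funext (mFourierCoeff_liftTorus hg hc)] using hsum)
    (fun i => (x i : UnitAddCircle))
  simpa only [mFourierCoeff_liftTorus hg hc, mFourier_coe, liftTorus_coe, smul_eq_mul] using h

/-- Uniqueness of Fourier coefficients. -/
theorem eq_zero_of_fourier {g : (ι → ℝ) → ℂ} (hg : IsPeriodicZ g) (hc : Continuous g)
    (h0 : ∀ n, ∫ x in cube ι, chr (-n) x * g x = 0) (x : ι → ℝ) : g x = 0 := by
  have h := hasSum_fourier hg hc (by simpa only [h0] using summable_zero) x
  simp only [h0, zero_mul] at h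
  exact h.unique hasSum_zero

/-- Parseval. -/
theorem hasSum_sq_fourier {g : (ι → ℝ) → ℂ} (hg : IsPeriodicZ g) (hc : Continuous g) :
    HasSum (fun n => ‖∫ x in cube ι, chr (-n) x * g x‖ ^ 2) (∫ x in cube ι, ‖g x‖ ^ 2) := by
  have h := hasSum_sq_mFourierCoeff (ContinuousMap.toLp 2 volume ℂ (liftTorus hg hc))
  simp only [mFourierCoeff_toLp, mFourierCoeff_liftTorus] at h
  have e : ∫ t, ‖(ContinuousMap.toLp 2 volume ℂ (liftTorus hg hc)) t‖ ^ 2 =
      ∫ x in cube ι, ‖g x‖ ^ 2 := by
    rw [integral_congr_ae ((ContinuousMap.coeFn_toLp volume (liftTorus hg hc)).mono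
      fun t ht => by rw [ht]), integral_preimage (fun t => ‖liftTorus hg hc t‖ ^ 2) 0]
    simp only [liftTorus_coe]
    congr 2
    simp [cube]
  rwa [e] at h

end FermatAgent.LT.Whit
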