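import Fermat.Agent.LT.Whit.Adel
import Fermat.Agent.LT.Whit.Torus

/-!
# Translations at infinity and the trace character

The lattices `d 𝓞` in the translations at infinity, the additive character given by the trace, and
the elements of the field pairing integrally with such a lattice.
-/

set_option autoImplicit false

noncomputable section

open Matrix IsDedekindDomain NumberField Filter WithZero Module
open FermatAgent.LT.Periodic (ivec)
open FermatAgent.LT.Theta.LocalChar
open scoped MatrixGroups ComplexConjugate

namespace FermatAgent.LT.Whit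

variable {L : Type*} [Field L]

variable (L) in
/-- The translations at infinity. -/
abbrev InfV := InfinitePlace L → ℂ

/-- Horizontal translation. -/
def transl (x : InfV L) (y : InfPts L) : InfPts L :=
  fun w => ⟨(y w).z + x w, (y w).t, (y w).t_pos⟩

/-- The horizontal coordinate of a translate. -/
@[simp] lemma transl_z (x : InfV L) (y : InfPts L) (w : InfinitePlace L) :
    (transl x y w).z = (y w).z + x w := rfl

/-- Translations keep heights. -/
@[simp] lemma transl_t (x : InfV L) (y : InfPts L) (w : InfinitePlace L) :
    (transl x y w).t = (y w).t := rfl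

/-- Translations add. -/
lemma transl_add (x x' : InfV L) (y : InfPts L) : transl (x + x') y = transl x (transl x' y) :=
  funext fun w => H3.ext (by simp; ring) rfl

/-- The zero translation. -/
@[simp] lemma transl_zero (y : InfPts L) : transl (0 : InfV L) y = y :=
  funext fun w => H3.ext (by simp) rfl

/-- Translations are continuous. -/
lemma continuous_transl_right (y : InfPts L) : Continuous fun x : InfV L => transl x y :=
  continuous_pi fun w => H3.continuous_mk (continuous_const.add (continuous_apply w))
    continuous_const

/-- The action of diagonal classes. -/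
lemma dG_smul_apply (α : Lˣ) (y : InfPts L) (w : InfinitePlace L) :
    ((dG α : G2 L) • y) w = ⟨w.embedding (α : L) * (y w).z, ‖w.embedding (α : L)‖ * (y w).t,
      mul_pos (norm_pos_iff.mpr (by simp)) (y w).t_pos⟩ := by
  rw [infPts_smul_apply, ProjGenLinGroup.map_mk, H3.mk_smul, H3.smul_def]
  ext <;> simp [H3.act, H3.den, Matrix.det_fin_two]

/-- Diagonal classes normalise translations. -/
lemma dG_smul_transl (α : Lˣ) (x : InfV L) (y : InfPts L) :
    (dG α : G2 L) • transl x y = transl (infEmb L (α : L) * x) ((dG α : G2 L) • y) := by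
  funext w
  refine H3.ext ?_ ?_
  · rw [transl_z, dG_smul_apply, dG_smul_apply]
    simp [mul_add]
  · rw [transl_t, dG_smul_apply, dG_smul_apply]
    simp

variable [NumberField L]

variable (L) in
/-- The coordinates of a lattice of translations. -/
abbrev Idx := Fin (finrank ℚ L)

/-- Global translations act as translations. -/
lemma nB_smul (β : L) (y : InfPts L) : (nB β : G2 L) • y = transl (infEmb L β) y := by
  funext w
  obtain ⟨h1, h2⟩ := uB_smul_inf β y w
  exact H3.ext h2 h1

/-- The character of the translations. -/
def psiI (x : InfV L) : ℂ :=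
  Complex.exp (2 * (Real.pi : ℂ) * Complex.I * ((∑ w, 2 * (x w).re : ℝ) : ℂ))

/-- The character at infinity is additive. -/
lemma psiI_add (x x' : InfV L) : psiI (x + x') = psiI x * psiI x' := by
  rw [psiI, psiI, psiI, ← Complex.exp_add, ← mul_add, ← Complex.ofReal_add,
    ← Finset.sum_add_distrib]
  simp [mul_add]

@[simp] lemma psiI_zero : psiI (0 : InfV L) = 1 := by simp [psiI]

/-- The character at infinity is unitary. -/
lemma psiI_neg_mul_self (x : InfV L) : psiI (-x) * psiI x = 1 := by
  rw [← psiI_add, neg_add_cancel, psiI_zero]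

/-- The character at infinity has absolute value one. -/
lemma norm_psiI (x : InfV L) : ‖psiI x‖ = 1 := by
  rw [psiI, Complex.norm_exp]
  simp

/-- The character at infinity is continuous. -/
lemma continuous_psiI : Continuous (psiI : InfV L → ℂ) := by
  unfold psiI; fun_prop

variable [IsTotallyComplex L]

/-- The character on field elements is the trace character. -/
lemma psiI_infEmb (a : L) : psiI (infEmb L a) = eRat (Algebra.trace ℚ L a) := by
  rw [psiI, eRat]
  congr 2
  rw [Theta.Approx.trace_eq_sum_places, Complex.ofReal_sum]
  rfl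

/-- The character is trivial on integers. -/
lemma psiI_infEmb_int (a : 𝓞 L) : psiI (infEmb L (a : L)) = 1 := by
  obtain ⟨n, hn⟩ := trace_of_integral (b := (a : L)) fun w => w.valuation_le_one a
  rw [psiI_infEmb, hn, eRat_intCast]

variable (L) in
/-- An indexing of the integral basis. -/
def idxEquiv : Free.ChooseBasisIndex ℤ (𝓞 L) ≃ Idx L :=
  Fintype.equivFinOfCardEq <| by
    rw [← Module.finrank_eq_card_chooseBasisIndex, RingOfIntegers.rank]

variable (L) in
/-- The integral basis indexed by numbers. -/
def intB : Basis (Idx L) ℚ L := (integralBasis L).reindex (idxEquiv L)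

omit [IsTotallyComplex L] in
/-- The basis is integral. -/
lemma intB_isInt (i : Idx L) : ∃ a : 𝓞 L, (a : L) = intB L i :=
  ⟨RingOfIntegers.basis L ((idxEquiv L).symm i), by simp [intB, integralBasis_apply]⟩

variable (L) in
/-- The lattice of integers as the image of the integral vectors. -/
def latO : (Idx L → ℝ) ≃L[ℝ] InfV L :=
  (((infBasis L).reindex (idxEquiv L)).equivFun.symm).toContinuousLinearEquiv

/-- The lattice map in coordinates. -/
lemma latO_apply (c : Idx L → ℝ) : latO L c = ∑ i, c i • infEmb L (intB L i) := by
  show ((infBasis L).reindex (idxEquiv L)).equivFun.symm c = _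
  rw [Basis.equivFun_symm_apply]
  simp [intB, infBasis_apply]

/-- The lattice map on integer vectors. -/
lemma latO_ivec (n : Idx L → ℤ) : latO L (ivec n) = infEmb L (∑ i, (n i : L) * intB L i) := by
  rw [latO_apply, map_sum]
  refine Finset.sum_congr rfl fun i _ => funext fun w => ?_
  simp [ivec]

/-- Multiplication by an element. -/
def mulEquiv (d : Lˣ) : InfV L ≃L[ℝ] InfV L :=
  ContinuousLinearEquiv.piCongrRight fun w =>
    ((LinearEquiv.smulOfNeZero ℂ ℂ (w.embedding (d : L))
      (by simp)).restrictScalars ℝ).toContinuousLinearEquiv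

/-- The lattice `d 𝓞` as the image of the integral vectors. -/
def latA (d : Lˣ) : (Idx L → ℝ) ≃L[ℝ] InfV L := (latO L).trans (mulEquiv d)

/-- The scaled lattice map. -/
lemma latA_apply (d : Lˣ) (c : Idx L → ℝ) : latA d c = infEmb L (d : L) * latO L c := rfl

/-- The scaled lattice map on integer vectors. -/
lemma latA_ivec (d : Lˣ) (n : Idx L → ℤ) :
    ∃ β : 𝓞 L, latA d (ivec n) = infEmb L ((d : L) * (β : L)) := by
  choose b hb using intB_isInt (L := L)
  refine ⟨∑ i, (n i : 𝓞 L) * b i, ?_⟩
  rw [latA_apply, latO_ivec, map_mul]
  congr 2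
  push_cast [← hb]
  rfl

/-- The elements pairing integrally with the lattice and the integral vectors. -/
theorem exists_dual (d : Lˣ) (n : Idx L → ℤ) :
    ∃ ξ : L, (∀ c, psiI (infEmb L ξ * latA d c) = chr n c) ∧
      (∀ β : 𝓞 L, psiI (infEmb L (ξ * ((d : L) * (β : L)))) = 1) ∧ (ξ = 0 → n = 0) := by
  classical
  set b' := (Algebra.traceForm ℚ L).dualBasis (traceForm_nondegenerate ℚ L) (intB L)
  set η : L := ∑ i, (n i : ℚ) • b' i
  have hη : ∀ j, Algebra.trace ℚ L (η * intB L j) = (n j : ℚ) := fun j => by
    simp only [η, Finset.sum_mul, map_sum, smul_mul_assoc, map_smul, smul_eq_mul]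
    rw [Finset.sum_eq_single j]
    · rw [← Algebra.traceForm_apply, LinearMap.BilinForm.apply_dualBasis_left]; simp
    · intro i _ hi
      rw [← Algebra.traceForm_apply, LinearMap.BilinForm.apply_dualBasis_left, if_neg (Ne.symm hi),
        mul_zero]
    · simp
  have hc : ∀ c, psiI (infEmb L (η / (d : L)) * latA d c) = chr n c := by
    intro c
    rw [latA_apply, ← mul_assoc, ← map_mul, div_mul_cancel₀ _ d.ne_zero, psiI, chr]
    congr 3
    calc ∑ w, 2 * ((infEmb L η * latO L c) w).re
        = ∑ j, c j * ∑ w : InfinitePlace L, 2 * (w.embedding (η * intB L j)).re := by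
          simp only [latO_apply, Pi.mul_apply, Finset.sum_apply, Pi.smul_apply, infEmb_apply,
            Finset.mul_sum, Complex.re_sum, mul_smul_comm, Complex.smul_re, smul_eq_mul, map_mul]
          rw [Finset.sum_comm]
          exact Finset.sum_congr rfl fun j _ => Finset.sum_congr rfl fun w _ => by ring
      _ = ∑ j, (n j : ℝ) * c j := by
          refine Finset.sum_congr rfl fun j _ => ?_
          have h := Theta.Approx.trace_eq_sum_places (η * intB L j)
          rw [hη j, ← Complex.ofReal_sum] at h
          have h' : ((n j : ℝ) : ℂ) =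
              ((∑ w : InfinitePlace L, 2 * (w.embedding (η * intB L j)).re : ℝ) : ℂ) := by
            rw [← h]; simp
          rw [← Complex.ofReal_inj.mp h', mul_comm]
  refine ⟨η / (d : L), hc, fun β => ?_, fun h => ?_⟩
  · have hβ : (β : L) = ∑ i,
        ((RingOfIntegers.basis L).repr β ((idxEquiv L).symm i) : L) * intB L i := by
      conv_lhs => rw [← (RingOfIntegers.basis L).sum_repr β]
      rw [← Equiv.sum_comp (idxEquiv L)]
      simp [intB, integralBasis_apply, zsmul_eq_mul]
    rw [hβ, map_mul, map_mul, ← latO_ivec, ← latA_apply, hc, chr]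
    rw [← Complex.exp_zero]
    refine (Complex.exp_eq_exp_iff_exists_int.mpr
      ⟨∑ i, n i * (RingOfIntegers.basis L).repr β ((idxEquiv L).symm i), ?_⟩)
    simp only [ivec]
    push_cast
    ring
  · funext j
    have := hη j
    rw [(div_eq_zero_iff.mp h).resolve_right d.ne_zero, zero_mul, map_zero] at this
    exact_mod_cast this.symm

end FermatAgent.LT.Whit
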