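import Fermat.Agent.LT2.Whit.Hecke

/-!
# Automorphic functions of a congruence level

A function on the adelic space invariant under `PGL₂(L)` and of level `S` is a form of deep level
one at the places of `S`, so its Whittaker function and its rules are those of deep level.
-/

set_option autoImplicit false

noncomputable section

open Matrix IsDedekindDomain NumberField Filter MeasureTheory WithZero
open scoped MatrixGroups

namespace FermatAgent.LT.Whit

variable {L : Type*} [Field L] [NumberField L] [IsTotallyComplex L]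

/-- An automorphic function of level `S`: invariant on the left by `PGL₂(L)` and on the right by
the level, continuous at infinity and bounded. -/
structure IsForm (S : Finset (HeightOneSpectrum (𝓞 L))) (f : InfPts L → adelGrp L → ℂ) : Prop where
  glob_smul : ∀ (γ : G2 L) (y : InfPts L) (a : adelGrp L), f (γ • y) (glob γ * a) = f y a
  right_inv : ∀ (y : InfPts L) (a u : adelGrp L), u ∈ levelGrp (Level.ofFinset S) →
    f y (a * u) = f y a
  cont : ∀ a, Continuous fun y => f y a
  bdd : ∃ B, ∀ y a, ‖f y a‖ ≤ B

variable (S : Finset (HeightOneSpectrum (𝓞 L)))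

omit [IsTotallyComplex L] in
/-- The first congruence level lies in the congruence subgroup. -/
lemma locKN_one_le (v : HeightOneSpectrum (𝓞 L)) : LT2.Whit.locKN v 1 ≤ locK1 v := by
  refine Subgroup.map_mono fun g hg => ?_
  have h : ∀ i j, v.valuation L ((g.val - 1) i j) < 1 := fun i j =>
    (hg.2 i j).trans_lt (by rw [← exp_zero, exp_lt_exp]; omega)
  have h01 := h 0 1
  have h10 := h 1 0
  simp at h01 h10
  refine ⟨hg.1, h01, h10, ?_⟩
  rw [show g.val 0 0 - g.val 1 1 = (g.val - 1) 0 0 - (g.val - 1) 1 1 by simp]
  exact (Valuation.map_sub _ _ _).trans_lt (max_lt (h 0 0) (h 1 1))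

omit [IsTotallyComplex L] in
lemma deepLvl_one_le (v : HeightOneSpectrum (𝓞 L)) :
    (LT2.Whit.deepLvl S 1).loc v ≤ (Level.ofFinset S).loc v := by
  by_cases hv : v ∈ S
  · rw [LT2.Whit.deepLvl_loc_of_mem hv, ofFinset_loc_of_mem hv]; exact locKN_one_le v
  · rw [LT2.Whit.deepLvl_loc_of_notMem hv, ofFinset_loc_of_notMem hv]

variable {S}
variable {f g : InfPts L → adelGrp L → ℂ} (hf : IsForm S f) (hg : IsForm S g)

section Deep

omit [IsTotallyComplex L]

include hf in
/-- A form of level `S` is a form of deep level. -/
theorem IsForm.deep : LT2.Whit.IsForm f :=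
  ⟨hf.glob_smul, ⟨S, 1, fun y a _ hu => hf.right_inv y a _
    (LT2.Whit.levelGrp_mono (deepLvl_one_le S) hu)⟩, hf.cont, hf.bdd⟩

include hf in
/-- At a place outside the level a form is fixed by the maximal compact subgroup. -/
theorem IsForm.fixedAt {v : HeightOneSpectrum (𝓞 L)} (hv : v ∉ S) :
    LT2.Whit.FixedAt f v (locK v) := fun g hg y a =>
  hf.right_inv y a _ (atV_mem_levelGrp (by rw [ofFinset_loc_of_notMem hv]; exact hg))

end Deep

include hf in
/-- The Whittaker function is invariant under the level. -/
theorem IsForm.W_level {u : adelGrp L} (hu : u ∈ levelGrp (Level.ofFinset S)) (y : InfPts L)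
    (a : adelGrp L) : LT2.Whit.W f y (a * u) = LT2.Whit.W f y a :=
  hf.deep.W_right (fun y b => hf.right_inv y b u hu) y a

section

omit [IsTotallyComplex L]

include hf in
/-- Translates by integral elements are forms. -/
lemma IsForm.rt {h : adelGrp L} (hh : ∀ v, h.1 v ∈ locK v) : IsForm S (rt h f) where
  glob_smul γ y a := by
    show f _ (glob γ * a * h) = f y (a * h)
    rw [mul_assoc, hf.glob_smul]
  right_inv y a u hu := by
    show f y (a * u * h) = f y (a * h)
    rw [show a * u * h = a * h * (h⁻¹ * u * h) by group,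
      hf.right_inv _ _ _ (conj_mem_levelGrp S hh hu)]
  cont a := hf.cont (a * h)
  bdd := hf.bdd.imp fun B hB y a => hB y (a * h)

/-- Zero is a form. -/
lemma IsForm.zero : IsForm S (0 : InfPts L → adelGrp L → ℂ) :=
  ⟨fun _ _ _ => rfl, fun _ _ _ _ => rfl, fun _ => continuous_const, ⟨0, fun _ _ => by simp⟩⟩

include hf hg in
/-- Sums of forms are forms. -/
lemma IsForm.add : IsForm S (f + g) where
  glob_smul γ y a := by simp [hf.glob_smul, hg.glob_smul]
  right_inv y a u hu := by simp [hf.right_inv _ _ _ hu, hg.right_inv _ _ _ hu]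
  cont a := (hf.cont a).add (hg.cont a)
  bdd := (hf.deep.add hg.deep).bdd

include hf in
/-- Multiples of forms are forms. -/
lemma IsForm.smul (r : ℂ) : IsForm S (r • f) where
  glob_smul γ y a := by simp [hf.glob_smul]
  right_inv y a u hu := by simp [hf.right_inv _ _ _ hu]
  cont a := (hf.cont a).const_smul r
  bdd := (hf.deep.smul r).bdd

include hf in
/-- Differences of forms are forms. -/
lemma IsForm.sub (hg : IsForm S g) : IsForm S (f - g) := by
  rw [show f - g = f + (-1 : ℂ) • g by simp [sub_eq_add_neg]]
  exact hf.add (hg.smul _)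

/-- Finite sums of forms are forms. -/
lemma IsForm.sum {ι : Type*} (s : Finset ι) (F : ι → InfPts L → adelGrp L → ℂ)
    (h : ∀ i ∈ s, IsForm S (F i)) : IsForm S (∑ i ∈ s, F i) := by
  classical
  induction s using Finset.induction_on with
  | empty => simpa using IsForm.zero
  | insert b s hb ih =>
    rw [Finset.sum_insert hb]
    exact (h b (Finset.mem_insert_self _ _)).add (ih fun i hi => h i (Finset.mem_insert_of_mem hi))

end

include hf in
/-- At a place the Whittaker function vanishes from the second layer above the conductor on. -/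
theorem IsForm.W_eq_zero_of_lt {v : HeightOneSpectrum (𝓞 L)} {a : adelGrp L} {α : Lˣ}
    (ha : a.1 v = dG α) (hα : exp (cnd v + 2) ≤ v.valuation L (α : L)) (y : InfPts L) :
    LT2.Whit.W f y a = 0 := by
  refine hf.deep.W_eq_zero_of_fix (k := -1) (fun b hb y c => ?_) ha ?_ y
  · exact hf.right_inv y c _ (atV_mem_levelGrp (locK1_le_ofFinset S v (nB_mem_locK1
      (hb.trans_lt (by rw [← exp_zero, exp_lt_exp]; norm_num)))))
  · calc exp (cnd v + 1) = exp (cnd v + 2) * exp (-1 : ℤ) := by rw [← exp_add]; congr 1; ring
      _ ≤ v.valuation L (α : L) * exp (-1) := mul_le_mul' hα le_rfl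

end FermatAgent.LT.Whit
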