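import Fermat.Agent.LT.Whit.Char

/-!
# Means along the unipotent group

The mean of the translates of a function on the adelic space against an additive character, over a
lattice in the translations.
-/

set_option autoImplicit false

noncomputable section

open Matrix IsDedekindDomain NumberField Filter MeasureTheory
open FermatAgent.LT.Periodic (ivec)
open FermatAgent.LT.Theta.LocalChar
open scoped MatrixGroups

namespace FermatAgent.LT.Whit

variable {L : Type*} [Field L] [NumberField L] [IsTotallyComplex L]
  {f : InfPts L → adelGrp L → ℂ}

/-- Right translation. -/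
def rt (h : adelGrp L) (f : InfPts L → adelGrp L → ℂ) : InfPts L → adelGrp L → ℂ :=
  fun y a => f y (a * h)

/-- The mean against the character of `ξ` over a lattice. -/
def meanAt (f : InfPts L → adelGrp L → ℂ) (ξ : L) (d : Lˣ) (y : InfPts L) (a : adelGrp L) : ℂ :=
  ∫ c in cube (Idx L), f (transl (latA d c) y) a * psiI (-(infEmb L ξ * latA d c))

/-- The character is trivial on the period lattice. -/
lemma psiI_latA {ξ : L} {d : Lˣ} (hξ : ∀ β : 𝓞 L, psiI (infEmb L (ξ * ((d : L) * (β : L)))) = 1)
    (n : Idx L → ℤ) : psiI (-(infEmb L ξ * latA d (ivec n))) = 1 := by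
  obtain ⟨β, hβ⟩ := latA_ivec d n
  have h := psiI_neg_mul_self (infEmb L ξ * latA d (ivec n))
  rwa [hβ, ← map_mul, hξ, mul_one, map_mul, ← hβ] at h

omit [IsTotallyComplex L] in
/-- The integrand is continuous. -/
lemma continuous_integrand (hc : ∀ a, Continuous fun y => f y a) (ξ : L) (y : InfPts L)
    (a : adelGrp L) :
    Continuous fun v : InfV L => f (transl v y) a * psiI (-(infEmb L ξ * v)) :=
  ((hc a).comp (continuous_transl_right y)).mul
    (continuous_psiI.comp (continuous_const.mul continuous_id).neg)

/-- The function of a point on a horosphere in lattice coordinates. -/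
def slice (f : InfPts L → adelGrp L → ℂ) (d : Lˣ) (y : InfPts L) (a : adelGrp L) :
    (Idx L → ℝ) → ℂ :=
  fun c => f (transl (latA d c) y) a

end FermatAgent.LT.Whit
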