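import Fermat.Agent.LT.Whit.Arch
import Fermat.Agent.LT.Whit.Tame3

/-!
# Vanishing from the value at the base point

A radial eigenfunction transforming by the character under the translations at infinity vanishes
once it vanishes at the base point.
-/

set_option autoImplicit false

noncomputable section

open Matrix IsDedekindDomain NumberField Filter WithZero
open scoped ContDiff MatrixGroups

namespace FermatAgent.LT.Whit

variable {L : Type*} [Field L] [NumberField L] [IsTotallyComplex L]

/-- The base point at infinity. -/
def baseY : InfPts L := fun _ => H3.base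

omit [NumberField L] [IsTotallyComplex L] in
open Classical in
lemma update_self_z (y : InfPts L) (w : InfinitePlace L) :
    Function.update y w ⟨(y w).z, (y w).t, (y w).t_pos⟩ = y := Function.update_eq_self w y

omit [IsTotallyComplex L] in
open Classical in
/-- A bounded radial eigenfunction transforming by the character under translations vanishes if
it vanishes at the base point. -/
theorem eq_zero_of_base {V : InfPts L → ℂ}
    (hVt : ∀ (x : InfV L) (y : InfPts L), V (transl x y) = psiI x * V y)
    (hVc : ∀ (w : InfinitePlace L) (y : InfPts L),
      Continuous fun p : H3 => V (Function.update y w p))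
    (hVb : ∃ B, ∀ y, ‖V y‖ ≤ B)
    (hVr : ∀ (w : InfinitePlace L) (k : ℝ → ℝ), ContDiff ℝ ∞ k → HasCompactSupport k → ∀ y,
      kint (fun p => k (H3.coshDist (y w) p)) (fun p => V (Function.update y w p)) = hT k * V y)
    (h0 : V baseY = 0) (y : InfPts L) : V y = 0 := by
  suffices key : ∀ F : Finset (InfinitePlace L), ∀ y : InfPts L, (∀ w ∉ F, (y w).t = 1) →
      V y = 0 from key Finset.univ y (by simp)
  intro F
  induction F using Finset.induction_on with
  | empty =>
    intro y hy
    have e : y = transl (fun w => (y w).z) baseY := funext fun w =>
      H3.ext (by simp [baseY, H3.base]) (by simp [baseY, H3.base, hy w (Finset.notMem_empty w)])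
    rw [e, hVt, h0, mul_zero]
  | insert w F _ ih =>
    intro y hy
    have hu := isWhit_of_radial hVt hVc hVb hVr y w
    set u : ℝ → ℂ :=
      fun t => if h : 0 < t then V (Function.update y w ⟨(y w).z, t, h⟩) / (t : ℂ) else 0
    have h1 : u 1 = 0 := by
      simp only [u]
      rw [dif_pos one_pos, ih _ fun v hv => ?_, zero_div]
      by_cases hvw : v = w
      · subst hvw; simp
      · rw [Function.update_of_ne hvw]; exact hy v (by simp [hv, hvw])
    have ht : u (y w).t = 0 := by
      by_contra hne
      exact hu.ne_zero (by positivity) (y w).t_pos one_pos hne h1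
    simp only [u] at ht
    rw [dif_pos (y w).t_pos, update_self_z, div_eq_zero_iff] at ht
    exact ht.resolve_right (by exact_mod_cast (y w).t_pos.ne')

omit [IsTotallyComplex L] in
/-- Every valuation is that of a power of the uniformiser. -/
lemma pow_eq_unif (v : HeightOneSpectrum (𝓞 L)) (α : Lˣ) :
    ∃ n : ℤ, v.valuation L (α : L) = v.valuation L ((unifU v ^ n : Lˣ) : L) :=
  ⟨-log (v.valuation L (α : L)), by
    rw [v_unifU_zpow, neg_neg, exp_log ((Valuation.ne_zero_iff _).2 α.ne_zero)]⟩

end FermatAgent.LT.Whit
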